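/-
Fermat/Agent/AV/Curv33/Iface.lean (helper33) -- programme AV (S26 + S27), brick CURV, INTERFACE.

The shape of "a product of pointed smooth proper curves mapping to a group scheme `A`" consumed by
SQ / CUBE / UPB / DEG, and the statement produced by CURV (and, for Jacobians, by Jacobi inversion).

* `PointedCurve K`            : a smooth proper integral curve over `K` with a `K`-point (S25 format);
* `CurveTo f e`               : a pointed curve with a `K`-morphism `φ : C ⟶ A` sending the base
                                point to a given `K`-point `e` of `f : A ⟶ Spec K`;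
* `prodObj l`, `prodHom l`    : the product over `Spec K` of a LIST of curves,
                                `prod [] = Spec K`, `prod (C :: l) = C ×[Spec K] prod l`;
* `prodFst`, `prodSnd`        : the two projections of `prod (C :: l)`;
* `prodBase l`                : the base point of the product;
* `sumMap G l`                : `σ(x₁, …, x_N) = φ₁ x₁ + (φ₂ x₂ + (… + 0))` for a group law `G` on `f`;
* `sumMap_prodBase`           : `σ(base point) = 0`;
* `CurvStatement`             : the OUTPUT of brick CURV.
-/
import Mathlib
import Fermat.Prelude.Def_GoodReductionJacobian_RelativeGroupLawKernel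

set_option autoImplicit false

open CategoryTheory CategoryTheory.Limits AlgebraicGeometry NeronModelInfra GoodReductionJacobian

universe u

noncomputable section

namespace Fermat.Agent.AV.Curv33

variable {K : Type u} [Field K]

/-- A pointed smooth proper integral curve over `K`, in the format of S25. -/
structure PointedCurve (K : Type u) [Field K] where
  C : Scheme.{u}
  c : C ⟶ Spec (CommRingCat.of K)
  isProper : IsProper c
  smooth : SmoothOfRelativeDimension 1 c
  isIntegral : IsIntegral C
  ε : SchemeHomOver (𝟙 (Spec (CommRingCat.of K))) c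

attribute [instance] PointedCurve.isProper PointedCurve.smooth PointedCurve.isIntegral

variable {A : Scheme.{u}} (f : A ⟶ Spec (CommRingCat.of K))
  (e : SchemeHomOver (𝟙 (Spec (CommRingCat.of K))) f)

/-- A pointed curve with a pointed `K`-morphism to `(A, e)`. -/
structure CurveTo extends PointedCurve K where
  φ : SchemeHomOver c f
  φ_ε : ε.1 ≫ φ.1 = e.1

variable {f e}

/-- The product over `Spec K` of a list of curves: `prod [] = Spec K`,
`prod (C :: l) = C ×[Spec K] prod l`. -/
def prodOver : List (CurveTo f e) → Over (Spec (CommRingCat.of K))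
  | [] => Over.mk (𝟙 (Spec (CommRingCat.of K)))
  | X :: l => Over.mk (pullback.fst X.c (prodOver l).hom ≫ X.c)

/-- The underlying scheme of the product. -/
abbrev prodObj (l : List (CurveTo f e)) : Scheme.{u} := (prodOver l).left

/-- The structure morphism of the product. -/
abbrev prodHom (l : List (CurveTo f e)) : prodObj l ⟶ Spec (CommRingCat.of K) := (prodOver l).hom

@[simp] theorem prodObj_nil : prodObj ([] : List (CurveTo f e)) = Spec (CommRingCat.of K) := rfl

@[simp] theorem prodHom_nil : prodHom ([] : List (CurveTo f e)) = 𝟙 _ := rfl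

theorem prodObj_cons (X : CurveTo f e) (l : List (CurveTo f e)) :
    prodObj (X :: l) = pullback X.c (prodHom l) := rfl

/-- The projection of `prod (X :: l)` onto the first curve. -/
def prodFst (X : CurveTo f e) (l : List (CurveTo f e)) : prodObj (X :: l) ⟶ X.C :=
  pullback.fst X.c (prodHom l)

/-- The projection of `prod (X :: l)` onto the product of the remaining curves. -/
def prodSnd (X : CurveTo f e) (l : List (CurveTo f e)) : prodObj (X :: l) ⟶ prodObj l :=
  pullback.snd X.c (prodHom l)

@[reassoc]
theorem prodFst_c (X : CurveTo f e) (l : List (CurveTo f e)) :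
    prodFst X l ≫ X.c = prodHom (X :: l) := rfl

@[reassoc]
theorem prodSnd_hom (X : CurveTo f e) (l : List (CurveTo f e)) :
    prodSnd X l ≫ prodHom l = prodHom (X :: l) :=
  pullback.condition.symm

/-- The base point of the product. -/
def prodBase : (l : List (CurveTo f e)) → SchemeHomOver (𝟙 (Spec (CommRingCat.of K))) (prodHom l)
  | [] => ⟨𝟙 _, Category.id_comp _⟩
  | X :: l => ⟨pullback.lift X.ε.1 (prodBase l).1 (by rw [X.ε.2, (prodBase l).2]), by
      show pullback.lift _ _ _ ≫ (pullback.fst X.c (prodHom l) ≫ X.c) = _
      rw [pullback.lift_fst_assoc, X.ε.2]⟩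

@[reassoc (attr := simp)]
theorem prodBase_cons_fst (X : CurveTo f e) (l : List (CurveTo f e)) :
    (prodBase (X :: l)).1 ≫ prodFst X l = X.ε.1 :=
  pullback.lift_fst _ _ _

@[reassoc (attr := simp)]
theorem prodBase_cons_snd (X : CurveTo f e) (l : List (CurveTo f e)) :
    (prodBase (X :: l)).1 ≫ prodSnd X l = (prodBase l).1 :=
  pullback.lift_snd _ _ _

variable (G : RelativeGroupLaw K f)

/-- The sum map `σ(x₁, …, x_N) = φ₁ x₁ + (φ₂ x₂ + (… + 0))`, as a `prod l`-point of `A`. -/
def sumPt : (l : List (CurveTo f e)) → SchemeHomOver (prodHom l) f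
  | [] => G.one (𝟙 _)
  | X :: l =>
      G.mul (prodHom (X :: l))
        (schemeHomOverComp (prodFst X l) (prodFst_c X l) X.φ)
        (schemeHomOverComp (prodSnd X l) (prodSnd_hom X l) (sumPt l))

/-- The sum map as a morphism of schemes `prod l ⟶ A`. -/
def sumMap (l : List (CurveTo f e)) : prodObj l ⟶ A := (sumPt G l).1

@[reassoc]
theorem sumMap_f (l : List (CurveTo f e)) : sumMap G l ≫ f = prodHom l := (sumPt G l).2

theorem sumPt_cons (X : CurveTo f e) (l : List (CurveTo f e)) :
    sumPt G (X :: l) = G.mul (prodHom (X :: l))
        (schemeHomOverComp (prodFst X l) (prodFst_c X l) X.φ)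
        (schemeHomOverComp (prodSnd X l) (prodSnd_hom X l) (sumPt G l)) := rfl

/-- The sum map sends the base point of the product to the origin. -/
theorem sumPt_prodBase (l : List (CurveTo f (G.one (𝟙 (Spec (CommRingCat.of K)))))) :
    schemeHomOverComp (prodBase l).1 (prodBase l).2 (sumPt G l) =
      G.one (𝟙 (Spec (CommRingCat.of K))) := by
  induction l with
  | nil => exact G.one_natural _ _ _ _
  | cons X l ih =>
    rw [sumPt_cons, G.mul_natural]
    have h1 : schemeHomOverComp (prodBase (X :: l)).1 (prodBase (X :: l)).2
        (schemeHomOverComp (prodFst X l) (prodFst_c X l) X.φ) =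
          G.one (𝟙 (Spec (CommRingCat.of K))) := by
      apply Subtype.ext
      show (prodBase (X :: l)).1 ≫ prodFst X l ≫ X.φ.1 = _
      rw [prodBase_cons_fst_assoc, X.φ_ε]
    have h2 : schemeHomOverComp (prodBase (X :: l)).1 (prodBase (X :: l)).2
        (schemeHomOverComp (prodSnd X l) (prodSnd_hom X l) (sumPt G l)) =
          G.one (𝟙 (Spec (CommRingCat.of K))) := by
      refine Eq.trans ?_ ih
      apply Subtype.ext
      show (prodBase (X :: l)).1 ≫ prodSnd X l ≫ (sumPt G l).1 = (prodBase l).1 ≫ (sumPt G l).1
      rw [prodBase_cons_snd_assoc]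
    rw [h1, h2, G.one_mul]

theorem prodBase_sumMap (l : List (CurveTo f (G.one (𝟙 (Spec (CommRingCat.of K)))))) :
    (prodBase l).1 ≫ sumMap G l = (G.one (𝟙 (Spec (CommRingCat.of K)))).1 :=
  congrArg Subtype.val (sumPt_prodBase G l)

/-- **Output of brick CURV** (and of Jacobi inversion for Jacobians): `N` pointed smooth proper
curves through the origin of the group scheme `(f, G)` whose sum map is dominant. -/
def CurvStatement (N : ℕ) : Prop :=
  ∃ l : List (CurveTo f (G.one (𝟙 (Spec (CommRingCat.of K))))), l.length = N ∧
    IsDominant (sumMap G l)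

end Fermat.Agent.AV.Curv33
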