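/-
Fermat/Agent/AV/Curv33/IfaceGen.lean (helper33) -- programme AV (S26), brick CURV.

The same product / sum-map recursion as in `Iface.lean`, for a list of GENERAL pointed smooth
`K`-schemes mapping to the group scheme `A` (not necessarily proper curves):

* `Gen.PtdTo f e`        : a smooth `K`-scheme `s : X ⟶ Spec K` with a `K`-point `pt` and a
                           `K`-morphism `φ : X ⟶ A` with `φ(pt) = e`;
* `Gen.prodObj`, `Gen.prodHom`, `Gen.prodFst`, `Gen.prodSnd`, `Gen.prodBase`, `Gen.sumPt`,
  `Gen.sumMap`            : as in `Iface.lean`;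
* `CurveTo.toPtdTo`, `sigma_eq`, `isDominant_sumMap_iff` : comparison with `Iface.lean`;
* `Gen.Hom X Y`, `Gen.exists_prodMap` : functoriality of the sum map in the list
  (`Π ≫ sumMap G l' = sumMap G l`), hence `isDominant_of_forall₂`.

This is the form consumed by SUM (helper88): the curve germs `W_i` are affine, the tangent
criterion is checked on `∏ W_i`, and dominance is transported to the complete curves `C_i`.
-/
import Fermat.Agent.AV.Curv33.Iface

set_option autoImplicit false

open CategoryTheory CategoryTheory.Limits AlgebraicGeometry NeronModelInfra GoodReductionJacobian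

universe u

noncomputable section

namespace Fermat.Agent.AV.Curv33

variable {K : Type u} [Field K]

variable {A : Scheme.{u}} (f : A ⟶ Spec (CommRingCat.of K))
  (e : SchemeHomOver (𝟙 (Spec (CommRingCat.of K))) f)

namespace Gen

/-- A pointed smooth `K`-scheme with a pointed `K`-morphism to `(A, e)`. -/
structure PtdTo where
  X : Scheme.{u}
  s : X ⟶ Spec (CommRingCat.of K)
  smooth : Smooth s
  pt : SchemeHomOver (𝟙 (Spec (CommRingCat.of K))) s
  φ : SchemeHomOver s f
  φ_pt : pt.1 ≫ φ.1 = e.1

attribute [instance] PtdTo.smooth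

variable {f e}

/-- The product over `Spec K` of a list of pointed schemes: `prod [] = Spec K`,
`prod (X :: l) = X ×[Spec K] prod l`. -/
def prodOver : List (PtdTo f e) → Over (Spec (CommRingCat.of K))
  | [] => Over.mk (𝟙 (Spec (CommRingCat.of K)))
  | X :: l => Over.mk (pullback.fst X.s (prodOver l).hom ≫ X.s)

/-- The underlying scheme of the product. -/
abbrev prodObj (l : List (PtdTo f e)) : Scheme.{u} := (prodOver l).left

/-- The structure morphism of the product. -/
abbrev prodHom (l : List (PtdTo f e)) : prodObj l ⟶ Spec (CommRingCat.of K) := (prodOver l).hom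

@[simp] theorem prodObj_nil : prodObj ([] : List (PtdTo f e)) = Spec (CommRingCat.of K) := rfl

@[simp] theorem prodHom_nil : prodHom ([] : List (PtdTo f e)) = 𝟙 _ := rfl

theorem prodObj_cons (X : PtdTo f e) (l : List (PtdTo f e)) :
    prodObj (X :: l) = pullback X.s (prodHom l) := rfl

/-- The projection of `prod (X :: l)` onto the first factor. -/
def prodFst (X : PtdTo f e) (l : List (PtdTo f e)) : prodObj (X :: l) ⟶ X.X :=
  pullback.fst X.s (prodHom l)

/-- The projection of `prod (X :: l)` onto the product of the remaining factors. -/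
def prodSnd (X : PtdTo f e) (l : List (PtdTo f e)) : prodObj (X :: l) ⟶ prodObj l :=
  pullback.snd X.s (prodHom l)

@[reassoc]
theorem prodFst_s (X : PtdTo f e) (l : List (PtdTo f e)) :
    prodFst X l ≫ X.s = prodHom (X :: l) := rfl

@[reassoc]
theorem prodSnd_hom (X : PtdTo f e) (l : List (PtdTo f e)) :
    prodSnd X l ≫ prodHom l = prodHom (X :: l) :=
  pullback.condition.symm

/-- The base point of the product. -/
def prodBase : (l : List (PtdTo f e)) → SchemeHomOver (𝟙 (Spec (CommRingCat.of K))) (prodHom l)
  | [] => ⟨𝟙 _, Category.id_comp _⟩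
  | X :: l => ⟨pullback.lift X.pt.1 (prodBase l).1 (by rw [X.pt.2, (prodBase l).2]), by
      show pullback.lift _ _ _ ≫ (pullback.fst X.s (prodHom l) ≫ X.s) = _
      rw [pullback.lift_fst_assoc, X.pt.2]⟩

@[reassoc (attr := simp)]
theorem prodBase_cons_fst (X : PtdTo f e) (l : List (PtdTo f e)) :
    (prodBase (X :: l)).1 ≫ prodFst X l = X.pt.1 :=
  pullback.lift_fst _ _ _

@[reassoc (attr := simp)]
theorem prodBase_cons_snd (X : PtdTo f e) (l : List (PtdTo f e)) :
    (prodBase (X :: l)).1 ≫ prodSnd X l = (prodBase l).1 :=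
  pullback.lift_snd _ _ _

variable (G : RelativeGroupLaw K f)

/-- The sum map `σ(x₁, …, x_N) = φ₁ x₁ + (φ₂ x₂ + (… + 0))`, as a `prod l`-point of `A`. -/
def sumPt : (l : List (PtdTo f e)) → SchemeHomOver (prodHom l) f
  | [] => G.one (𝟙 _)
  | X :: l =>
      G.mul (prodHom (X :: l))
        (schemeHomOverComp (prodFst X l) (prodFst_s X l) X.φ)
        (schemeHomOverComp (prodSnd X l) (prodSnd_hom X l) (sumPt l))

/-- The sum map as a morphism of schemes `prod l ⟶ A`. -/
def sumMap (l : List (PtdTo f e)) : prodObj l ⟶ A := (sumPt G l).1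

@[reassoc]
theorem sumMap_f (l : List (PtdTo f e)) : sumMap G l ≫ f = prodHom l := (sumPt G l).2

theorem sumPt_cons (X : PtdTo f e) (l : List (PtdTo f e)) :
    sumPt G (X :: l) = G.mul (prodHom (X :: l))
        (schemeHomOverComp (prodFst X l) (prodFst_s X l) X.φ)
        (schemeHomOverComp (prodSnd X l) (prodSnd_hom X l) (sumPt G l)) := rfl

/-- The sum map sends the base point of the product to the origin. -/
theorem sumPt_prodBase (l : List (PtdTo f (G.one (𝟙 (Spec (CommRingCat.of K)))))) :
    schemeHomOverComp (prodBase l).1 (prodBase l).2 (sumPt G l) =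
      G.one (𝟙 (Spec (CommRingCat.of K))) := by
  induction l with
  | nil => exact G.one_natural _ _ _ _
  | cons X l ih =>
    rw [sumPt_cons, G.mul_natural]
    have h1 : schemeHomOverComp (prodBase (X :: l)).1 (prodBase (X :: l)).2
        (schemeHomOverComp (prodFst X l) (prodFst_s X l) X.φ) =
          G.one (𝟙 (Spec (CommRingCat.of K))) := by
      apply Subtype.ext
      show (prodBase (X :: l)).1 ≫ prodFst X l ≫ X.φ.1 = _
      rw [prodBase_cons_fst_assoc, X.φ_pt]
    have h2 : schemeHomOverComp (prodBase (X :: l)).1 (prodBase (X :: l)).2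
        (schemeHomOverComp (prodSnd X l) (prodSnd_hom X l) (sumPt G l)) =
          G.one (𝟙 (Spec (CommRingCat.of K))) := by
      refine Eq.trans ?_ ih
      apply Subtype.ext
      show (prodBase (X :: l)).1 ≫ prodSnd X l ≫ (sumPt G l).1 = (prodBase l).1 ≫ (sumPt G l).1
      rw [prodBase_cons_snd_assoc]
    rw [h1, h2, G.one_mul]

theorem prodBase_sumMap (l : List (PtdTo f (G.one (𝟙 (Spec (CommRingCat.of K)))))) :
    (prodBase l).1 ≫ sumMap G l = (G.one (𝟙 (Spec (CommRingCat.of K)))).1 :=
  congrArg Subtype.val (sumPt_prodBase G l)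

/-! ### Functoriality in the list -/

/-- A morphism of pointed schemes over `A` (the base points need not correspond). -/
structure Hom (X Y : PtdTo f e) where
  ι : X.X ⟶ Y.X
  ι_s : ι ≫ Y.s = X.s
  ι_φ : ι ≫ Y.φ.1 = X.φ.1

/-- Morphisms `X_i ⟶ Y_i` of the members of two lists induce a morphism of the products compatible
with the sum maps. -/
theorem exists_prodMap {l l' : List (PtdTo f e)}
    (h : List.Forall₂ (fun X Y => Nonempty (Hom X Y)) l l') :
    ∃ P : prodObj l ⟶ prodObj l', P ≫ prodHom l' = prodHom l ∧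
      P ≫ sumMap G l' = sumMap G l := by
  induction h with
  | nil => exact ⟨𝟙 _, rfl, Category.id_comp _⟩
  | @cons X Y l l' hXY _ ih =>
    obtain ⟨P, hP1, hP2⟩ := ih
    obtain ⟨ι⟩ := hXY
    have hmap : (pullback.map X.s (prodHom l) Y.s (prodHom l') ι.ι P (𝟙 _)
        (by rw [Category.comp_id, ι.ι_s]) (by rw [Category.comp_id, hP1])) ≫ prodHom (Y :: l') =
          prodHom (X :: l) := by
      show _ ≫ pullback.fst Y.s (prodHom l') ≫ Y.s = pullback.fst X.s (prodHom l) ≫ X.s
      rw [pullback.lift_fst_assoc, Category.assoc, ι.ι_s]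
    refine ⟨pullback.map X.s (prodHom l) Y.s (prodHom l') ι.ι P (𝟙 _)
        (by rw [Category.comp_id, ι.ι_s]) (by rw [Category.comp_id, hP1]), hmap, ?_⟩
    have key := G.mul_natural (prodHom (Y :: l')) (prodHom (X :: l)) _ hmap
      (schemeHomOverComp (prodFst Y l') (prodFst_s Y l') Y.φ)
      (schemeHomOverComp (prodSnd Y l') (prodSnd_hom Y l') (sumPt G l'))
    have e1 : schemeHomOverComp _ hmap (schemeHomOverComp (prodFst Y l') (prodFst_s Y l') Y.φ) =
        schemeHomOverComp (prodFst X l) (prodFst_s X l) X.φ := by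
      apply Subtype.ext
      show _ ≫ pullback.fst Y.s (prodHom l') ≫ Y.φ.1 = pullback.fst X.s (prodHom l) ≫ X.φ.1
      rw [pullback.lift_fst_assoc, Category.assoc, ι.ι_φ]
    have e2 : schemeHomOverComp _ hmap
        (schemeHomOverComp (prodSnd Y l') (prodSnd_hom Y l') (sumPt G l')) =
        schemeHomOverComp (prodSnd X l) (prodSnd_hom X l) (sumPt G l) := by
      apply Subtype.ext
      show _ ≫ pullback.snd Y.s (prodHom l') ≫ (sumPt G l').1 =
        pullback.snd X.s (prodHom l) ≫ (sumPt G l).1
      rw [pullback.lift_snd_assoc, Category.assoc]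
      exact congrArg (pullback.snd X.s (prodHom l) ≫ ·) hP2
    exact congrArg Subtype.val
      (key.trans (congrArg₂ (G.mul (prodHom (X :: l))) e1 e2))

/-- Dominance of the sum map passes along morphisms of the members of the list. -/
theorem isDominant_of_forall₂ {l l' : List (PtdTo f e)}
    (h : List.Forall₂ (fun X Y => Nonempty (Hom X Y)) l l')
    (hd : IsDominant (sumMap G l)) : IsDominant (sumMap G l') := by
  obtain ⟨P, -, hP⟩ := exists_prodMap G h
  rw [← hP] at hd
  exact IsDominant.of_comp P (sumMap G l')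

end Gen

/-! ### Comparison with `Iface.lean` -/

variable {f e}

/-- A curve with a morphism to `A` as a pointed smooth scheme. -/
def CurveTo.toPtdTo (X : CurveTo f e) : Gen.PtdTo f e where
  X := X.C
  s := X.c
  smooth := SmoothOfRelativeDimension.smooth 1 X.c
  pt := X.ε
  φ := X.φ
  φ_pt := X.φ_ε

variable (G : RelativeGroupLaw K f)

/-- One step of the recursion defining the product and the sum map. -/
def consStep {X : Scheme.{u}} (s : X ⟶ Spec (CommRingCat.of K)) (φ : SchemeHomOver s f)
    (p : Σ o : Over (Spec (CommRingCat.of K)), SchemeHomOver o.hom f) :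
    Σ o : Over (Spec (CommRingCat.of K)), SchemeHomOver o.hom f :=
  ⟨Over.mk (pullback.fst s p.1.hom ≫ s),
    G.mul _ (schemeHomOverComp (pullback.fst s p.1.hom) rfl φ)
      (schemeHomOverComp (pullback.snd s p.1.hom) pullback.condition.symm p.2)⟩

/-- The product and sum map of `Iface.lean` are those of `IfaceGen.lean`. -/
theorem sigma_eq (l : List (CurveTo f e)) :
    (⟨prodOver l, sumPt G l⟩ : Σ o : Over (Spec (CommRingCat.of K)), SchemeHomOver o.hom f) =
      ⟨Gen.prodOver (l.map CurveTo.toPtdTo), Gen.sumPt G (l.map CurveTo.toPtdTo)⟩ := by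
  induction l with
  | nil => rfl
  | cons X l ih => exact congrArg (consStep G X.c X.φ) ih

theorem isDominant_sumMap_iff (l : List (CurveTo f e)) :
    IsDominant (sumMap G l) ↔ IsDominant (Gen.sumMap G (l.map CurveTo.toPtdTo)) := by
  have key : ∀ p q : Σ o : Over (Spec (CommRingCat.of K)), SchemeHomOver o.hom f, p = q →
      (IsDominant p.2.1 ↔ IsDominant q.2.1) := by
    rintro p _ rfl
    exact Iff.rfl
  exact key _ _ (sigma_eq G l)

end Fermat.Agent.AV.Curv33
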