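/-
Fermat/Agent/AV/Curv33/GermAlg87.lean (helper87) -- programme AV (S26 + S27), brick CURV,
part (a) GERM, ring level, LOCAL part.

`K` a field, `E` an étale `K[X]`-algebra (an "axis curve": a curve with an étale coordinate),
`χ : E →ₐ[K] K` a `K`-point.  Then

* `O := Localization.AtPrime (ker χ)` is a discrete valuation ring with uniformizer
  `t := X - a` (`a := χ X`) and residue field `K`;
* in `F := Frac O` the coordinate `X` is transcendental over `K` and `F / K(X)` is finite
  separable.

No regular local rings, no dimension theory: `O` is noetherian local, flat over `K[X]` (so `t` is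
a nonzerodivisor), unramified over `K[X]` (so `m_O = (t)`), and a noetherian local ring whose
maximal ideal is generated by a nonzerodivisor is a domain.
-/
import Mathlib

set_option autoImplicit false
set_option linter.style.haveILetI false
set_option linter.unusedSectionVars false

open Polynomial IsLocalRing

universe u

noncomputable section

namespace Fermat.Agent.AV.Curv33.GermAlg87

/-! ### A noetherian local ring with principal maximal ideal generated by a nonzerodivisor -/

section PrincipalMax

variable {R : Type*} [CommRing R] [IsNoetherianRing R] [IsLocalRing R]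

/-- In a noetherian local ring with `m = (t)`, every nonzero element is a unit times a power
of `t`. -/
theorem exists_eq_unit_mul_pow {t : R} (ht : maximalIdeal R = Ideal.span {t}) {a : R}
    (ha : a ≠ 0) : ∃ (n : ℕ) (u : Rˣ), a = u * t ^ n := by
  classical
  have hinf : (⨅ n : ℕ, (maximalIdeal R) ^ n) = ⊥ :=
    Ideal.iInf_pow_eq_bot_of_isLocalRing _ (maximalIdeal.isMaximal R).ne_top
  have hex : ∃ n : ℕ, a ∉ (maximalIdeal R) ^ n := by
    by_contra hcon
    have hcon' : ∀ n : ℕ, a ∈ (maximalIdeal R) ^ n := fun n => by
      by_contra h; exact hcon ⟨n, h⟩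
    have : a ∈ (⨅ n : ℕ, (maximalIdeal R) ^ n) := by
      rw [Ideal.mem_iInf]; exact hcon'
    rw [hinf] at this
    exact ha (by simpa using this)
  let n := Nat.find hex
  have hn : a ∉ (maximalIdeal R) ^ n := Nat.find_spec hex
  have hn0 : n ≠ 0 := by
    intro h0
    apply hn
    rw [h0, pow_zero, Ideal.one_eq_top]
    exact Submodule.mem_top
  obtain ⟨k, hk⟩ := Nat.exists_eq_succ_of_ne_zero hn0
  have hk' : a ∈ (maximalIdeal R) ^ k := by
    by_contra hcon
    have := Nat.find_min' hex hcon
    omega
  rw [ht, Ideal.span_singleton_pow, Ideal.mem_span_singleton'] at hk'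
  obtain ⟨c, hc⟩ := hk'
  have hcu : IsUnit c := by
    by_contra hcon
    have hcm : c ∈ maximalIdeal R := (IsLocalRing.mem_maximalIdeal c).mpr hcon
    rw [ht, Ideal.mem_span_singleton'] at hcm
    obtain ⟨d, hd⟩ := hcm
    apply hn
    rw [hk, ht, Ideal.span_singleton_pow, Ideal.mem_span_singleton']
    exact ⟨d, by rw [← hc, ← hd, pow_succ]; ring⟩
  exact ⟨k, hcu.unit, by rw [← hc]; rfl⟩

/-- A noetherian local ring whose maximal ideal is generated by a nonzerodivisor is a domain. -/
theorem isDomain_of_maximalIdeal_eq_span {t : R} (ht : maximalIdeal R = Ideal.span {t})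
    (hreg : IsSMulRegular R t) : IsDomain R := by
  have hpow : ∀ n : ℕ, t ^ n ≠ 0 := by
    intro n h0
    have hr : IsSMulRegular R (t ^ n) := hreg.pow n
    have : (1 : R) = 0 := hr (by simpa using h0)
    exact one_ne_zero this
  have : NoZeroDivisors R := by
    constructor
    intro a b hab
    by_contra hcon
    have ha : a ≠ 0 := fun h => hcon (Or.inl h)
    have hb : b ≠ 0 := fun h => hcon (Or.inr h)
    obtain ⟨n, u, rfl⟩ := exists_eq_unit_mul_pow ht ha
    obtain ⟨m, v, rfl⟩ := exists_eq_unit_mul_pow ht hb
    have h1 : ((u * v : Rˣ) : R) * t ^ (n + m) = 0 := by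
      rw [← hab, pow_add, Units.val_mul]; ring
    have h2 : t ^ (n + m) = 0 := by
      exact (Units.mul_right_eq_zero (u * v)).mp h1
    exact hpow _ h2
  exact NoZeroDivisors.to_isDomain R

end PrincipalMax

/-! ### The local ring of an étale `K[X]`-algebra at a `K`-point -/

section Local

variable {K : Type u} [Field K] {E : Type u} [CommRing E] [Algebra K E] [Algebra K[X] E]
  [IsScalarTower K K[X] E] (χ : E →ₐ[K] K)

/-- The `K`-point `χ` as a (maximal) ideal of `E`. -/
abbrev pt : Ideal E := RingHom.ker (χ : E →+* K)

theorem χ_surjective : Function.Surjective χ := fun c => ⟨algebraMap K E c, by simp⟩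

instance pt_isMaximal : (pt χ).IsMaximal :=
  RingHom.ker_isMaximal_of_surjective (χ : E →+* K) (χ_surjective χ)

/-- The value of the coordinate at the point. -/
def coord : K := χ (algebraMap K[X] E X)

/-- The local parameter `X - a` of `K[X]` at the image point. -/
def unifPoly : K[X] := X - C (coord χ)

theorem unifPoly_ne_zero : unifPoly χ ≠ 0 := X_sub_C_ne_zero _

/-- `χ` restricted to `K[X]` is evaluation at `coord χ`. -/
theorem χ_algebraMap (p : K[X]) : χ (algebraMap K[X] E p) = p.eval (coord χ) := by
  have h : (χ.comp (IsScalarTower.toAlgHom K K[X] E)) = Polynomial.aeval (coord χ) := by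
    apply Polynomial.algHom_ext
    simp [coord]
  have := congrArg (fun f : K[X] →ₐ[K] K => f p) h
  simpa [Polynomial.aeval_def, Polynomial.eval₂_eq_eval_map] using this

theorem under_pt : (pt χ).comap (algebraMap K[X] E) = Ideal.span {unifPoly χ} := by
  rw [unifPoly, ← Polynomial.ker_evalRingHom]
  ext p
  simp [RingHom.mem_ker, χ_algebraMap]

instance span_unifPoly_isPrime : (Ideal.span {unifPoly χ}).IsPrime := by
  rw [← under_pt]; exact Ideal.comap_isPrime _ _

instance pt_liesOver : (pt χ).LiesOver (Ideal.span {unifPoly χ}) := ⟨(under_pt χ).symm⟩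

/-- The local ring of `E` at the point `χ`. -/
abbrev LocRing : Type u := Localization.AtPrime (pt χ)

/-- The uniformizer `x - a` in the local ring. -/
def unif : LocRing χ := algebraMap K[X] (LocRing χ) (unifPoly χ)

variable [Algebra.Etale K[X] E]

theorem isNoetherianRing_E (K : Type u) [Field K] (E : Type u) [CommRing E] [Algebra K[X] E]
    [Algebra.Etale K[X] E] : IsNoetherianRing E :=
  Algebra.FiniteType.isNoetherianRing K[X] E

instance isNoetherianRing_locRing : IsNoetherianRing (LocRing χ) :=
  IsLocalization.isNoetherianRing (pt χ).primeCompl _ (isNoetherianRing_E K E)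

instance flat_locRing : Module.Flat K[X] (LocRing χ) := by
  have : Module.Flat E (LocRing χ) := IsLocalization.flat _ (pt χ).primeCompl
  exact Module.Flat.trans K[X] E (LocRing χ)

theorem unif_isSMulRegular : IsSMulRegular (LocRing χ) (unif χ) := by
  have h : IsSMulRegular K[X] (unifPoly χ) :=
    (IsRegular.of_ne_zero (unifPoly_ne_zero χ)).isSMulRegular
  exact IsSMulRegular.of_flat h

instance formallyUnramified_locRing : Algebra.FormallyUnramified K[X] (LocRing χ) := by
  have : Algebra.FormallyUnramified E (LocRing χ) :=
    Algebra.FormallyUnramified.of_isLocalization (pt χ).primeCompl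
  exact Algebra.FormallyUnramified.comp K[X] E (LocRing χ)

/-- **The maximal ideal of the local ring is generated by `x - a`** (unramifiedness). -/
theorem maximalIdeal_locRing : maximalIdeal (LocRing χ) = Ideal.span {unif χ} := by
  letI := Localization.AtPrime.algebraOfLiesOver (Ideal.span {unifPoly χ}) (pt χ)
  have h := ((Algebra.isUnramifiedAt_iff_map_eq K[X] (Ideal.span {unifPoly χ}) (pt χ)).mp
    (formallyUnramified_locRing χ)).2
  rw [← h, Ideal.map_span, Set.image_singleton, unif]

instance isDomain_locRing : IsDomain (LocRing χ) :=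
  isDomain_of_maximalIdeal_eq_span (maximalIdeal_locRing χ) (unif_isSMulRegular χ)

theorem unif_ne_zero : unif χ ≠ 0 := by
  intro h
  have := unif_isSMulRegular χ
  rw [h] at this
  have h1 : (1 : LocRing χ) = 0 := this (by simp)
  exact one_ne_zero h1

theorem not_isField_locRing : ¬ IsField (LocRing χ) := by
  rw [isField_iff_maximalIdeal_eq, maximalIdeal_locRing]
  intro h
  rw [Ideal.span_singleton_eq_bot] at h
  exact unif_ne_zero χ h

/-- **The local ring at a `K`-point of an étale `K[X]`-algebra is a DVR.** -/
instance isDiscreteValuationRing_locRing : IsDiscreteValuationRing (LocRing χ) := by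
  refine ((IsDiscreteValuationRing.TFAE (LocRing χ) (not_isField_locRing χ)).out 0 4).mpr ?_
  exact ⟨⟨unif χ, maximalIdeal_locRing χ⟩⟩

theorem unif_irreducible : Irreducible (unif χ) := by
  rw [IsDiscreteValuationRing.irreducible_iff_uniformizer]
  exact maximalIdeal_locRing χ

/-! #### The residue field is `K` -/

omit [Algebra.Etale K[X] E] in
theorem isUnit_χ_of_primeCompl (y : (pt χ).primeCompl) : IsUnit (χ y) := by
  rw [isUnit_iff_ne_zero]
  intro h
  exact y.2 ((RingHom.mem_ker).mpr h)

/-- The point `χ` on the local ring. -/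
def locEval : LocRing χ →ₐ[K] K :=
  IsLocalization.liftAlgHom (M := (pt χ).primeCompl) (f := χ) (isUnit_χ_of_primeCompl χ)

omit [Algebra.Etale K[X] E] in
@[simp]
theorem locEval_algebraMap (b : E) : locEval χ (algebraMap E (LocRing χ) b) = χ b := by
  simp [locEval, IsLocalization.liftAlgHom_apply]

omit [Algebra.Etale K[X] E] in
theorem locEval_surjective : Function.Surjective (locEval χ) := fun c =>
  ⟨algebraMap K (LocRing χ) c, by simp⟩

omit [Algebra.Etale K[X] E] in
/-- The kernel of the point is the maximal ideal. -/
theorem ker_locEval : RingHom.ker (locEval χ : LocRing χ →+* K) = maximalIdeal (LocRing χ) := by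
  have hmax : (RingHom.ker (locEval χ : LocRing χ →+* K)).IsMaximal :=
    RingHom.ker_isMaximal_of_surjective _ (locEval_surjective χ)
  exact IsLocalRing.eq_maximalIdeal hmax

omit [Algebra.Etale K[X] E] in
theorem locEval_eq_zero_iff (o : LocRing χ) : locEval χ o = 0 ↔ o ∈ maximalIdeal (LocRing χ) := by
  rw [← ker_locEval]; rfl

omit [Algebra.Etale K[X] E] in
theorem locEval_unif : locEval χ (unif χ) = 0 := by
  rw [unif, IsScalarTower.algebraMap_apply K[X] E (LocRing χ), locEval_algebraMap, χ_algebraMap]
  simp [unifPoly]

/-! #### The function field: the coordinate is a separating transcendental -/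

/-- The function field of the germ. -/
abbrev FunField : Type u := FractionRing (LocRing χ)

/-- The coordinate `X` in the function field. -/
def tF : FunField χ := algebraMap K[X] (FunField χ) X

theorem algebraMap_poly_locRing_injective :
    Function.Injective (algebraMap K[X] (LocRing χ)) := by
  rw [injective_iff_map_eq_zero]
  intro p hp
  by_contra hne
  have hreg : IsSMulRegular (LocRing χ) (algebraMap K[X] (LocRing χ) p) :=
    IsSMulRegular.of_flat (IsRegular.of_ne_zero hne).isSMulRegular
  rw [hp] at hreg
  have h1 : (1 : LocRing χ) = 0 := hreg (by simp)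
  exact one_ne_zero h1

theorem algebraMap_poly_funField_injective :
    Function.Injective (algebraMap K[X] (FunField χ)) := by
  rw [IsScalarTower.algebraMap_eq K[X] (LocRing χ) (FunField χ)]
  exact (IsFractionRing.injective (LocRing χ) (FunField χ)).comp
    (algebraMap_poly_locRing_injective χ)

theorem aeval_tF (p : K[X]) : Polynomial.aeval (tF χ) p = algebraMap K[X] (FunField χ) p := by
  have h : Polynomial.aeval (tF χ) = IsScalarTower.toAlgHom K K[X] (FunField χ) := by
    apply Polynomial.algHom_ext
    simp [tF]
  rw [h]; rfl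

/-- **The coordinate is transcendental.** -/
theorem transcendental_tF : Transcendental K (tF χ) := by
  rw [transcendental_iff_injective]
  intro p q hpq
  rw [aeval_tF, aeval_tF] at hpq
  exact algebraMap_poly_funField_injective χ hpq

open IntermediateField in
/-- `K[X] → K(t)`. -/
def polyToAdjoin : K[X] →ₐ[K] K⟮tF χ⟯ :=
  Polynomial.aeval (⟨tF χ, mem_adjoin_simple_self K (tF χ)⟩ : K⟮tF χ⟯)

open IntermediateField in
theorem algebraMap_polyToAdjoin (p : K[X]) :
    algebraMap K⟮tF χ⟯ (FunField χ) (polyToAdjoin χ p) = algebraMap K[X] (FunField χ) p := by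
  have h : ((IsScalarTower.toAlgHom K K⟮tF χ⟯ (FunField χ)).comp (polyToAdjoin χ)) =
      IsScalarTower.toAlgHom K K[X] (FunField χ) := by
    apply Polynomial.algHom_ext
    rw [AlgHom.comp_apply, polyToAdjoin, Polynomial.aeval_X]
    rfl
  exact congrArg (fun f : K[X] →ₐ[K] FunField χ => f p) h

instance formallyUnramified_funField : Algebra.FormallyUnramified K[X] (FunField χ) := by
  have : Algebra.FormallyUnramified (LocRing χ) (FunField χ) :=
    Algebra.FormallyUnramified.of_isLocalization (nonZeroDivisors (LocRing χ))
  exact Algebra.FormallyUnramified.comp K[X] (LocRing χ) (FunField χ)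

open IntermediateField in
/-- **The function field is finite over `K(t)`.** -/
theorem finiteDimensional_funField : FiniteDimensional K⟮tF χ⟯ (FunField χ) := by
  letI : Algebra K[X] K⟮tF χ⟯ := (polyToAdjoin χ).toRingHom.toAlgebra
  haveI : IsScalarTower K[X] K⟮tF χ⟯ (FunField χ) :=
    IsScalarTower.of_algebraMap_eq fun p => (algebraMap_polyToAdjoin χ p).symm
  haveI : Algebra.FormallyUnramified K⟮tF χ⟯ (FunField χ) :=
    Algebra.FormallyUnramified.of_restrictScalars K[X] _ _
  haveI : Algebra.EssFiniteType K⟮tF χ⟯ (FunField χ) := Algebra.EssFiniteType.of_comp K[X] _ _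
  exact Algebra.FormallyUnramified.finite_of_free K⟮tF χ⟯ (FunField χ)

open IntermediateField in
/-- **The function field is separable over `K(t)`.** -/
theorem isSeparable_funField : Algebra.IsSeparable K⟮tF χ⟯ (FunField χ) := by
  letI : Algebra K[X] K⟮tF χ⟯ := (polyToAdjoin χ).toRingHom.toAlgebra
  haveI : IsScalarTower K[X] K⟮tF χ⟯ (FunField χ) :=
    IsScalarTower.of_algebraMap_eq fun p => (algebraMap_polyToAdjoin χ p).symm
  haveI : Algebra.FormallyUnramified K⟮tF χ⟯ (FunField χ) :=
    Algebra.FormallyUnramified.of_restrictScalars K[X] _ _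
  haveI : Algebra.EssFiniteType K⟮tF χ⟯ (FunField χ) := Algebra.EssFiniteType.of_comp K[X] _ _
  exact Algebra.FormallyUnramified.isSeparable K⟮tF χ⟯ (FunField χ)

end Local

end Fermat.Agent.AV.Curv33.GermAlg87
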