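/-
Fermat/Agent/AV/Curv33/GermAlg87Curve.lean (helper87) -- programme AV (S26 + S27), brick CURV,
part (a) GERM, ring level, GLOBAL part: an étale `K[X]`-algebra has, around each `K`-point, a
principal open which is the coordinate ring of an affine smooth integral curve (a Dedekind domain)
whose function field is finite separable over `K(X)`.
-/
import Mathlib
import Fermat.Agent.AV.Curv33.GermAlg87
import Fermat.Agent.Jac.CurveLocal98Dedekind

set_option autoImplicit false
set_option linter.style.haveILetI false
set_option linter.unusedSectionVars false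

open Polynomial IsLocalRing IntermediateField

universe u

noncomputable section

namespace Fermat.Agent.AV.Curv33.GermAlg87

/-! ### A domain neighbourhood of a point whose local ring is a domain -/

section DomainNhd

variable {E : Type*} [CommRing E] [IsNoetherianRing E]

/-- In a noetherian ring, the kernel of the localisation map at a prime is killed by a single
element outside the prime. -/
theorem exists_notMem_forall_mul_eq_zero (q : Ideal E) [q.IsPrime] :
    ∃ s : E, s ∉ q ∧ ∀ x : E, algebraMap E (Localization.AtPrime q) x = 0 → s * x = 0 := by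
  classical
  let N : Ideal E := RingHom.ker (algebraMap E (Localization.AtPrime q))
  obtain ⟨S, hS⟩ : N.FG := IsNoetherian.noetherian N
  have hc : ∀ n : E, ∃ c : E, n ∈ N → (c ∉ q ∧ c * n = 0) := by
    intro n
    by_cases hn : n ∈ N
    · obtain ⟨c, hc⟩ := (IsLocalization.map_eq_zero_iff q.primeCompl
        (Localization.AtPrime q) n).mp hn
      exact ⟨c.1, fun _ => ⟨c.2, hc⟩⟩
    · exact ⟨0, fun h => (hn h).elim⟩
  choose c hc using hc
  refine ⟨∏ n ∈ S, c n, ?_, ?_⟩
  · intro hmem
    obtain ⟨n, hnS, hn⟩ := (Ideal.IsPrime.prod_mem_iff).mp hmem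
    have hnN : n ∈ N := by
      rw [← hS]; exact Submodule.subset_span hnS
    exact (hc n hnN).1 hn
  · have key : ∀ x ∈ Ideal.span (S : Set E), (∏ n ∈ S, c n) * x = 0 := by
      intro x hxN
      induction hxN using Submodule.span_induction with
      | mem n hn =>
        have hnN : n ∈ N := by
          rw [← hS]; exact Submodule.subset_span hn
        rw [← Finset.prod_erase_mul S c hn, mul_assoc, (hc n hnN).2, mul_zero]
      | zero => simp
      | add a b _ _ ha hb => rw [mul_add, ha, hb, add_zero]
      | smul a b _ hb => rw [smul_eq_mul, mul_left_comm, hb, mul_zero]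
    intro x hx
    exact key x (by rw [show Ideal.span (S : Set E) = N from hS]; exact hx)

/-- If the local ring at a prime `q` of a noetherian ring is a domain, then some principal open
neighbourhood of `q` is (the spectrum of) a domain. -/
theorem exists_away_isDomain (q : Ideal E) [q.IsPrime] [IsDomain (Localization.AtPrime q)] :
    ∃ s : E, s ∉ q ∧ IsDomain (Localization.Away s) := by
  obtain ⟨s, hsq, hs⟩ := exists_notMem_forall_mul_eq_zero q
  refine ⟨s, hsq, ?_⟩
  have hunit : ∀ y : Submonoid.powers s, IsUnit (algebraMap E (Localization.AtPrime q) y) := by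
    rintro ⟨_, n, rfl⟩
    exact IsLocalization.map_units (Localization.AtPrime q)
      (⟨s ^ n, q.primeCompl.pow_mem hsq n⟩ : q.primeCompl)
  let f : Localization.Away s →+* Localization.AtPrime q :=
    IsLocalization.lift (M := Submonoid.powers s) hunit
  have hf : Function.Injective f := by
    rw [injective_iff_map_eq_zero]
    intro y hy
    obtain ⟨⟨x, m⟩, rfl⟩ := IsLocalization.mk'_surjective (Submonoid.powers s) y
    have h1 : algebraMap E (Localization.AtPrime q) x = 0 := by
      have := IsLocalization.lift_mk'_spec (S := Localization.Away s) (g := algebraMap E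
        (Localization.AtPrime q)) (hg := hunit) x (f (IsLocalization.mk' _ x m)) m
      rw [hy, mul_zero] at this
      exact this.mp rfl
    have h2 : s * x = 0 := hs x h1
    rw [IsLocalization.mk'_eq_zero_iff]
    exact ⟨⟨s, Submonoid.mem_powers s⟩, h2⟩
  haveI : Nontrivial (Localization.Away s) := by
    refine ⟨⟨0, 1, fun h => ?_⟩⟩
    have := congrArg f h
    rw [map_zero, map_one] at this
    exact zero_ne_one this
  exact hf.isDomain f

end DomainNhd

/-! ### Function fields which are unramified over `K[X]` -/

section FieldOverPoly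

variable {K : Type u} [Field K] {F : Type u} [Field F] [Algebra K F] [Algebra K[X] F]
  [IsScalarTower K K[X] F] [Algebra.FormallyUnramified K[X] F] [Algebra.EssFiniteType K[X] F]

/-- `K[X] → K(t)`, `t` the image of `X`. -/
def polyToAdjoin' : K[X] →ₐ[K] K⟮algebraMap K[X] F X⟯ :=
  Polynomial.aeval (⟨algebraMap K[X] F X, mem_adjoin_simple_self K _⟩ : K⟮algebraMap K[X] F X⟯)

omit [Algebra.FormallyUnramified K[X] F] [Algebra.EssFiniteType K[X] F] in
theorem algebraMap_polyToAdjoin' (p : K[X]) :
    algebraMap K⟮algebraMap K[X] F X⟯ F (polyToAdjoin' (F := F) p) = algebraMap K[X] F p := by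
  have h : ((IsScalarTower.toAlgHom K K⟮algebraMap K[X] F X⟯ F).comp (polyToAdjoin' (F := F))) =
      IsScalarTower.toAlgHom K K[X] F := by
    apply Polynomial.algHom_ext
    rw [AlgHom.comp_apply, polyToAdjoin', Polynomial.aeval_X]
    rfl
  exact congrArg (fun f : K[X] →ₐ[K] F => f p) h

/-- A field, formally unramified and essentially of finite type over `K[X]`, is finite over
`K(t)`. -/
theorem finiteDimensional_of_unramified_poly :
    FiniteDimensional K⟮algebraMap K[X] F X⟯ F := by
  letI : Algebra K[X] K⟮algebraMap K[X] F X⟯ := (polyToAdjoin' (F := F)).toRingHom.toAlgebra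
  haveI : IsScalarTower K[X] K⟮algebraMap K[X] F X⟯ F :=
    IsScalarTower.of_algebraMap_eq fun p => (algebraMap_polyToAdjoin' p).symm
  haveI : Algebra.FormallyUnramified K⟮algebraMap K[X] F X⟯ F :=
    Algebra.FormallyUnramified.of_restrictScalars K[X] _ _
  haveI : Algebra.EssFiniteType K⟮algebraMap K[X] F X⟯ F := Algebra.EssFiniteType.of_comp K[X] _ _
  exact Algebra.FormallyUnramified.finite_of_free K⟮algebraMap K[X] F X⟯ F

/-- A field, formally unramified and essentially of finite type over `K[X]`, is separable over
`K(t)`. -/
theorem isSeparable_of_unramified_poly :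
    Algebra.IsSeparable K⟮algebraMap K[X] F X⟯ F := by
  letI : Algebra K[X] K⟮algebraMap K[X] F X⟯ := (polyToAdjoin' (F := F)).toRingHom.toAlgebra
  haveI : IsScalarTower K[X] K⟮algebraMap K[X] F X⟯ F :=
    IsScalarTower.of_algebraMap_eq fun p => (algebraMap_polyToAdjoin' p).symm
  haveI : Algebra.FormallyUnramified K⟮algebraMap K[X] F X⟯ F :=
    Algebra.FormallyUnramified.of_restrictScalars K[X] _ _
  haveI : Algebra.EssFiniteType K⟮algebraMap K[X] F X⟯ F := Algebra.EssFiniteType.of_comp K[X] _ _
  exact Algebra.FormallyUnramified.isSeparable K⟮algebraMap K[X] F X⟯ F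

end FieldOverPoly

/-! ### Étale `K[X]`-algebras which are domains -/

section EtaleDomain

variable {K : Type u} [Field K] {R : Type u} [CommRing R] [Algebra K R] [Algebra K[X] R]
  [IsScalarTower K K[X] R] [Algebra.Etale K[X] R]

theorem smooth_of_etale_poly (K : Type u) [Field K] (R : Type u) [CommRing R] [Algebra K R]
    [Algebra K[X] R] [IsScalarTower K K[X] R] [Algebra.Etale K[X] R] : Algebra.Smooth K R := by
  haveI : Algebra.Smooth K K[X] := ⟨inferInstance, inferInstance⟩
  exact Algebra.Smooth.comp K K[X] R

theorem finiteType_of_etale_poly (K : Type u) [Field K] (R : Type u) [CommRing R] [Algebra K R]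
    [Algebra K[X] R] [IsScalarTower K K[X] R] [Algebra.Etale K[X] R] : Algebra.FiniteType K R :=
  Algebra.FiniteType.trans (inferInstance : Algebra.FiniteType K K[X])
    (inferInstance : Algebra.FiniteType K[X] R)

variable [IsDomain R]

theorem algebraMap_poly_injective : Function.Injective (algebraMap K[X] R) := by
  rw [injective_iff_map_eq_zero]
  intro p hp
  by_contra hne
  have hreg : IsSMulRegular R (algebraMap K[X] R p) :=
    IsSMulRegular.of_flat (IsRegular.of_ne_zero hne).isSMulRegular
  rw [hp] at hreg
  have h1 : (1 : R) = 0 := hreg (by simp)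
  exact one_ne_zero h1

/-- The coordinate is transcendental in the function field. -/
theorem transcendental_coord :
    Transcendental K (algebraMap R (FractionRing R) (algebraMap K[X] R X)) := by
  have hinj : Function.Injective (algebraMap K[X] (FractionRing R)) := by
    rw [IsScalarTower.algebraMap_eq K[X] R (FractionRing R)]
    exact (IsFractionRing.injective R (FractionRing R)).comp algebraMap_poly_injective
  have h : ∀ p : K[X], Polynomial.aeval (algebraMap R (FractionRing R) (algebraMap K[X] R X)) p =
      algebraMap K[X] (FractionRing R) p := by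
    intro p
    have h' : Polynomial.aeval (algebraMap R (FractionRing R) (algebraMap K[X] R X)) =
        IsScalarTower.toAlgHom K K[X] (FractionRing R) := by
      apply Polynomial.algHom_ext
      rw [Polynomial.aeval_X, IsScalarTower.coe_toAlgHom',
        IsScalarTower.algebraMap_apply K[X] R (FractionRing R)]
    rw [h']; rfl
  rw [transcendental_iff_injective]
  intro p q hpq
  rw [h, h] at hpq
  exact hinj hpq

instance formallyUnramified_fractionRing :
    Algebra.FormallyUnramified K[X] (FractionRing R) := by
  have : Algebra.FormallyUnramified R (FractionRing R) :=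
    Algebra.FormallyUnramified.of_isLocalization (nonZeroDivisors R)
  exact Algebra.FormallyUnramified.comp K[X] R (FractionRing R)

theorem algebraMap_coord_eq :
    algebraMap R (FractionRing R) (algebraMap K[X] R X) = algebraMap K[X] (FractionRing R) X :=
  (IsScalarTower.algebraMap_apply K[X] R (FractionRing R) X).symm

/-- The function field is finite over `K(x)`. -/
theorem finiteDimensional_fractionRing :
    FiniteDimensional K⟮algebraMap R (FractionRing R) (algebraMap K[X] R X)⟯ (FractionRing R) := by
  rw [algebraMap_coord_eq]
  exact finiteDimensional_of_unramified_poly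

/-- The function field is separable over `K(x)`. -/
theorem isSeparable_fractionRing :
    Algebra.IsSeparable K⟮algebraMap R (FractionRing R) (algebraMap K[X] R X)⟯ (FractionRing R) := by
  rw [algebraMap_coord_eq]
  exact isSeparable_of_unramified_poly

variable [IsAlgClosed K]

/-- Over an algebraically closed field every maximal ideal is the kernel of a `K`-point. -/
theorem exists_point_of_isMaximal (m : Ideal R) [hm : m.IsMaximal] :
    ∃ χ : R →ₐ[K] K, RingHom.ker (χ : R →+* K) = m := by
  haveI : Algebra.FiniteType K R := finiteType_of_etale_poly K R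
  have hbij := Fermat.Agent.Jac.CurveLocal98Ring.bijective_algebraMap_quotient K R m
  let e : K ≃ₐ[K] (R ⧸ m) := AlgEquiv.ofBijective (Algebra.ofId K (R ⧸ m)) hbij
  refine ⟨(e.symm : (R ⧸ m) →ₐ[K] K).comp (Ideal.Quotient.mkₐ K m), ?_⟩
  ext x
  rw [RingHom.mem_ker]
  show e.symm (Ideal.Quotient.mk m x) = 0 ↔ x ∈ m
  rw [map_eq_zero_iff _ e.symm.injective, Ideal.Quotient.eq_zero_iff_mem]

/-- **An étale `K[X]`-algebra which is a domain is a Dedekind domain** (`K` algebraically
closed). -/
theorem isDedekindDomain_of_etale_poly (K : Type u) [Field K] [IsAlgClosed K] (R : Type u)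
    [CommRing R] [IsDomain R] [Algebra K R] [Algebra K[X] R] [IsScalarTower K K[X] R]
    [Algebra.Etale K[X] R] : IsDedekindDomain R := by
  haveI : IsNoetherianRing R := isNoetherianRing_E K R
  refine Fermat.Agent.Jac.CurveLocal98Dedekind.isDedekindDomain_of_forall_dvr ?_
  intro m hm
  obtain ⟨χ, rfl⟩ := exists_point_of_isMaximal (K := K) m
  exact isDiscreteValuationRing_locRing χ

end EtaleDomain

/-! ### The curve around a `K`-point of an étale `K[X]`-algebra -/

section Curve

variable {K : Type u} [Field K] {E : Type u} [CommRing E] [Algebra K E] [Algebra K[X] E]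
  [IsScalarTower K K[X] E] (χ : E →ₐ[K] K)

/-- **Domain neighbourhood.**  Around a `K`-point, an étale `K[X]`-algebra has a principal open
which is a domain. -/
theorem exists_away_isDomain_of_etale [Algebra.Etale K[X] E] :
    ∃ s : E, χ s ≠ 0 ∧ IsDomain (Localization.Away s) := by
  haveI : IsNoetherianRing E := isNoetherianRing_E K E
  obtain ⟨s, hs, hdom⟩ := exists_away_isDomain (pt χ)
  exact ⟨s, fun h => hs (RingHom.mem_ker.mpr h), hdom⟩

variable {χ}

theorem isUnit_χ_of_powers {s : E} (hs : χ s ≠ 0) (y : Submonoid.powers s) : IsUnit (χ y) := by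
  obtain ⟨_, n, rfl⟩ := y
  rw [isUnit_iff_ne_zero, map_pow]
  exact pow_ne_zero n hs

/-- The point `χ` on the principal open `D(s)`, `χ s ≠ 0`. -/
def awayEval {s : E} (hs : χ s ≠ 0) : Localization.Away s →ₐ[K] K :=
  IsLocalization.liftAlgHom (M := Submonoid.powers s) (f := χ) (isUnit_χ_of_powers hs)

@[simp]
theorem awayEval_algebraMap {s : E} (hs : χ s ≠ 0) (b : E) :
    awayEval hs (algebraMap E (Localization.Away s) b) = χ b := by
  simp [awayEval, IsLocalization.liftAlgHom_apply]

theorem awayEval_comp {s : E} (hs : χ s ≠ 0) :
    (awayEval hs).comp (IsScalarTower.toAlgHom K E (Localization.Away s)) = χ :=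
  AlgHom.ext fun b => awayEval_algebraMap hs b

end Curve

end Fermat.Agent.AV.Curv33.GermAlg87
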