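/-
Fermat/Agent/AV/Curv33/GermAxis42Iface.lean (helper42) -- programme AV (S26), brick CURV,
step (a) GERM, algebraic part: INTERFACE of the half "(A) AXIS + (B) TANGENT"
(split with helper87, who owns the local / Dedekind half and the assembly of `GermAlgStatement`).

`B` standard smooth of relative dimension `g` over `K`, `χ : B →ₐ[K] K`.
With étale coordinates `θ : K[X₁..X_g] → B` and `a_j := χ (θ X_j)`, the `i`-th AXIS is
`E_i := K[X] ⊗[K[X₁..X_g]] B` for `X_i ↦ X`, `X_j ↦ a_j` (`j ≠ i`): an étale `K[X]`-algebra with a
`K`-algebra map `π_i : B → E_i` and a `K`-point `pt_i` over `χ`.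

* `AxisAlg K B χ`   : the data `(E, π, pt)` of one axis (étale over `K[X]`);
* `GermOver A W`    : a curve germ `W : CurveGermAlg K B χ` lies over the axis `A`: a formally étale
                      `K`-algebra map `ι : A.E → W.R` (e.g. a localisation `A.E → A.E[1/s]`)
                      compatible with `π` and `pt`;
* `AxesStatement`   : there are `g` axes such that ANY family of germs over them satisfies
                      `GermsSpan` (the tangent lines of the germs span the tangent space).
-/
import Mathlib
import Fermat.Agent.AV.Curv33.GermIface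

set_option autoImplicit false

open Polynomial

universe u

noncomputable section

namespace Fermat.Agent.AV.Curv33.GermAxis42

/-- One coordinate axis through the `K`-point `χ` of `B`: an étale `K[X]`-algebra `E` with a
`K`-algebra map `π : B → E` and a `K`-point `pt` of `E` over `χ`. -/
structure AxisAlg (K : Type u) [Field K] (B : Type u) [CommRing B] [Algebra K B]
    (χ : B →ₐ[K] K) where
  /-- the coordinate ring of `Spec B ×_{𝔸^g} (i-th axis)` -/
  E : Type u
  [commRing : CommRing E]
  [algK : Algebra K E]
  [algPoly : Algebra K[X] E]
  [tower : IsScalarTower K K[X] E]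
  [etale : Algebra.Etale K[X] E]
  /-- the closed immersion of the axis into the chart -/
  π : B →ₐ[K] E
  /-- the point of the axis -/
  pt : E →ₐ[K] K
  pt_π : pt.comp π = χ

attribute [instance] AxisAlg.commRing AxisAlg.algK AxisAlg.algPoly AxisAlg.tower AxisAlg.etale

variable {K : Type u} [Field K] {B : Type u} [CommRing B] [Algebra K B] {χ : B →ₐ[K] K}

/-- A curve germ `W` lies over the axis `A`: `W.R` is a formally étale `A.E`-algebra (for instance
a localisation `A.E[1/s]`), compatibly with the maps from `B` and the points. -/
structure GermOver (A : AxisAlg K B χ) (W : CurveGermAlg K B χ) where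
  ι : A.E →ₐ[K] W.R
  formallyEtale : (ι : A.E →+* W.R).FormallyEtale
  π_eq : W.π = ι.comp A.π
  pt_comp : W.pt.comp ι = A.pt

/-- **(A) AXIS + (B) TANGENT.**  There are `g` axes through `χ` such that every family of curve
germs lying over them spans the tangent space of `B` at `χ`. -/
def AxesStatement : Prop :=
  ∀ (K : Type u) [Field K] (B : Type u) [CommRing B] [Algebra K B] (g : ℕ)
    [Algebra.IsStandardSmoothOfRelativeDimension g K B] (χ : B →ₐ[K] K),
    ∃ A : Fin g → AxisAlg K B χ,
      ∀ W : Fin g → CurveGermAlg K B χ, (∀ i, Nonempty (GermOver (A i) (W i))) → GermsSpan W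

end Fermat.Agent.AV.Curv33.GermAxis42
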