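/-
Fermat/Agent/AV/Curv33/GermAxis42Lift.lean (helper42) -- programme AV (S26), brick CURV, step (a) GERM,
algebraic part, half "(B) TANGENT": étale lifting to the dual numbers (Mathlib only).

* `existsUnique_lift` : étale lifting in `AlgHom` form (no algebra instances needed on the targets);
* `existsUnique_dual_poly` : a tangent vector of a formally étale `K[X]`-algebra at a `K`-point is
  determined by the `ε`-component of the image of `X`, which can be prescribed;
* `dual_ext_mvPolynomial` : tangent vectors of a formally étale `K[X₁..X_g]`-algebra are determined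
  by their values on the coordinates;
* `dualOf`, `snd_map_mul'` : tangent vectors from `χ`-derivations (copy of helper88's `dualOf`);
* `existsUnique_tangent_sum` : **TANGENT**, abstract form: formally étale `K[X]`-algebras `R i` lying
  over the `g` coordinate axes of étale coordinates `θ` at `χ`: every tangent vector of `B` at `χ`
  is uniquely a sum of tangent vectors of the `R i`.
-/
import Mathlib

set_option autoImplicit false

open Polynomial TrivSqZeroExt

namespace Fermat.Agent.AV.Curv33.GermAxis42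

section Lift

variable {K P B C C' : Type*} [CommRing K] [CommRing P] [CommRing B] [CommRing C] [CommRing C']
  [Algebra K P] [Algebra K B] [Algebra K C] [Algebra K C']

/-- **Étale lifting**, `AlgHom` form: for `θ : P → B` formally étale and `q : C → C'` surjective
with nilpotent kernel, a commutative square `q ∘ σ = ρ ∘ θ` has a unique diagonal `τ : B → C`. -/
theorem existsUnique_lift (θ : P →ₐ[K] B) (hθ : (θ : P →+* B).FormallyEtale)
    (q : C →ₐ[K] C') (hq : Function.Surjective q)
    (hq' : IsNilpotent (RingHom.ker (q : C →+* C')))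
    (σ : P →ₐ[K] C) (ρ : B →ₐ[K] C') (h : q.comp σ = ρ.comp θ) :
    ∃! τ : B →ₐ[K] C, τ.comp θ = σ ∧ q.comp τ = ρ := by
  let algPB : Algebra P B := (θ : P →+* B).toAlgebra
  let algPC : Algebra P C := (σ : P →+* C).toAlgebra
  let algPC' : Algebra P C' := ((q.comp σ : P →ₐ[K] C') : P →+* C').toAlgebra
  have hfe : Algebra.FormallyEtale P B := hθ
  have hfs : Algebra.FormallySmooth P B := inferInstance
  have hfu : Algebra.FormallyUnramified P B := inferInstance
  let qP : C →ₐ[P] C' := { (q : C →+* C') with commutes' := fun p => rfl }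
  let ρP : B →ₐ[P] C' :=
    { (ρ : B →+* C') with commutes' := fun p => (DFunLike.congr_fun h p).symm }
  let τP : B →ₐ[P] C := Algebra.FormallySmooth.liftOfSurjective ρP qP hq hq'
  have hτP : ∀ b, q (τP b) = ρ b := fun b =>
    Algebra.FormallySmooth.liftOfSurjective_apply ρP qP hq hq' b
  have hτθ : ∀ p, τP (θ p) = σ p := fun p => τP.commutes p
  let τ : B →ₐ[K] C :=
    { (τP : B →+* C) with
      commutes' := fun k => by
        show τP (algebraMap K B k) = algebraMap K C k
        rw [← θ.commutes k, hτθ, σ.commutes] }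
  refine ⟨τ, ⟨AlgHom.ext hτθ, AlgHom.ext hτP⟩, ?_⟩
  rintro τ' ⟨h1, h2⟩
  let τ'P : B →ₐ[P] C :=
    { (τ' : B →+* C) with commutes' := fun p => DFunLike.congr_fun h1 p }
  have : τ'P = τP := by
    refine Algebra.FormallyUnramified.ext' (q : C →+* C') hq' τ'P τP fun b => ?_
    show q (τ' b) = q (τP b)
    rw [hτP, ← h2]; rfl
  ext b
  exact DFunLike.congr_fun this b

end Lift

section Dual

variable {K : Type*} [Field K]

theorem isNilpotent_ker_fstHom :
    IsNilpotent (RingHom.ker ((fstHom K K K : TrivSqZeroExt K K →ₐ[K] K) :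
      TrivSqZeroExt K K →+* K)) :=
  ⟨2, kerIdeal_sq K K⟩

theorem fstHom_surjective : Function.Surjective (fstHom K K K : TrivSqZeroExt K K →ₐ[K] K) :=
  fun a => ⟨inl a, rfl⟩

theorem eq_inl_add_inr (x : TrivSqZeroExt K K) : x = inl x.fst + inr x.snd := by
  apply TrivSqZeroExt.ext <;> simp

variable {R : Type*} [CommRing R] [Algebra K R]

/-- Tangent vectors of a formally étale `K[X]`-algebra at a `K`-point: determined by the
`ε`-component of the image of the coordinate. -/
theorem existsUnique_dual_poly (ρ : K[X] →ₐ[K] R) (hρ : (ρ : K[X] →+* R).FormallyEtale)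
    (pt : R →ₐ[K] K) (w : K) :
    ∃! τ : R →ₐ[K] TrivSqZeroExt K K, (fstHom K K K).comp τ = pt ∧ (τ (ρ X)).snd = w := by
  let σ : K[X] →ₐ[K] TrivSqZeroExt K K := aeval (inl (pt (ρ X)) + inr w)
  have hsq : (fstHom K K K).comp σ = pt.comp ρ := by
    apply Polynomial.algHom_ext
    simp [σ, fstHom]
  obtain ⟨τ, ⟨h1, h2⟩, huniq⟩ := existsUnique_lift ρ hρ (fstHom K K K) fstHom_surjective
    isNilpotent_ker_fstHom σ pt hsq
  refine ⟨τ, ⟨h2, ?_⟩, ?_⟩
  · have := DFunLike.congr_fun h1 X
    simp only [AlgHom.comp_apply] at this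
    rw [this]; simp [σ]
  · rintro τ' ⟨h1', h2'⟩
    apply huniq
    refine ⟨?_, h1'⟩
    apply Polynomial.algHom_ext
    simp only [AlgHom.comp_apply, σ, aeval_X]
    rw [eq_inl_add_inr (τ' (ρ X)), h2']
    congr 2
    exact DFunLike.congr_fun h1' (ρ X)

/-- Two tangent vectors at the same point of a formally étale `K[X₁..X_g]`-algebra which agree on
the coordinates are equal. -/
theorem dual_ext_mvPolynomial {ι : Type*} (θ : MvPolynomial ι K →ₐ[K] R)
    (hθ : (θ : MvPolynomial ι K →+* R).FormallyEtale)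
    (τ₁ τ₂ : R →ₐ[K] TrivSqZeroExt K K)
    (hfst : (fstHom K K K).comp τ₁ = (fstHom K K K).comp τ₂)
    (hsnd : ∀ j, (τ₁ (θ (MvPolynomial.X j))).snd = (τ₂ (θ (MvPolynomial.X j))).snd) :
    τ₁ = τ₂ := by
  have hcomp : τ₁.comp θ = τ₂.comp θ := by
    apply MvPolynomial.algHom_ext
    intro j
    simp only [AlgHom.comp_apply]
    apply TrivSqZeroExt.ext
    · exact DFunLike.congr_fun hfst (θ (MvPolynomial.X j))
    · exact hsnd j
  have hsq : (fstHom K K K).comp (τ₁.comp θ) = ((fstHom K K K).comp τ₁).comp θ := rfl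
  obtain ⟨τ, -, huniq⟩ := existsUnique_lift θ hθ (fstHom K K K) fstHom_surjective
    isNilpotent_ker_fstHom (τ₁.comp θ) ((fstHom K K K).comp τ₁) hsq
  rw [huniq τ₁ ⟨rfl, rfl⟩, huniq τ₂ ⟨hcomp.symm, hfst.symm⟩]

/-- The Leibniz rule for the `ε`-component of an algebra homomorphism to the dual numbers. -/
theorem snd_map_mul' (ψ : R →ₐ[K] TrivSqZeroExt K K) (a b : R) :
    (ψ (a * b)).snd = (ψ a).fst * (ψ b).snd + (ψ b).fst * (ψ a).snd := by
  rw [map_mul, TrivSqZeroExt.snd_mul]
  simp [mul_comm]

/-- The algebra homomorphism `a ↦ χ a + δ a ε` attached to a point `χ` and a `χ`-derivation. -/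
def dualOf (χ : R →ₐ[K] K) (δ : R →ₗ[K] K)
    (hδ : ∀ a b, δ (a * b) = χ a * δ b + χ b * δ a) : R →ₐ[K] TrivSqZeroExt K K :=
  AlgHom.ofLinearMap
    ((inlAlgHom K K K).toLinearMap ∘ₗ χ.toLinearMap + (inrHom K K) ∘ₗ δ)
    (by
      have h1 : δ 1 = 0 := by
        have := hδ 1 1
        simp only [mul_one, map_one, one_mul] at this
        exact left_eq_add.mp this
      apply TrivSqZeroExt.ext <;> simp [h1])
    (by
      intro a b
      apply TrivSqZeroExt.ext
      · simp
      · simp [hδ a b, mul_comm])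

@[simp] theorem fst_dualOf (χ : R →ₐ[K] K) (δ : R →ₗ[K] K) (hδ) (a : R) :
    (dualOf χ δ hδ a).fst = χ a := by
  simp [dualOf]

@[simp] theorem snd_dualOf (χ : R →ₐ[K] K) (δ : R →ₗ[K] K) (hδ) (a : R) :
    (dualOf χ δ hδ a).snd = δ a := by
  simp [dualOf]

end Dual

section Tangent

variable {K : Type*} [Field K] {B : Type*} [CommRing B] [Algebra K B] {g : ℕ}
  (θ : MvPolynomial (Fin g) K →ₐ[K] B) (hθ : (θ : MvPolynomial (Fin g) K →+* B).FormallyEtale)
  (χ : B →ₐ[K] K)
  {R : Fin g → Type*} [∀ i, CommRing (R i)] [∀ i, Algebra K (R i)]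
  (ρ : ∀ i, K[X] →ₐ[K] R i) (hρ : ∀ i, (ρ i : K[X] →+* R i).FormallyEtale)
  (π : ∀ i, B →ₐ[K] R i) (pt : ∀ i, R i →ₐ[K] K) (hpt : ∀ i, (pt i).comp (π i) = χ)
  (h1 : ∀ i, π i (θ (MvPolynomial.X i)) = ρ i X)
  (h2 : ∀ i j, j ≠ i → π i (θ (MvPolynomial.X j)) = algebraMap K (R i) (χ (θ (MvPolynomial.X j))))

include hθ hρ hpt h1 h2 in
/-- **TANGENT (abstract form).**  `g` formally étale `K[X]`-algebras `R i` over the coordinate axes
of étale coordinates `θ` at `χ`: every tangent vector of `B` at `χ` is uniquely a sum of tangent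
vectors of the `R i`. -/
theorem existsUnique_tangent_sum (τ' : B →ₐ[K] TrivSqZeroExt K K)
    (hτ' : (fstHom K K K).comp τ' = χ) :
    ∃! τ : ∀ i, R i →ₐ[K] TrivSqZeroExt K K,
      (∀ i, (fstHom K K K).comp (τ i) = pt i) ∧
        ∀ b : B, (τ' b).snd = ∑ i, (τ i (π i b)).snd := by
  classical
  -- the coordinates of `τ'`
  let v : Fin g → K := fun j => (τ' (θ (MvPolynomial.X j))).snd
  -- the candidate tangent vectors
  choose T hT hTuniq using fun i => existsUnique_dual_poly (ρ i) (hρ i) (pt i) (v i)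
  have hfstT : ∀ i (r : R i), (T i r).fst = pt i r := fun i r =>
    DFunLike.congr_fun (hT i).1 r
  -- values of `T i ∘ π i` on the coordinates
  have hval : ∀ i j, (T i (π i (θ (MvPolynomial.X j)))).snd = if j = i then v i else 0 := by
    intro i j
    by_cases hji : j = i
    · subst hji
      rw [if_pos rfl, h1, (hT j).2]
    · rw [if_neg hji, h2 i j hji, AlgHom.commutes]
      rfl
  -- a general criterion for a family to satisfy the sum condition
  have hsum : ∀ τ : ∀ i, R i →ₐ[K] TrivSqZeroExt K K,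
      (∀ i, (fstHom K K K).comp (τ i) = pt i) →
      (∀ j, ∑ i, (τ i (π i (θ (MvPolynomial.X j)))).snd = v j) →
      ∀ b : B, (τ' b).snd = ∑ i, (τ i (π i b)).snd := by
    intro τ hτ1 hτ2
    have hfst : ∀ i (b : B), (τ i (π i b)).fst = χ b := by
      intro i b
      have := DFunLike.congr_fun (hτ1 i) (π i b)
      rw [AlgHom.comp_apply] at this
      have h3 := DFunLike.congr_fun (hpt i) b
      rw [AlgHom.comp_apply] at h3
      exact this.trans h3
    let δ : B →ₗ[K] K := ∑ i, (sndHom K K) ∘ₗ ((τ i).comp (π i)).toLinearMap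
    have hδ_apply : ∀ b, δ b = ∑ i, (τ i (π i b)).snd := by
      intro b
      simp [δ, LinearMap.sum_apply]
    have hδ : ∀ a b, δ (a * b) = χ a * δ b + χ b * δ a := by
      intro a b
      rw [hδ_apply, hδ_apply, hδ_apply, Finset.mul_sum, Finset.mul_sum, ← Finset.sum_add_distrib]
      refine Finset.sum_congr rfl fun i _ => ?_
      rw [map_mul, snd_map_mul', hfst, hfst]
    have hΨ : dualOf χ δ hδ = τ' := by
      apply dual_ext_mvPolynomial θ hθ
      · ext b
        simp only [AlgHom.comp_apply]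
        have := DFunLike.congr_fun hτ' b
        rw [AlgHom.comp_apply] at this
        rw [this]
        exact fst_dualOf χ δ hδ b
      · intro j
        rw [snd_dualOf, hδ_apply, hτ2 j]
    intro b
    rw [← hΨ, snd_dualOf, hδ_apply]
  refine ⟨T, ⟨fun i => (hT i).1, hsum T (fun i => (hT i).1) ?_⟩, ?_⟩
  · intro j
    simp_rw [hval]
    rw [Finset.sum_eq_single j]
    · simp
    · intro i _ hij
      rw [if_neg (Ne.symm hij)]
    · intro hj; exact absurd (Finset.mem_univ j) hj
  · rintro τ ⟨hτ1, hτ2⟩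
    funext i
    apply hTuniq i
    refine ⟨hτ1 i, ?_⟩
    -- evaluate the sum condition at the `i`-th coordinate
    have hsumi := hτ2 (θ (MvPolynomial.X i))
    rw [Finset.sum_eq_single i] at hsumi
    · rw [← h1]; exact hsumi.symm
    · intro k _ hki
      rw [h2 k i (Ne.symm hki), AlgHom.commutes]
      rfl
    · intro hi; exact absurd (Finset.mem_univ i) hi

end Tangent

end Fermat.Agent.AV.Curv33.GermAxis42
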