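/-
Fermat/Agent/AV/Curv33/GermAxis42.lean (helper42) -- programme AV (S26), brick CURV, step (a) GERM,
algebraic part: proof of `GermAxis42.AxesStatement` ("(A) AXIS + (B) TANGENT").

With étale coordinates `θ : K[X₁..X_g] → B` (Mathlib:
`Algebra.IsStandardSmoothOfRelativeDimension.exists_etale_mvPolynomial`) and `a_j := χ (θ X_j)`:
`E_i := K[X] ⊗[K[X₁..X_g]] B` along `axisHom a i : X_i ↦ X, X_j ↦ a_j`; étale over `K[X]` by base
change; `π_i b = 1 ⊗ b`; `pt_i (x ⊗ b) = x(a_i) · χ b`.  The tangent statement is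
`existsUnique_tangent_sum` of `GermAxis42Lift`.
-/
import Fermat.Agent.AV.Curv33.GermAxis42Iface
import Fermat.Agent.AV.Curv33.GermAxis42Lift

set_option autoImplicit false

open Polynomial TensorProduct TrivSqZeroExt

universe u

noncomputable section

namespace Fermat.Agent.AV.Curv33.GermAxis42

section Axis

variable (K : Type u) [Field K] {B : Type u} [CommRing B] [Algebra K B] {g : ℕ}

/-- The `i`-th coordinate axis through the point `a` of `𝔸^g`:
`X_i ↦ X`, `X_j ↦ a_j` for `j ≠ i`. -/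
def axisHom (a : Fin g → K) (i : Fin g) : MvPolynomial (Fin g) K →ₐ[K] K[X] :=
  MvPolynomial.aeval (fun j => if j = i then X else C (a j))

@[simp] theorem axisHom_X_self (a : Fin g → K) (i : Fin g) :
    axisHom K a i (MvPolynomial.X i) = X := by
  simp [axisHom]

theorem axisHom_X_of_ne (a : Fin g → K) {i j : Fin g} (h : j ≠ i) :
    axisHom K a i (MvPolynomial.X j) = C (a j) := by
  simp [axisHom, h]

/-- `K[X]` as an algebra over `K[X₁..X_g]` along the `i`-th axis through `a`. -/
def AxisPoly (a : Fin g → K) (i : Fin g) : Type u := K[X]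

instance (a : Fin g → K) (i : Fin g) : CommRing (AxisPoly K a i) :=
  inferInstanceAs (CommRing K[X])

instance (a : Fin g → K) (i : Fin g) : Algebra K (AxisPoly K a i) :=
  inferInstanceAs (Algebra K K[X])

instance (a : Fin g → K) (i : Fin g) : Algebra K[X] (AxisPoly K a i) :=
  inferInstanceAs (Algebra K[X] K[X])

instance (a : Fin g → K) (i : Fin g) : Algebra (MvPolynomial (Fin g) K) (AxisPoly K a i) :=
  (axisHom K a i).toRingHom.toAlgebra

instance (a : Fin g → K) (i : Fin g) :
    IsScalarTower K (MvPolynomial (Fin g) K) (AxisPoly K a i) :=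
  .of_algebraMap_eq fun k => ((axisHom K a i).commutes k).symm

/-- `B` as an algebra over `K[X₁..X_g]` along `θ`. -/
def Chart (θ : MvPolynomial (Fin g) K →ₐ[K] B) : Type u := B

instance (θ : MvPolynomial (Fin g) K →ₐ[K] B) : CommRing (Chart K θ) :=
  inferInstanceAs (CommRing B)

instance (θ : MvPolynomial (Fin g) K →ₐ[K] B) : Algebra K (Chart K θ) :=
  inferInstanceAs (Algebra K B)

instance (θ : MvPolynomial (Fin g) K →ₐ[K] B) :
    Algebra (MvPolynomial (Fin g) K) (Chart K θ) :=
  θ.toRingHom.toAlgebra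

instance (θ : MvPolynomial (Fin g) K →ₐ[K] B) :
    IsScalarTower K (MvPolynomial (Fin g) K) (Chart K θ) :=
  .of_algebraMap_eq fun k => (θ.commutes k).symm

/-- The coordinate ring of `Spec B ×_{𝔸^g} (i-th axis through a)`. -/
abbrev AxisE (a : Fin g → K) (i : Fin g) (θ : MvPolynomial (Fin g) K →ₐ[K] B) : Type u :=
  AxisPoly K a i ⊗[MvPolynomial (Fin g) K] Chart K θ

variable (a : Fin g → K) (i : Fin g) (θ : MvPolynomial (Fin g) K →ₐ[K] B)

instance : Algebra K[X] (AxisE K a i θ) :=
  inferInstanceAs (Algebra (AxisPoly K a i) (AxisE K a i θ))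

instance : IsScalarTower K K[X] (AxisE K a i θ) :=
  inferInstanceAs (IsScalarTower K (AxisPoly K a i) (AxisE K a i θ))

theorem etale_axisE (hθ : (θ : MvPolynomial (Fin g) K →+* B).Etale) :
    Algebra.Etale K[X] (AxisE K a i θ) := by
  have : Algebra.Etale (MvPolynomial (Fin g) K) (Chart K θ) := hθ
  exact inferInstanceAs (Algebra.Etale (AxisPoly K a i) (AxisE K a i θ))

/-- The map `B → E_i`, `b ↦ 1 ⊗ b`. -/
def axisπ : B →ₐ[K] AxisE K a i θ :=
  (Algebra.TensorProduct.includeRight (R := MvPolynomial (Fin g) K) (A := AxisPoly K a i)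
    (B := Chart K θ)).restrictScalars K

theorem axisπ_apply (b : B) :
    axisπ K a i θ b =
      (1 : AxisPoly K a i) ⊗ₜ[MvPolynomial (Fin g) K] (show Chart K θ from b) :=
  rfl

theorem axisπ_θ (p : MvPolynomial (Fin g) K) :
    axisπ K a i θ (θ p) = algebraMap K[X] (AxisE K a i θ) (axisHom K a i p) := by
  rw [axisπ_apply]
  exact (Algebra.TensorProduct.tmul_one_eq_one_tmul (A := AxisPoly K a i) (B := Chart K θ) p).symm

theorem aeval_comp_axisHom (χ : B →ₐ[K] K) (ha : ∀ j, χ (θ (MvPolynomial.X j)) = a j) :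
    (Polynomial.aeval (a i) : K[X] →ₐ[K] K).comp (axisHom K a i) = χ.comp θ := by
  apply MvPolynomial.algHom_ext
  intro j
  by_cases hji : j = i
  · subst hji
    simp [ha]
  · simp [axisHom_X_of_ne K a hji, ha]

/-- The point of the axis over `χ`. -/
def axisPt (χ : B →ₐ[K] K) (ha : ∀ j, χ (θ (MvPolynomial.X j)) = a j) :
    AxisE K a i θ →ₐ[K] K :=
  letI : Algebra (MvPolynomial (Fin g) K) K :=
    ((χ.comp θ : MvPolynomial (Fin g) K →ₐ[K] K) : MvPolynomial (Fin g) K →+* K).toAlgebra
  haveI : IsScalarTower K (MvPolynomial (Fin g) K) K :=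
    .of_algebraMap_eq fun k => ((χ.comp θ).commutes k).symm
  let f : AxisPoly K a i →ₐ[MvPolynomial (Fin g) K] K :=
    { ((Polynomial.aeval (a i) : K[X] →ₐ[K] K) : K[X] →+* K) with
      commutes' := fun p => DFunLike.congr_fun (aeval_comp_axisHom K a i θ χ ha) p }
  let g' : Chart K θ →ₐ[MvPolynomial (Fin g) K] K :=
    { (χ : B →+* K) with commutes' := fun _ => rfl }
  (Algebra.TensorProduct.lift f g' (fun _ _ => Commute.all _ _)).restrictScalars K

theorem axisPt_tmul (χ : B →ₐ[K] K) (ha : ∀ j, χ (θ (MvPolynomial.X j)) = a j)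
    (x : K[X]) (b : B) :
    axisPt K a i θ χ ha ((show AxisPoly K a i from x) ⊗ₜ[MvPolynomial (Fin g) K]
      (show Chart K θ from b)) = Polynomial.aeval (a i) x * χ b := by
  simp only [axisPt]
  rfl

theorem axisPt_comp_axisπ (χ : B →ₐ[K] K) (ha : ∀ j, χ (θ (MvPolynomial.X j)) = a j) :
    (axisPt K a i θ χ ha).comp (axisπ K a i θ) = χ := by
  ext b
  rw [AlgHom.comp_apply, axisπ_apply]
  have := axisPt_tmul K a i θ χ ha 1 b
  rw [map_one, one_mul] at this
  exact this

end Axis

section Assembly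

variable (K : Type u) [Field K] {B : Type u} [CommRing B] [Algebra K B] {g : ℕ}

/-- The `i`-th axis of the étale coordinates `θ` through the point `χ`. -/
def axisAlg (θ : MvPolynomial (Fin g) K →ₐ[K] B)
    (hθ : (θ : MvPolynomial (Fin g) K →+* B).Etale) (χ : B →ₐ[K] K) (i : Fin g) :
    AxisAlg K B χ where
  E := AxisE K (fun j => χ (θ (MvPolynomial.X j))) i θ
  commRing := inferInstance
  algK := inferInstance
  algPoly := inferInstance
  tower := inferInstance
  etale := etale_axisE K _ i θ hθ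
  π := axisπ K _ i θ
  pt := axisPt K _ i θ χ (fun _ => rfl)
  pt_π := axisPt_comp_axisπ K _ i θ χ (fun _ => rfl)

theorem axisAlg_π_θ (θ : MvPolynomial (Fin g) K →ₐ[K] B)
    (hθ : (θ : MvPolynomial (Fin g) K →+* B).Etale) (χ : B →ₐ[K] K) (i : Fin g)
    (p : MvPolynomial (Fin g) K) :
    (axisAlg K θ hθ χ i).π (θ p) =
      algebraMap K[X] (axisAlg K θ hθ χ i).E
        (axisHom K (fun j => χ (θ (MvPolynomial.X j))) i p) :=
  axisπ_θ K _ i θ p

/-- **(A) AXIS + (B) TANGENT.** -/
theorem axes : AxesStatement.{u} := by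
  intro K _ B _ _ g _ χ
  obtain ⟨θ, hθ⟩ := Algebra.IsStandardSmoothOfRelativeDimension.exists_etale_mvPolynomial g K B
  have hθ' : (θ : MvPolynomial (Fin g) K →+* B).FormallyEtale := by
    have : Algebra.Etale (MvPolynomial (Fin g) K) (Chart K θ) := hθ
    exact (inferInstance : Algebra.FormallyEtale (MvPolynomial (Fin g) K) (Chart K θ))
  refine ⟨fun i => axisAlg K θ hθ χ i, fun W hW => ?_⟩
  have G : ∀ i, GermOver (axisAlg K θ hθ χ i) (W i) := fun i => Classical.choice (hW i)
  intro τ' hτ'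
  refine existsUnique_tangent_sum θ hθ' χ (R := fun i => (W i).R)
    (fun i => (G i).ι.comp (IsScalarTower.toAlgHom K K[X] (axisAlg K θ hθ χ i).E))
    (fun i => ?_) (fun i => (W i).π) (fun i => (W i).pt) (fun i => (W i).pt_π)
    (fun i => ?_) (fun i j hji => ?_) τ' hτ'
  · -- formally étale composite
    have h1 : (algebraMap K[X] (axisAlg K θ hθ χ i).E).FormallyEtale :=
      RingHom.formallyEtale_algebraMap.2 inferInstance
    exact h1.comp (G i).formallyEtale
  · rw [(G i).π_eq, AlgHom.comp_apply, axisAlg_π_θ, axisHom_X_self]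
    rfl
  · rw [(G i).π_eq, AlgHom.comp_apply, axisAlg_π_θ, axisHom_X_of_ne K _ hji,
      ← Polynomial.algebraMap_eq, ← IsScalarTower.algebraMap_apply K K[X], AlgHom.commutes]

end Assembly

end Fermat.Agent.AV.Curv33.GermAxis42
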