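/-
Fermat/Agent/AV/Curv33/GermAlg87Main.lean (helper87) -- programme AV (S26 + S27), brick CURV,
part (a) GERM, algebraic part: FINAL ASSEMBLY of `GermAlgStatement` from

* the local / Dedekind half (`GermAlg87.lean`, `GermAlg87Curve.lean`, helper87): around a
  `K`-point, an étale `K[X]`-algebra has a principal open which is a Dedekind domain, smooth of
  finite type over `K`, with function field finite separable over `K(X)`;
* the AXIS + TANGENT half (`GermAxis42Iface.AxesStatement`, helper42).
-/
import Mathlib
import Fermat.Agent.AV.Curv33.GermAlg87Curve
import Fermat.Agent.AV.Curv33.GermIface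
import Fermat.Agent.AV.Curv33.GermAxis42Iface
import Fermat.Agent.AV.Curv33.GermAxis42

set_option autoImplicit false
set_option linter.style.haveILetI false

open Polynomial TrivSqZeroExt IntermediateField

universe u

noncomputable section

namespace Fermat.Agent.AV.Curv33.GermAlg87

open Fermat.Agent.AV.Curv33.GermAxis42

variable {K : Type u} [Field K] [IsAlgClosed K] {B : Type u} [CommRing B] [Algebra K B]
  {χ : B →ₐ[K] K}

/-- The curve germ cut out by a principal open `D(s)` of an axis algebra which is a domain. -/
def germOfAxis (A : AxisAlg K B χ) (s : A.E) (hs : A.pt s ≠ 0)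
    [IsDomain (Localization.Away s)] : CurveGermAlg K B χ where
  R := Localization.Away s
  finiteType := finiteType_of_etale_poly K (Localization.Away s)
  smooth := smooth_of_etale_poly K (Localization.Away s)
  dedekind := isDedekindDomain_of_etale_poly K (Localization.Away s)
  π := (IsScalarTower.toAlgHom K A.E (Localization.Away s)).comp A.π
  pt := awayEval hs
  pt_π := by
    rw [← AlgHom.comp_assoc, awayEval_comp, A.pt_π]
  x := algebraMap K[X] (Localization.Away s) X
  x_transc := transcendental_coord
  finite := finiteDimensional_fractionRing
  separable := isSeparable_fractionRing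

/-- The germ `germOfAxis A s hs` lies over the axis `A`. -/
def germOverOfAxis (A : AxisAlg K B χ) (s : A.E) (hs : A.pt s ≠ 0)
    [IsDomain (Localization.Away s)] : GermOver A (germOfAxis A s hs) where
  ι := IsScalarTower.toAlgHom K A.E (Localization.Away s)
  formallyEtale := by
    have h : (algebraMap A.E (Localization.Away s)).FormallyEtale :=
      RingHom.formallyEtale_algebraMap.mpr
        (Algebra.FormallyEtale.of_isLocalization (Submonoid.powers s))
    exact h
  π_eq := rfl
  pt_comp := awayEval_comp hs

/-- **CURV (a) GERM, algebraic part**, from the AXIS + TANGENT half. -/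
theorem germAlg_of_axes (h : AxesStatement.{u}) : GermAlgStatement.{u} := by
  intro K _ _ B _ _ g _ χ
  obtain ⟨A, hA⟩ := h K B g χ
  have hs : ∀ i, ∃ s : (A i).E, (A i).pt s ≠ 0 ∧ IsDomain (Localization.Away s) :=
    fun i => exists_away_isDomain_of_etale (A i).pt
  choose s hs hdom using hs
  refine ⟨fun i => haveI := hdom i; germOfAxis (A i) (s i) (hs i), ?_⟩
  exact hA _ fun i => haveI := hdom i; ⟨germOverOfAxis (A i) (s i) (hs i)⟩

/-- **CURV (a) GERM, algebraic part.**  `K` algebraically closed, `B` standard smooth of relative
dimension `g` over `K`, `χ` a `K`-point: there are `g` affine smooth integral curve germs through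
`χ` (Dedekind domains of finite type, with separating coordinates) whose tangent lines span the
tangent space of `B` at `χ`. -/
theorem germAlg : GermAlgStatement.{u} := germAlg_of_axes axes

end Fermat.Agent.AV.Curv33.GermAlg87
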