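/-
Fermat/Agent/AV/Curv33/Ext.lean (helper33) -- programme AV (S26 + S27), brick CURV, part (c) EXT.

**Extension of rational maps from a Dedekind scheme to a proper scheme.**
Let `C` be an integral `S`-scheme all of whose local rings are valuation rings (e.g. a smooth
curve over a field), and `f : A ⟶ S` proper.  Every `S`-morphism from the generic point
`η : Spec K(C) ⟶ A` extends uniquely to an `S`-morphism `C ⟶ A`.

Proof: valuative criterion at each local ring (`IsProper.eq_valuativeCriterion`), spreading out
(`spread_out_of_isGermInjective'`), agreement on overlaps by separatedness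
(`ext_of_isDominant_of_isSeparated`), gluing (`Scheme.Cover.glueMorphisms`).
-/
import Mathlib

set_option autoImplicit false

open CategoryTheory CategoryTheory.Limits AlgebraicGeometry TopologicalSpace

universe u

noncomputable section

namespace Fermat.Agent.AV.Curv33.Ext

variable {S C A : Scheme.{u}} (c : C ⟶ S) (f : A ⟶ S)

section Generic

variable [IsIntegral C]

/-- The generic point as a morphism `Spec K(C) ⟶ C`. -/
abbrev genericHom (C : Scheme.{u}) [IsIntegral C] : Spec C.functionField ⟶ C :=
  C.fromSpecStalk (genericPoint C)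

/-- The generic point of `C` factors through the spectrum of each local ring. -/
theorem specMap_algebraMap_fromSpecStalk (x : C) :
    Spec.map (CommRingCat.ofHom (algebraMap (C.presheaf.stalk x) C.functionField)) ≫
      C.fromSpecStalk x = genericHom C :=
  Scheme.SpecMap_stalkSpecializes_fromSpecStalk ((genericPoint_spec C).specializes trivial)

end Generic

section Local

variable [IsIntegral C] [IsProper f]

/-- Existence part of the valuative criterion for a proper morphism. -/
theorem existence_of_isProper : ValuativeCriterion.Existence f := by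
  have h : UniversallyClosed f := inferInstance
  rw [UniversallyClosed.eq_valuativeCriterion] at h
  exact h.1

/-- **Local lift**: at a point whose local ring is a valuation ring, a morphism from the generic
point to a proper `S`-scheme extends to the spectrum of the local ring. -/
theorem exists_local_lift (x : C) [ValuationRing (C.presheaf.stalk x)]
    (η : Spec C.functionField ⟶ A) (hη : η ≫ f = genericHom C ≫ c) :
    ∃ l : Spec (C.presheaf.stalk x) ⟶ A,
      Spec.map (CommRingCat.ofHom (algebraMap (C.presheaf.stalk x) C.functionField)) ≫ l = η ∧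
      l ≫ f = C.fromSpecStalk x ≫ c := by
  have hsq : CommSq η (Spec.map (CommRingCat.ofHom (algebraMap (C.presheaf.stalk x) C.functionField)))
      f (C.fromSpecStalk x ≫ c) :=
    ⟨by rw [hη, ← specMap_algebraMap_fromSpecStalk x, Category.assoc]; rfl⟩
  let Sq : ValuativeCommSq f :=
    @ValuativeCommSq.mk _ _ f (C.presheaf.stalk x) inferInstance inferInstance inferInstance
      C.functionField inferInstance inferInstance inferInstance η (C.fromSpecStalk x ≫ c) hsq
  obtain ⟨⟨l⟩⟩ := existence_of_isProper f Sq
  exact ⟨l.l, l.fac_left, l.fac_right⟩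

end Local

section Nhd

variable [IsIntegral C] [IsProper f]

/-- The generic point lies in every nonempty open. -/
theorem genericPoint_mem {U : C.Opens} {x : C} (hx : x ∈ U) : genericPoint C ∈ U :=
  ((genericPoint_spec C).specializes (Set.mem_univ x)).mem_open U.2 hx

/-- The generic point of `C` as a morphism to a nonempty open subscheme. -/
abbrev genericHomOpen (U : C.Opens) {x : C} (hx : x ∈ U) : Spec C.functionField ⟶ U.toScheme :=
  U.fromSpecStalkOfMem (genericPoint C) (genericPoint_mem hx)

@[reassoc]
theorem genericHomOpen_ι (U : C.Opens) {x : C} (hx : x ∈ U) :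
    genericHomOpen U hx ≫ U.ι = genericHom C :=
  U.fromSpecStalkOfMem_ι _ _

theorem specMap_algebraMap_fromSpecStalkOfMem (U : C.Opens) {x : C} (hx : x ∈ U) :
    Spec.map (CommRingCat.ofHom (algebraMap (C.presheaf.stalk x) C.functionField)) ≫
      U.fromSpecStalkOfMem x hx = genericHomOpen U hx := by
  rw [← cancel_mono U.ι, Category.assoc, U.fromSpecStalkOfMem_ι, genericHomOpen_ι,
    specMap_algebraMap_fromSpecStalk]

/-- **Extension to a neighbourhood** of a point whose local ring is a valuation ring. -/
theorem exists_nhd_extension (x : C) [ValuationRing (C.presheaf.stalk x)]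
    (η : Spec C.functionField ⟶ A) (hη : η ≫ f = genericHom C ≫ c) :
    ∃ (U : C.Opens) (hxU : x ∈ U) (g : U.toScheme ⟶ A),
      g ≫ f = U.ι ≫ c ∧ genericHomOpen U hxU ≫ g = η := by
  obtain ⟨l, hl1, hl2⟩ := exists_local_lift c f x η hη
  obtain ⟨U, hxU, g, hg1, hg2⟩ := spread_out_of_isGermInjective' c f l hl2
  refine ⟨U, hxU, g, hg2, ?_⟩
  rw [← specMap_algebraMap_fromSpecStalkOfMem U hxU, Category.assoc, ← hg1, hl1]

end Nhd

section Glue

variable [IsIntegral C]

/-- The generic point is dominant. -/
instance isDominant_genericHom : IsDominant (genericHom C) := by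
  constructor
  have hmem : genericPoint C ∈ Set.range (genericHom C) :=
    ⟨IsLocalRing.closedPoint _, Scheme.fromSpecStalk_closedPoint⟩
  have hcl : closure ({genericPoint C} : Set C) = Set.univ := (genericPoint_spec C).def
  rw [DenseRange, Dense]
  intro y
  have : closure ({genericPoint C} : Set C) ⊆ closure (Set.range (genericHom C)) :=
    closure_mono (Set.singleton_subset_iff.mpr hmem)
  exact this (hcl ▸ Set.mem_univ y)

variable [IsProper f]

/-- Two local extensions of the same generic morphism agree on the overlap. -/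
theorem overlap_eq {U U' : C.Opens} {x x' : C} (hx : x ∈ U) (hx' : x' ∈ U')
    (g : U.toScheme ⟶ A) (g' : U'.toScheme ⟶ A)
    (hg : g ≫ f = U.ι ≫ c) (hg' : g' ≫ f = U'.ι ≫ c)
    (η : Spec C.functionField ⟶ A)
    (hgη : genericHomOpen U hx ≫ g = η) (hgη' : genericHomOpen U' hx' ≫ g' = η) :
    pullback.fst U.ι U'.ι ≫ g = pullback.snd U.ι U'.ι ≫ g' := by
  let ι : Spec C.functionField ⟶ pullback U.ι U'.ι :=
    pullback.lift (genericHomOpen U hx) (genericHomOpen U' hx')
      (by rw [genericHomOpen_ι, genericHomOpen_ι])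
  have hι : ι ≫ (pullback.fst U.ι U'.ι ≫ U.ι) = genericHom C := by
    rw [pullback.lift_fst_assoc, genericHomOpen_ι]
  have : IsDominant (ι ≫ (pullback.fst U.ι U'.ι ≫ U.ι)) := by rw [hι]; infer_instance
  have : IsDominant ι := IsDominant.of_comp_of_isOpenImmersion ι (pullback.fst U.ι U'.ι ≫ U.ι)
  have : IsReduced (pullback U.ι U'.ι) :=
    isReduced_of_isOpenImmersion (pullback.fst U.ι U'.ι ≫ U.ι)
  refine ext_of_isDominant_of_isSeparated f ?_ ι ?_
  · rw [Category.assoc, Category.assoc, hg, hg', pullback.condition_assoc]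
  · rw [pullback.lift_fst_assoc, pullback.lift_snd_assoc, hgη, hgη']

/-- **EXT.**  Let `C` be an integral `S`-scheme all of whose local rings are valuation rings and
`f : A ⟶ S` proper.  Every `S`-morphism `η : Spec K(C) ⟶ A` from the generic point extends to an
`S`-morphism `C ⟶ A`. -/
theorem exists_extension (hval : ∀ x : C, ValuationRing (C.presheaf.stalk x))
    (η : Spec C.functionField ⟶ A) (hη : η ≫ f = genericHom C ≫ c) :
    ∃ φ : C ⟶ A, φ ≫ f = c ∧ genericHom C ≫ φ = η := by
  have key : ∀ x : C, ∃ (U : C.Opens) (hxU : x ∈ U) (g : U.toScheme ⟶ A),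
      g ≫ f = U.ι ≫ c ∧ genericHomOpen U hxU ≫ g = η := fun x =>
    haveI := hval x
    exists_nhd_extension c f x η hη
  choose U hxU g hg1 hg2 using key
  have hcov : IsOpenCover U := by
    apply IsOpenCover.mk
    rw [eq_top_iff]
    intro x _
    exact Opens.mem_iSup.mpr ⟨x, hxU x⟩
  let 𝒰 : C.OpenCover := C.openCoverOfIsOpenCover U hcov
  let g' : ∀ x : 𝒰.I₀, 𝒰.X x ⟶ A := g
  have hglue : ∀ x y : 𝒰.I₀, pullback.fst (𝒰.f x) (𝒰.f y) ≫ g' x = pullback.snd _ _ ≫ g' y :=
    fun x y => overlap_eq c f (hxU x) (hxU y) (g x) (g y) (hg1 x) (hg1 y) η (hg2 x) (hg2 y)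
  have hι : ∀ x : 𝒰.I₀, 𝒰.f x ≫ 𝒰.glueMorphisms g' hglue = g' x :=
    fun x => Scheme.Cover.ι_glueMorphisms 𝒰 g' hglue x
  refine ⟨𝒰.glueMorphisms g' hglue, ?_, ?_⟩
  · refine Scheme.Cover.hom_ext 𝒰 _ _ fun x => ?_
    exact (Category.assoc _ _ _).symm.trans ((congrArg (· ≫ f) (hι x)).trans (hg1 x))
  · have h1 : genericHom C = genericHomOpen (U (genericPoint C)) (hxU _) ≫ 𝒰.f (genericPoint C) :=
      (genericHomOpen_ι _ _).symm
    exact (congrArg (· ≫ 𝒰.glueMorphisms g' hglue) h1).trans
      ((Category.assoc _ _ _).trans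
        ((congrArg (genericHomOpen (U (genericPoint C)) (hxU _) ≫ ·) (hι (genericPoint C))).trans
          (hg2 _)))

/-- Uniqueness of the extension (only separatedness of `f` and reducedness of `C` are used). -/
theorem extension_unique (φ φ' : C ⟶ A) (h : φ ≫ f = φ' ≫ f)
    (hgen : genericHom C ≫ φ = genericHom C ≫ φ') : φ = φ' :=
  ext_of_isDominant_of_isSeparated f h (genericHom C) hgen

end Glue

section Model

variable {W : Scheme.{u}} (w : W ⟶ S) [IsIntegral W] [IsIntegral C] [IsProper c] [IsProper f]

/-- **Factorisation through a complete model.**  Let `W` be an integral `S`-scheme with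
valuation-ring stalks (a curve germ), `C` a proper integral `S`-scheme with valuation-ring stalks,
birational to `W` over `S` (`α`), and `j : W ⟶ A` an `S`-morphism to a proper `S`-scheme.  Then
there are `S`-morphisms `ι : W ⟶ C` (inducing `α` at the generic points) and `φ : C ⟶ A` with
`ι ≫ φ = j`. -/
theorem exists_factor_through_model
    (hW : ∀ x : W, ValuationRing (W.presheaf.stalk x))
    (hC : ∀ x : C, ValuationRing (C.presheaf.stalk x))
    (α : Spec W.functionField ≅ Spec C.functionField)
    (hα : α.hom ≫ genericHom C ≫ c = genericHom W ≫ w)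
    (j : W ⟶ A) (hj : j ≫ f = w) :
    ∃ (ι : W ⟶ C) (φ : C ⟶ A), ι ≫ c = w ∧ φ ≫ f = c ∧ ι ≫ φ = j ∧
      genericHom W ≫ ι = α.hom ≫ genericHom C := by
  obtain ⟨ι, hι1, hι2⟩ := exists_extension w c hW (α.hom ≫ genericHom C)
    (by rw [Category.assoc, hα])
  have hη : (α.inv ≫ genericHom W ≫ j) ≫ f = genericHom C ≫ c := by
    rw [Category.assoc, Category.assoc, hj, ← hα, Iso.inv_hom_id_assoc]
  obtain ⟨φ, hφ1, hφ2⟩ := exists_extension c f hC (α.inv ≫ genericHom W ≫ j) hη
  refine ⟨ι, φ, hι1, hφ1, ?_, hι2⟩
  refine extension_unique f (ι ≫ φ) j (by rw [Category.assoc, hφ1, hι1, hj]) ?_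
  rw [reassoc_of% hι2, hφ2, Iso.hom_inv_id_assoc]

end Model

end Fermat.Agent.AV.Curv33.Ext
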