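/-
Fermat/Agent/AV/Curv33/ExtCurve87.lean  (helper87)

Programme AV (S26/S27), brick CURV, sub-brick (c) EXT: **a rational map from a "Dedekind" integral
scheme to a proper scheme is a morphism**.

Setting: `S`-schemes `sC : C ⟶ S`, `sA : A ⟶ S`, `C` integral, `sA` proper, `S` separated (e.g.
affine).  Let `η : Spec K(C) ⟶ A` be an `S`-morphism from the function field of `C`.

* `exists_lift_stalk` : if `𝒪_{C,x}` is a valuation ring, `η` extends to `Spec 𝒪_{C,x} ⟶ A`
  (valuative criterion; only `sA` universally closed is used);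
* `mem_domain_ofFunctionField` : such an `x` lies in the domain of definition of the rational map
  `C ⤏ A` attached to `η` (Mathlib `Scheme.RationalMap.ofFunctionField`);
* `exists_extension` : if all stalks of `C` are valuation rings, there is a morphism `φ : C ⟶ A`
  over `S` with `Spec K(C) ⟶ C ⟶ A` equal to `η`;
* `extension_unique` : such a `φ` is unique (`sA` separated, `C` integral);
* `exists_extension_of_open` : the same starting from an `S`-morphism `g : W ⟶ A` on a nonempty
  open `W` of `C`: `W.ι ≫ φ = g`;
* `valuationRing_stalk_of_dedekind` : the hypothesis "all stalks are valuation rings" for an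
  integral scheme covered by spectra of Dedekind domains;
* `fromSpecStalk_comp_eq_of_lift` / `apply_eq_of_lift` : the restriction of an extension `φ` to
  `Spec 𝒪_{C,x}` is THE valuative lift; in particular `φ x` is the image of the closed point of
  `Spec 𝒪_{C,x}` under any lift ("the centre of the place `𝒪_{C,x}` on `A`").
-/
import Mathlib

set_option autoImplicit false
set_option linter.style.haveILetI false

open AlgebraicGeometry CategoryTheory Limits

universe u

namespace Fermat.Agent.AV.Curv33.ExtCurve87

variable {S C A : Scheme.{u}} (sC : C ⟶ S) (sA : A ⟶ S)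

/-! ### Generalities -/

/-- The morphism `Spec K(C) ⟶ Spec 𝒪_{C,x}` (generisation). -/
noncomputable abbrev genToStalk (C : Scheme.{u}) [IrreducibleSpace C] (x : C) :
    Spec C.functionField ⟶ Spec (C.presheaf.stalk x) :=
  Spec.map (C.presheaf.stalkSpecializes ((genericPoint_spec C).specializes trivial))

theorem genToStalk_fromSpecStalk (C : Scheme.{u}) [IrreducibleSpace C] (x : C) :
    genToStalk C x ≫ C.fromSpecStalk x = C.fromSpecStalk (genericPoint C) :=
  Scheme.SpecMap_stalkSpecializes_fromSpecStalk _

theorem genToStalk_eq (C : Scheme.{u}) [IsIntegral C] (x : C) :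
    genToStalk C x =
      Spec.map (CommRingCat.ofHom (algebraMap (C.presheaf.stalk x) C.functionField)) := rfl

/-- The generic point morphism `Spec K(C) ⟶ C` is dominant. -/
instance isDominant_fromSpecStalk_genericPoint (C : Scheme.{u}) [IrreducibleSpace C] :
    IsDominant (C.fromSpecStalk (genericPoint C)) := by
  constructor
  have h : genericPoint C ∈ Set.range (C.fromSpecStalk (genericPoint C)) :=
    ⟨IsLocalRing.closedPoint _, Scheme.fromSpecStalk_closedPoint⟩
  have h2 : closure ({genericPoint C} : Set C) ⊆
      closure (Set.range (C.fromSpecStalk (genericPoint C))) :=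
    closure_mono (Set.singleton_subset_iff.mpr h)
  rw [(genericPoint_spec C).def] at h2
  exact fun x => h2 (Set.mem_univ x)

/-- A scheme separated over a separated scheme is separated. -/
theorem isSeparated_of_hom [S.IsSeparated] [IsSeparated sA] : A.IsSeparated := by
  constructor
  rw [← terminal.comp_from sA]
  infer_instance

/-- The function-field morphism of a partial map, through any point of the domain. -/
theorem fromFunctionField_eq_genToStalk_comp [IrreducibleSpace C] (f : C.PartialMap A) {x : C}
    (hx : x ∈ f.domain) :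
    f.fromFunctionField = genToStalk C x ≫ f.fromSpecStalkOfMem hx := by
  show f.domain.fromSpecStalkOfMem (genericPoint C) _ ≫ f.hom =
    genToStalk C x ≫ f.domain.fromSpecStalkOfMem x hx ≫ f.hom
  rw [← Category.assoc]
  congr 1
  rw [← cancel_mono f.domain.ι, Category.assoc, Scheme.Opens.fromSpecStalkOfMem_ι,
    Scheme.Opens.fromSpecStalkOfMem_ι, genToStalk_fromSpecStalk]

/-- A partial map whose domain is everything is a morphism. -/
noncomputable def homOfDomainEqTop (P : C.PartialMap A) (h : P.domain = ⊤) : C ⟶ A :=
  C.topIso.inv ≫ (C.isoOfEq h).inv ≫ P.hom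

theorem ι_homOfDomainEqTop (P : C.PartialMap A) (h : P.domain = ⊤) :
    P.domain.ι ≫ homOfDomainEqTop P h = P.hom := by
  have : P.domain.ι ≫ C.topIso.inv ≫ (C.isoOfEq h).inv = 𝟙 _ := by
    rw [← cancel_mono P.domain.ι]
    simp
  rw [homOfDomainEqTop, ← Category.assoc, ← Category.assoc, Category.assoc _ _ (C.isoOfEq h).inv,
    this, Category.id_comp]

theorem fromSpecStalk_homOfDomainEqTop (P : C.PartialMap A) (h : P.domain = ⊤) (x : C)
    (hx : x ∈ P.domain) :
    C.fromSpecStalk x ≫ homOfDomainEqTop P h = P.fromSpecStalkOfMem hx := by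
  rw [Scheme.PartialMap.fromSpecStalkOfMem, ← ι_homOfDomainEqTop P h, ← Category.assoc,
    Scheme.Opens.fromSpecStalkOfMem_ι]

/-! ### The valuative lift -/

/-- **Valuative lift.** If `𝒪_{C,x}` is a valuation ring and `sA` is universally closed, an
`S`-morphism `η : Spec K(C) ⟶ A` extends to `Spec 𝒪_{C,x}`. -/
theorem exists_lift_stalk [IsIntegral C] [UniversallyClosed sA]
    (η : Spec C.functionField ⟶ A) (hη : η ≫ sA = C.fromSpecStalk (genericPoint C) ≫ sC)
    (x : C) [hv : ValuationRing (C.presheaf.stalk x)] :
    ∃ l : Spec (C.presheaf.stalk x) ⟶ A,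
      l ≫ sA = C.fromSpecStalk x ≫ sC ∧ genToStalk C x ≫ l = η := by
  have hex : ValuativeCriterion.Existence sA := by
    have h : (ValuativeCriterion.Existence ⊓ @QuasiCompact) sA := by
      rw [← UniversallyClosed.eq_valuativeCriterion]
      infer_instance
    exact h.1
  have hsq : CommSq η
      (Spec.map (CommRingCat.ofHom (algebraMap (C.presheaf.stalk x) C.functionField)))
      sA (C.fromSpecStalk x ≫ sC) := ⟨by
    rw [hη, ← genToStalk_fromSpecStalk C x, Category.assoc, genToStalk_eq]
    rfl⟩
  let Sq : ValuativeCommSq sA :=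
    @ValuativeCommSq.mk A S sA (C.presheaf.stalk x) _ inferInstance hv C.functionField _ _
      inferInstance η (C.fromSpecStalk x ≫ sC) hsq
  obtain ⟨⟨l, h1, h2⟩⟩ := (hex Sq).exists_lift
  exact ⟨l, h2, h1⟩

/-- The valuative lift is unique (`sA` separated). -/
theorem lift_stalk_unique [IsIntegral C] [IsSeparated sA] (x : C)
    (l l' : Spec (C.presheaf.stalk x) ⟶ A) (h : l ≫ sA = l' ≫ sA)
    (hgen : genToStalk C x ≫ l = genToStalk C x ≫ l') : l = l' := by
  haveI : IsDominant (genToStalk C x) := by
    have : IsDominant (genToStalk C x ≫ C.fromSpecStalk x) := by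
      rw [genToStalk_fromSpecStalk]
      infer_instance
    -- `Spec 𝒪_{C,x}` is integral with generic point the image of `Spec K(C)`
    constructor
    have hinj : Function.Injective
        (algebraMap (C.presheaf.stalk x) C.functionField) :=
      IsFractionRing.injective _ _
    show DenseRange (PrimeSpectrum.comap (algebraMap (C.presheaf.stalk x) C.functionField))
    rw [PrimeSpectrum.denseRange_comap_iff_ker_le_nilRadical,
      (RingHom.injective_iff_ker_eq_bot _).mp hinj]
    exact bot_le
  exact ext_of_isDominant_of_isSeparated sA h (genToStalk C x) hgen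

/-! ### The domain of definition -/

section Domain

variable [IsIntegral C] [IsProper sA]

/-- A point whose local ring is a valuation ring lies in the domain of definition of the rational
map attached to `η`. -/
theorem mem_domain_ofFunctionField
    (η : Spec C.functionField ⟶ A) (hη : η ≫ sA = C.fromSpecStalk (genericPoint C) ≫ sC)
    (x : C) [ValuationRing (C.presheaf.stalk x)] :
    x ∈ (Scheme.RationalMap.ofFunctionField sC sA η hη).domain := by
  obtain ⟨l, hl, hlη⟩ := exists_lift_stalk sC sA η hη x
  rw [Scheme.RationalMap.mem_domain]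
  refine ⟨Scheme.PartialMap.ofFromSpecStalk sC sA l hl,
    Scheme.PartialMap.mem_domain_ofFromSpecStalk sC sA l hl, ?_⟩
  apply Scheme.RationalMap.eq_of_fromFunctionField_eq
  rw [Scheme.RationalMap.fromFunctionField_ofFunctionField,
    Scheme.RationalMap.fromFunctionField_toRationalMap,
    fromFunctionField_eq_genToStalk_comp _
      (Scheme.PartialMap.mem_domain_ofFromSpecStalk sC sA l hl),
    Scheme.PartialMap.fromSpecStalkOfMem_ofFromSpecStalk, hlη]

/-- **EXT.** If all local rings of the integral scheme `C` are valuation rings (e.g. `C` a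
Dedekind scheme: a normal curve), every `S`-morphism `Spec K(C) ⟶ A` to a proper `S`-scheme
extends to an `S`-morphism `C ⟶ A`. -/
theorem exists_extension [S.IsSeparated]
    (η : Spec C.functionField ⟶ A) (hη : η ≫ sA = C.fromSpecStalk (genericPoint C) ≫ sC)
    (hC : ∀ x : C, ValuationRing (C.presheaf.stalk x)) :
    ∃ φ : C ⟶ A, φ ≫ sA = sC ∧ C.fromSpecStalk (genericPoint C) ≫ φ = η := by
  haveI : A.IsSeparated := isSeparated_of_hom sA
  set g₀ := Scheme.PartialMap.ofFromSpecStalk sC sA η hη with hg₀
  set f := Scheme.RationalMap.ofFunctionField sC sA η hη with hf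
  have hfg : f = g₀.toRationalMap := rfl
  have hdom : f.toPartialMap.domain = ⊤ := by
    show f.domain = ⊤
    rw [eq_top_iff]
    intro x _
    haveI := hC x
    exact mem_domain_ofFunctionField sC sA η hη x
  refine ⟨homOfDomainEqTop f.toPartialMap hdom, ?_, ?_⟩
  · -- over `S`: test on the dense open `g₀.domain`
    have hle : g₀.domain ≤ f.toPartialMap.domain := g₀.le_domain_toRationalMap
    have h1 : (f.toPartialMap.restrict g₀.domain g₀.dense_domain hle).hom = g₀.hom :=
      g₀.toPartialMap_toRationalMap_restrict
    have h2 : g₀.domain.ι ≫ homOfDomainEqTop f.toPartialMap hdom = g₀.hom := by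
      rw [← h1, Scheme.PartialMap.restrict_hom, ← ι_homOfDomainEqTop f.toPartialMap hdom,
        ← Category.assoc, Scheme.homOfLE_ι]
    haveI : IsDominant g₀.domain.ι := Opens.isDominant_ι g₀.dense_domain
    refine ext_of_isDominant (ι := g₀.domain.ι) ?_
    rw [← Category.assoc, h2]
    exact Scheme.PartialMap.ofFromSpecStalk_comp sC sA η hη
  · have hgen : genericPoint C ∈ f.toPartialMap.domain := by rw [hdom]; trivial
    rw [fromSpecStalk_homOfDomainEqTop _ hdom _ hgen]
    have h3 : f.toPartialMap.fromFunctionField = η := by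
      rw [← Scheme.RationalMap.fromFunctionField_toRationalMap,
        Scheme.RationalMap.toRationalMap_toPartialMap,
        Scheme.RationalMap.fromFunctionField_ofFunctionField]
    exact h3

end Domain

/-- **Uniqueness of the extension.** -/
theorem extension_unique [IsIntegral C] [IsSeparated sA] (φ φ' : C ⟶ A)
    (h : φ ≫ sA = φ' ≫ sA)
    (hgen : C.fromSpecStalk (genericPoint C) ≫ φ = C.fromSpecStalk (genericPoint C) ≫ φ') :
    φ = φ' :=
  ext_of_isDominant_of_isSeparated sA h (C.fromSpecStalk (genericPoint C)) hgen

/-- **EXT from an open.** If all local rings of the integral scheme `C` are valuation rings, every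
`S`-morphism `g : W ⟶ A` from a nonempty open `W` of `C` to a proper `S`-scheme `A` extends
uniquely to an `S`-morphism `C ⟶ A`. -/
theorem exists_extension_of_open [IsIntegral C] [IsProper sA] [S.IsSeparated]
    (W : C.Opens) (hW : (W : Set C).Nonempty) (g : W.toScheme ⟶ A) (hg : g ≫ sA = W.ι ≫ sC)
    (hC : ∀ x : C, ValuationRing (C.presheaf.stalk x)) :
    ∃ φ : C ⟶ A, φ ≫ sA = sC ∧ W.ι ≫ φ = g := by
  have hgen : genericPoint C ∈ W :=
    ((genericPoint_spec C).mem_open_set_iff W.isOpen).mpr (by simpa using hW)
  obtain ⟨φ, h1, h2⟩ := exists_extension sC sA (W.fromSpecStalkOfMem _ hgen ≫ g)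
    (by rw [Category.assoc, hg, ← Category.assoc, Scheme.Opens.fromSpecStalkOfMem_ι]) hC
  refine ⟨φ, h1, ?_⟩
  haveI : IsIntegral W.toScheme :=
    haveI : Nonempty W.toScheme := hW.to_subtype
    isIntegral_of_isOpenImmersion W.ι
  haveI : IsDominant (W.fromSpecStalkOfMem (genericPoint C) hgen) := by
    have : IsDominant (W.fromSpecStalkOfMem (genericPoint C) hgen ≫ W.ι) := by
      rw [Scheme.Opens.fromSpecStalkOfMem_ι]
      infer_instance
    exact IsDominant.of_comp_of_isOpenImmersion _ W.ι
  refine ext_of_isDominant_of_isSeparated sA ?_ (W.fromSpecStalkOfMem (genericPoint C) hgen) ?_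
  · rw [Category.assoc, h1, hg]
  · rw [← Category.assoc, Scheme.Opens.fromSpecStalkOfMem_ι, h2]

/-! ### The centre of a place -/

/-- The restriction of an extension to `Spec 𝒪_{C,x}` is the valuative lift. -/
theorem fromSpecStalk_comp_eq_of_lift [IsIntegral C] [IsSeparated sA] (φ : C ⟶ A) (x : C)
    (l : Spec (C.presheaf.stalk x) ⟶ A) (hl : l ≫ sA = C.fromSpecStalk x ≫ φ ≫ sA)
    (hgen : genToStalk C x ≫ l = C.fromSpecStalk (genericPoint C) ≫ φ) :
    C.fromSpecStalk x ≫ φ = l := by
  refine lift_stalk_unique sA x _ _ ?_ ?_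
  · rw [Category.assoc, hl]
  · rw [hgen, ← Category.assoc, genToStalk_fromSpecStalk]

/-- **Centre of a place.** The value of an extension `φ` at `x` is the image of the closed point
under any lift `Spec 𝒪_{C,x} ⟶ A` of the generic morphism. -/
theorem apply_eq_of_lift [IsIntegral C] [IsSeparated sA] (φ : C ⟶ A) (x : C)
    (l : Spec (C.presheaf.stalk x) ⟶ A) (hl : l ≫ sA = C.fromSpecStalk x ≫ φ ≫ sA)
    (hgen : genToStalk C x ≫ l = C.fromSpecStalk (genericPoint C) ≫ φ) :
    φ x = l (show ↥(Spec (C.presheaf.stalk x)) from
      IsLocalRing.closedPoint (C.presheaf.stalk x)) := by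
  have h := fromSpecStalk_comp_eq_of_lift sA φ x l hl hgen
  subst h
  exact (congrArg φ (Scheme.fromSpecStalk_closedPoint (X := C) (x := x))).symm

/-! ### Dedekind schemes -/

/-- A localisation of a Dedekind domain at a prime is a valuation ring. -/
theorem valuationRing_of_isLocalization_atPrime {R : Type*} [CommRing R] [IsDedekindDomain R]
    (P : Ideal R) [P.IsPrime] (Rₚ : Type*) [CommRing Rₚ] [IsDomain Rₚ] [Algebra R Rₚ]
    [IsLocalization.AtPrime Rₚ P] : ValuationRing Rₚ := by
  by_cases hP : P = ⊥
  · subst hP
    haveI : IsFractionRing R Rₚ := by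
      have h : (⊥ : Ideal R).primeCompl = nonZeroDivisors R := by
        ext a
        simp [Ideal.primeCompl, mem_nonZeroDivisors_iff_ne_zero]
      show IsLocalization (nonZeroDivisors R) Rₚ
      rw [← h]
      infer_instance
    letI : Field Rₚ := IsFractionRing.toField R
    exact ValuationRing.of_field Rₚ
  · haveI := IsLocalization.AtPrime.isDiscreteValuationRing_of_dedekind_domain R hP Rₚ
    infer_instance

/-- All local rings of an integral scheme covered by spectra of Dedekind domains are valuation
rings (the hypothesis `hC` of `exists_extension`). -/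
theorem valuationRing_stalk_of_dedekind (C : Scheme.{u}) [IsIntegral C]
    (h : ∀ x : C, ∃ U : C.Opens, IsAffineOpen U ∧ x ∈ U ∧ IsDedekindDomain Γ(C, U)) (x : C) :
    ValuationRing (C.presheaf.stalk x) := by
  obtain ⟨U, hU, hx, hD⟩ := h x
  haveI := hD
  let x' : U := ⟨x, hx⟩
  letI := TopCat.Presheaf.algebra_section_stalk C.presheaf x'
  haveI := hU.isLocalization_stalk x'
  exact valuationRing_of_isLocalization_atPrime (hU.primeIdealOf x').asIdeal
    (C.presheaf.stalk x)

end Fermat.Agent.AV.Curv33.ExtCurve87
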