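/-
Fermat/Agent/AV/Curv33/GermScheme33.lean (helper33) -- programme AV (S26), brick CURV:
the SCHEME SIDE of the curve germs.

* `exists_chart`           : around every point of a smooth `K`-scheme of relative dimension `g`
                             there is an affine open whose coordinate ring is standard smooth of
                             relative dimension `g` (input of `GermAlgStatement`);
* `exists_generic_iso`, `exists_alpha` : two integral `K`-schemes with nonempty affine opens whose
                             coordinate rings have a common fraction field are birational over `K`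
                             (the `α` of `Ext.exists_factor_through_model`);
* `germPtd`                : the pointed smooth `K`-scheme `Spec R ⟶ A` of an algebraic curve germ;
* `F1Input`                : F1 (model curve of a separable function field) as consumed here;
* `exists_curveTo_of_germ` : MODEL GLUE: the complete model `C` of `Frac R`, the extension
                             `φ : C ⟶ A` of the germ (EXT) and `ι : Spec R ⟶ C` with `ι ≫ φ = j`.
-/
import Fermat.Agent.AV.Curv33.IfaceGen
import Fermat.Agent.AV.Curv33.GermIface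
import Fermat.Agent.AV.Curv33.Ext
import Fermat.Agent.AV.Curv33.ExtCurve87
import Fermat.Agent.AV.Basics88.EtaleScheme
import Fermat.Agent.AV.F1Model15.Interface

set_option autoImplicit false

open CategoryTheory CategoryTheory.Limits AlgebraicGeometry NeronModelInfra GoodReductionJacobian
open Fermat.Agent.AV.Basics88.EtaleScheme Fermat.Agent.AV.Basics88.DualPoints
open IntermediateField

universe u

noncomputable section

namespace Fermat.Agent.AV.Curv33.GermScheme

open Fermat.Agent.AV.Curv33.Ext Fermat.Agent.AV.F1Model15 Fermat.Agent.Jac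

section Chart

variable {K : Type u} [Field K] {A : Scheme.{u}} (f : A ⟶ Spec (CommRingCat.of K))

/-- A nonempty open of `Spec K` is everything. -/
theorem opens_eq_top_of_mem {U : (Spec (CommRingCat.of K)).Opens} {p : Spec (CommRingCat.of K)}
    (hp : p ∈ U) : U = ⊤ := by
  ext q
  have : q = p := Subsingleton.elim (α := PrimeSpectrum K) q p
  simp [this, hp]

/-- Around every point of a smooth `K`-scheme of relative dimension `g` there is an affine open
chart whose coordinate ring is standard smooth of relative dimension `g` over `K`. -/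
theorem exists_chart (g : ℕ) [SmoothOfRelativeDimension g f] (x : A) :
    ∃ V : A.Opens, IsAffineOpen V ∧ x ∈ V ∧
      (chartHom f V).IsStandardSmoothOfRelativeDimension g := by
  obtain ⟨U, hU, V, hV, hxV, e, hf⟩ :=
    SmoothOfRelativeDimension.exists_isStandardSmoothOfRelativeDimension (n := g) (f := f) x
  have hU' : U = ⊤ := opens_eq_top_of_mem (p := f x) (e hxV)
  subst hU'
  refine ⟨V, hV, hxV, ?_⟩
  have : (chartHom f V) =
      ((Scheme.ΓSpecIso (CommRingCat.of K)).inv ≫ f.appLE ⊤ V e).hom := rfl
  rw [this, CommRingCat.hom_comp,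
    (RingHom.isStandardSmoothOfRelativeDimension_respectsIso (n := g)).cancel_left_isIso]
  exact hf

end Chart

variable {K : Type u} [Field K]

/-- The generic point of an integral scheme, presented through a fraction field of the coordinate
ring of a nonempty affine open. -/
theorem exists_generic_iso (X : Scheme.{u}) [IsIntegral X] {U : X.Opens} (hU : IsAffineOpen U)
    [Nonempty U] {R' F : Type u} [CommRing R'] [Field F] [Algebra R' F] [IsFractionRing R' F]
    (r : R' ≃+* Γ(X, U)) :
    ∃ ι : Spec (CommRingCat.of F) ≅ Spec X.functionField,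
      Spec.map (CommRingCat.ofHom (algebraMap R' F)) ≫
        Spec.map (CommRingCat.ofHom r.symm.toRingHom) ≫ hU.fromSpec = ι.hom ≫ genericHom X := by
  have := functionField_isFractionRing_of_isAffineOpen X U hU
  let E : X.functionField ≃+* F := IsFractionRing.ringEquivOfRingEquiv r.symm
  have hE : ∀ a : Γ(X, U), E (algebraMap Γ(X, U) X.functionField a) = algebraMap R' F (r.symm a) :=
    fun a => IsFractionRing.ringEquivOfRingEquiv_algebraMap r.symm a
  have hx : genericPoint X ∈ U :=
    ((genericPoint_spec X).mem_open_set_iff U.isOpen).mpr (by simpa using ‹Nonempty U›)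
  let Ehom : X.functionField ⟶ CommRingCat.of F := CommRingCat.ofHom E.toRingHom
  have : IsIso Ehom := by
    refine ⟨CommRingCat.ofHom E.symm.toRingHom, ?_, ?_⟩
    · ext a; exact E.symm_apply_apply a
    · ext a; exact E.apply_symm_apply a
  refine ⟨asIso (Spec.map Ehom), ?_⟩
  rw [asIso_hom, genericHom, ← hU.fromSpecStalk_eq_fromSpecStalk hx, IsAffineOpen.fromSpecStalk,
    ← Category.assoc, ← Category.assoc, ← Spec.map_comp, ← Spec.map_comp]
  congr 2
  ext a
  exact (hE a).symm

/-- Two integral `K`-schemes with nonempty affine opens whose coordinate rings have a common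
fraction field (compatibly with `K`) are birational over `K`. -/
theorem exists_alpha {W C : Scheme.{u}} [IsIntegral W] [IsIntegral C]
    (w : W ⟶ Spec (CommRingCat.of K)) (c : C ⟶ Spec (CommRingCat.of K))
    {UW : W.Opens} (hUW : IsAffineOpen UW) [Nonempty UW]
    {UC : C.Opens} (hUC : IsAffineOpen UC) [Nonempty UC]
    {RW RC F : Type u} [CommRing RW] [CommRing RC] [Field F]
    [Algebra RW F] [IsFractionRing RW F] [Algebra RC F] [IsFractionRing RC F]
    (rW : RW ≃+* Γ(W, UW)) (rC : RC ≃+* Γ(C, UC))
    (hK : (algebraMap RW F).comp (rW.symm.toRingHom.comp (chartHom w UW)) =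
      (algebraMap RC F).comp (rC.symm.toRingHom.comp (chartHom c UC))) :
    ∃ α : Spec W.functionField ≅ Spec C.functionField,
      α.hom ≫ genericHom C ≫ c = genericHom W ≫ w := by
  obtain ⟨ιW, hιW⟩ := exists_generic_iso W hUW (F := F) rW
  obtain ⟨ιC, hιC⟩ := exists_generic_iso C hUC (F := F) rC
  refine ⟨ιW.symm ≪≫ ιC, ?_⟩
  have h1 : ιC.hom ≫ genericHom C ≫ c = Spec.map (CommRingCat.ofHom
      ((algebraMap RC F).comp (rC.symm.toRingHom.comp (chartHom c UC)))) := by
    rw [← Category.assoc, ← hιC, Category.assoc, Category.assoc, fromSpec_comp c hUC,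
      ← Spec.map_comp, ← Spec.map_comp]
    rfl
  have h2 : ιW.hom ≫ genericHom W ≫ w = Spec.map (CommRingCat.ofHom
      ((algebraMap RW F).comp (rW.symm.toRingHom.comp (chartHom w UW)))) := by
    rw [← Category.assoc, ← hιW, Category.assoc, Category.assoc, fromSpec_comp w hUW,
      ← Spec.map_comp, ← Spec.map_comp]
    rfl
  rw [Iso.trans_hom, Iso.symm_hom, Category.assoc, h1, ← hK, ← h2, Iso.inv_hom_id_assoc]

/-- Dedekind domains are stable under ring isomorphisms. -/
theorem isDedekindDomain_of_equiv {R S : Type*} [CommRing R] [CommRing S] (e : R ≃+* S)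
    [IsDedekindDomain R] : IsDedekindDomain S := by
  have : IsDomain S := e.symm.toMulEquiv.isDomain R
  have : IsNoetherianRing S := isNoetherianRing_of_ringEquiv R e
  have : Ring.DimensionLEOne S := Ring.DimensionLEOne.of_ringEquiv e.symm
  have : IsIntegrallyClosed S := IsIntegrallyClosed.of_equiv e
  exact { }

/-- All local rings of the spectrum of a Dedekind domain are valuation rings. -/
theorem valuationRing_stalk_Spec (R : Type u) [CommRing R] [IsDomain R] (hR : IsDedekindDomain R)
    (x : Spec (CommRingCat.of R)) :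
    ValuationRing ((Spec (CommRingCat.of R)).presheaf.stalk x) := by
  refine ExtCurve87.valuationRing_stalk_of_dedekind (Spec (CommRingCat.of R)) (fun y => ?_) x
  refine ⟨⊤, isAffineOpen_top _, trivial, ?_⟩
  exact isDedekindDomain_of_equiv
    (Scheme.ΓSpecIso (CommRingCat.of R)).symm.commRingCatIsoToRingEquiv

/-- The structure map of the first chart of the model is the chart homomorphism. -/
theorem algebraMap_B0 {C : Scheme.{u}} {c : C ⟶ Spec (CommRingCat.of K)}
    {ε : SchemeHomOver (𝟙 (Spec (CommRingCat.of K))) c} (cc : CurveCharts c ε) :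
    (algebraMap K cc.B0 : K →+* Γ(C, cc.U0)) = chartHom c cc.U0 := by
  have h : (Scheme.ΓSpecIso (CommRingCat.of K)).inv ≫ c.appTop ≫
      C.presheaf.map (homOfLE (le_top : (⊤ : C.Opens) ≤ ⊤)).op ≫
        C.presheaf.map (homOfLE (le_top : cc.U0 ≤ ⊤)).op =
      (Scheme.ΓSpecIso (CommRingCat.of K)).inv ≫ c.appLE ⊤ cc.U0 le_top := by
    unfold Scheme.Hom.appLE
    rw [← Functor.map_comp]
    rfl
  ext a
  exact congrArg (fun φ => φ.hom a) h

/-- The structure morphism of `K` over itself is the identity. -/
theorem str_self : str K K = 𝟙 (Spec (CommRingCat.of K)) :=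
  Spec.map_id _

variable {A : Scheme.{u}} (f : A ⟶ Spec (CommRingCat.of K))

/-- Smoothness of the spectrum of a smooth algebra. -/
theorem smooth_str {R : Type u} [CommRing R] [Algebra K R] (h : Algebra.Smooth K R) :
    Smooth (str K R) := by
  rw [str, HasRingHomProperty.Spec_iff (P := @Smooth)]
  exact RingHom.smooth_algebraMap.mpr h

/-- The chart homomorphism of `Spec R` on the whole space. -/
theorem chartHom_Spec_top {R : Type u} [CommRing R] [Algebra K R] :
    ((Scheme.ΓSpecIso (CommRingCat.of R)).hom.hom).comp (chartHom (str K R) ⊤) =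
      algebraMap K R := by
  have h := fromSpec_comp (str K R) (isAffineOpen_top (Spec (CommRingCat.of R)))
  rw [IsAffineOpen.fromSpec_top, Scheme.isoSpec_Spec_inv, str, ← Spec.map_comp] at h
  have h2 := Spec.map_injective h
  ext a
  have h3 := congrArg (fun φ => φ.hom a) h2
  have h4 : chartHom (str K R) ⊤ a =
      (Scheme.ΓSpecIso (CommRingCat.of R)).inv.hom (algebraMap K R a) := h3.symm
  show (Scheme.ΓSpecIso (CommRingCat.of R)).hom.hom (chartHom (str K R) ⊤ a) = _
  rw [h4]
  exact congrArg (fun φ => φ.hom (algebraMap K R a))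
    (Scheme.ΓSpecIso (CommRingCat.of R)).inv_hom_id

/-- **F1 in the form consumed by CURV.** -/
def F1Input (K : Type u) [Field K] : Prop :=
  ∀ (F : Type u) [Field F] [Algebra K F] (t : F), Transcendental K t →
    FiniteDimensional K⟮t⟯ F → Algebra.IsSeparable K⟮t⟯ F → Nonempty (Model K F)

section Abstract

variable {f}
variable {B : Type u} [CommRing B] [Algebra K B] (j : Spec (CommRingCat.of B) ⟶ A)
  (hj : j ≫ f = str K B) (e : SchemeHomOver (𝟙 (Spec (CommRingCat.of K))) f)
  {χ : B →ₐ[K] K} (hχ : specOf χ ≫ j = e.1)

/-- The pointed smooth scheme over `A` attached to an algebraic curve germ. -/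
def germPtd (w : CurveGermAlg K B χ) : Gen.PtdTo f e where
  X := Spec (CommRingCat.of w.R)
  s := str K w.R
  smooth := smooth_str w.smooth
  pt := ⟨specOf w.pt, by rw [specOf_str, str_self]⟩
  φ := ⟨specOf w.π ≫ j, by rw [Category.assoc, hj, specOf_str]⟩
  φ_pt := by
    show specOf w.pt ≫ specOf w.π ≫ j = e.1
    rw [← Category.assoc, ← specOf_comp, w.pt_π, hχ]

/-- **Model glue**: the complete smooth model of the function field of a curve germ, with the
extension of the germ's morphism to `A`. -/
theorem exists_curveTo_of_germ [IsProper f] (hF1 : F1Input K) (w : CurveGermAlg K B χ) :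
    ∃ X : CurveTo f e, Nonempty (Gen.Hom (germPtd j hj e hχ w) X.toPtdTo) := by
  obtain ⟨M⟩ := hF1 (FractionRing w.R) (algebraMap w.R (FractionRing w.R) w.x) w.x_transc
    w.finite w.separable
  have := M.isProper
  have := M.isIntegral
  -- the germ
  have hW : ∀ x : Spec (CommRingCat.of w.R),
      ValuationRing ((Spec (CommRingCat.of w.R)).presheaf.stalk x) :=
    valuationRing_stalk_Spec w.R w.dedekind
  -- the model
  have hC : ∀ x : M.C, ValuationRing (M.C.presheaf.stalk x) := by
    refine ExtCurve87.valuationRing_stalk_of_dedekind M.C (fun y => ?_)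
    have hy : y ∈ M.cc.U0 ⊔ M.cc.U1 := by rw [M.cc.cover]; trivial
    rcases hy with hy | hy
    · exact ⟨M.cc.U0, M.cc.affine0, hy, M.cc.dedekind0⟩
    · exact ⟨M.cc.U1, M.cc.affine1, hy, M.cc.dedekind1⟩
  -- birational identification
  let rW : w.R ≃+* Γ(Spec (CommRingCat.of w.R), ⊤) :=
    (Scheme.ΓSpecIso (CommRingCat.of w.R)).symm.commRingCatIsoToRingEquiv
  let rC : M.alg.B0 ≃+* Γ(M.C, M.cc.U0) := M.e0.toRingEquiv
  have : IsFractionRing M.alg.B0 (FractionRing w.R) := M.alg.frac0
  have : Nonempty M.cc.U0 := by
    by_contra hne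
    rw [not_nonempty_iff] at hne
    have hbot : M.cc.U0 = ⊥ := by
      ext y
      simp only [TopologicalSpace.Opens.coe_bot, Set.mem_empty_iff_false, iff_false]
      exact fun hy => hne.false ⟨y, hy⟩
    have h1 : Subsingleton Γ(M.C, M.cc.U0) := by rw [hbot]; infer_instance
    have h2 : IsDedekindDomain Γ(M.C, M.cc.U0) := M.cc.dedekind0
    exact not_subsingleton Γ(M.C, M.cc.U0) h1
  have : Nonempty (⊤ : (Spec (CommRingCat.of w.R)).Opens) := by
    obtain ⟨y⟩ : Nonempty (Spec (CommRingCat.of w.R)) := inferInstance
    exact ⟨⟨y, trivial⟩⟩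
  have hK : (algebraMap w.R (FractionRing w.R)).comp
      (rW.symm.toRingHom.comp (chartHom (str K w.R) ⊤)) =
      (algebraMap M.alg.B0 (FractionRing w.R)).comp
        (rC.symm.toRingHom.comp (chartHom M.c M.cc.U0)) := by
    have hl : rW.symm.toRingHom.comp (chartHom (str K w.R) ⊤) = algebraMap K w.R :=
      chartHom_Spec_top
    have hr : rC.symm.toRingHom.comp (chartHom M.c M.cc.U0) = algebraMap K M.alg.B0 := by
      rw [← algebraMap_B0 M.cc]
      exact RingHom.ext fun a => M.e0.symm.commutes a
    rw [hl, hr]
    ext a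
    show algebraMap w.R (FractionRing w.R) (algebraMap K w.R a) = _
    rw [← IsScalarTower.algebraMap_apply]
    rfl
  obtain ⟨α, hα⟩ := exists_alpha (str K w.R) M.c (isAffineOpen_top _) M.cc.affine0 rW rC hK
  obtain ⟨ι, φ, h1, h2, h3, -⟩ := exists_factor_through_model M.c f (str K w.R) hW hC α hα
    (specOf w.π ≫ j) (by rw [Category.assoc, hj, specOf_str])
  refine ⟨{ C := M.C, c := M.c, isProper := M.isProper, smooth := M.smooth,
            isIntegral := M.isIntegral,
            ε := ⟨specOf w.pt ≫ ι, by rw [Category.assoc, h1, specOf_str, str_self]⟩,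
            φ := ⟨φ, h2⟩,
            φ_ε := ?_ }, ⟨{ ι := ι, ι_s := h1, ι_φ := h3 }⟩⟩
  show (specOf w.pt ≫ ι) ≫ φ = e.1
  rw [Category.assoc, h3, ← Category.assoc, ← specOf_comp, w.pt_π, hχ]

end Abstract

end Fermat.Agent.AV.Curv33.GermScheme
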