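/-
Fermat/Agent/AV/Curv33/ListFn33.lean (helper33) -- programme AV (S26), brick CURV: bookkeeping.

* `listOfFn a`   : the list `[a 0, …, a (n-1)]` of a function on `Fin n`, by structural recursion
                   (so that `listOfFn a = a 0 :: listOfFn (a ∘ succ)` holds by `rfl`);
* `LTuple T l`   : dependent tuples `T x₁ × (T x₂ × (… × PUnit))` indexed by a list;
* `LTuple.ofFn`, `LTuple.toFn` : tuples indexed by `listOfFn a` are functions `∀ i, T (a i)`.
-/
import Mathlib

set_option autoImplicit false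

universe u v w

namespace Fermat.Agent.AV.Curv33

variable {α : Type u}

/-- The list of values of a function on `Fin n`. -/
def listOfFn : ∀ {n : ℕ}, (Fin n → α) → List α
  | 0, _ => []
  | _ + 1, a => a 0 :: listOfFn fun i => a i.succ

@[simp] theorem listOfFn_zero (a : Fin 0 → α) : listOfFn a = [] := rfl

theorem listOfFn_succ {n : ℕ} (a : Fin (n + 1) → α) :
    listOfFn a = a 0 :: listOfFn fun i => a i.succ := rfl

@[simp] theorem length_listOfFn : ∀ {n : ℕ} (a : Fin n → α), (listOfFn a).length = n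
  | 0, _ => rfl
  | n + 1, a => by rw [listOfFn_succ, List.length_cons, length_listOfFn]

theorem map_listOfFn {β : Type v} (g : α → β) :
    ∀ {n : ℕ} (a : Fin n → α), (listOfFn a).map g = listOfFn fun i => g (a i)
  | 0, _ => rfl
  | n + 1, a => by
    rw [listOfFn_succ, List.map_cons, map_listOfFn g]
    rfl

theorem forall₂_listOfFn {β : Type v} (R : α → β → Prop) :
    ∀ {n : ℕ} (a : Fin n → α) (b : Fin n → β), (∀ i, R (a i) (b i)) →
      List.Forall₂ R (listOfFn a) (listOfFn b)
  | 0, _, _, _ => List.Forall₂.nil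
  | n + 1, a, b, h =>
    List.Forall₂.cons (h 0) (forall₂_listOfFn R _ _ fun i => h i.succ)

/-- Dependent tuples indexed by a list. -/
def LTuple (T : α → Type v) : List α → Type v
  | [] => PUnit
  | x :: l => T x × LTuple T l

namespace LTuple

variable {T : α → Type v} {T' : α → Type w}

/-- Componentwise map. -/
def map (g : ∀ x, T x → T' x) : ∀ l : List α, LTuple T l → LTuple T' l
  | [], _ => PUnit.unit
  | x :: l, t => (g x t.1, map g l t.2)

/-- The constant tuple. -/
def mk (g : ∀ x, T x) : ∀ l : List α, LTuple T l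
  | [] => PUnit.unit
  | x :: l => (g x, mk g l)

theorem map_mk (g : ∀ x, T x → T' x) (c : ∀ x, T x) :
    ∀ l : List α, map g l (mk c l) = mk (fun x => g x (c x)) l
  | [] => rfl
  | x :: l => by
    show (g x (c x), map g l (mk c l)) = (g x (c x), mk _ l)
    rw [map_mk g c l]

/-- The tuple of a function on `Fin n`. -/
def ofFn : ∀ {n : ℕ} (a : Fin n → α), (∀ i, T (a i)) → LTuple T (listOfFn a)
  | 0, _, _ => PUnit.unit
  | _ + 1, a, t => (t 0, ofFn (fun i => a i.succ) fun i => t i.succ)

/-- The function on `Fin n` of a tuple. -/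
def toFn : ∀ {n : ℕ} (a : Fin n → α), LTuple T (listOfFn a) → ∀ i, T (a i)
  | 0, _, _ => fun i => i.elim0
  | _ + 1, a, t => Fin.cases t.1 (toFn (fun i => a i.succ) t.2)

theorem toFn_ofFn : ∀ {n : ℕ} (a : Fin n → α) (t : ∀ i, T (a i)), toFn a (ofFn a t) = t
  | 0, _, _ => funext fun i => i.elim0
  | n + 1, a, t => by
    funext i
    refine Fin.cases ?_ (fun i => ?_) i
    · rfl
    · show toFn (fun i => a i.succ) (ofFn (fun i => a i.succ) fun i => t i.succ) i = t i.succ
      rw [toFn_ofFn]

theorem ofFn_toFn : ∀ {n : ℕ} (a : Fin n → α) (t : LTuple T (listOfFn a)), ofFn a (toFn a t) = t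
  | 0, _, PUnit.unit => rfl
  | n + 1, a, t => by
    show (t.1, ofFn (fun i => a i.succ) fun i => toFn (fun i => a i.succ) t.2 i) = t
    rw [ofFn_toFn (fun i => a i.succ) t.2]
    rfl

theorem map_ofFn (g : ∀ x, T x → T' x) :
    ∀ {n : ℕ} (a : Fin n → α) (t : ∀ i, T (a i)),
      map g (listOfFn a) (ofFn a t) = ofFn a fun i => g (a i) (t i)
  | 0, _, _ => rfl
  | n + 1, a, t => by
    show (g (a 0) (t 0), map g _ (ofFn (fun i => a i.succ) fun i => t i.succ)) = (_, _)
    rw [map_ofFn g]

theorem mk_listOfFn (c : ∀ x, T x) :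
    ∀ {n : ℕ} (a : Fin n → α), mk c (listOfFn a) = ofFn a fun i => c (a i)
  | 0, _ => rfl
  | n + 1, a => by
    show (c (a 0), mk c (listOfFn fun i => a i.succ)) = (_, _)
    rw [mk_listOfFn c]

end LTuple

end Fermat.Agent.AV.Curv33
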