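/-
Fermat/Agent/AV/Curv33/ProdPts33.lean (helper33) -- programme AV (S26), brick CURV: bookkeeping.

`R`-valued points of the product `Gen.prodObj l` of a list of pointed `K`-schemes are tuples of
`R`-valued points of the members (`Gen.split`, `Gen.join`), and the sum map acts on them as the
iterated group law (`Gen.push_sumMap`).
-/
import Fermat.Agent.AV.Curv33.IfaceGen
import Fermat.Agent.AV.Curv33.ListFn33
import Fermat.Agent.AV.Basics88.DualPoints

set_option autoImplicit false

open CategoryTheory CategoryTheory.Limits AlgebraicGeometry NeronModelInfra GoodReductionJacobian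
open Fermat.Agent.AV.Basics88.DualPoints

universe u

noncomputable section

namespace Fermat.Agent.AV.Curv33.Gen

variable {K : Type u} [Field K] {A : Scheme.{u}} {f : A ⟶ Spec (CommRingCat.of K)}
  {e : SchemeHomOver (𝟙 (Spec (CommRingCat.of K))) f}

/-- The structure morphism of `K` over itself is the identity. -/
theorem str_self' : str K K = 𝟙 (Spec (CommRingCat.of K)) :=
  Spec.map_id _

/-- A `K`-point in the format of `DualPoints`. -/
def toPt {X : Scheme.{u}} {s : X ⟶ Spec (CommRingCat.of K)}
    (x : SchemeHomOver (𝟙 (Spec (CommRingCat.of K))) s) : Pt s K :=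
  ⟨x.1, by rw [x.2, str_self']⟩

@[simp] theorem toPt_coe {X : Scheme.{u}} {s : X ⟶ Spec (CommRingCat.of K)}
    (x : SchemeHomOver (𝟙 (Spec (CommRingCat.of K))) s) : (toPt x).1 = x.1 :=
  Subtype.coe_mk _ _

section

variable (R : Type u) [CommRing R] [Algebra K R]

/-- The `R`-valued points of a member of the list. -/
abbrev PtT (X : PtdTo f e) : Type u := Pt X.s R

/-- The components of an `R`-valued point of the product. -/
def split : ∀ l : List (PtdTo f e), Pt (prodHom l) R → LTuple (PtT R) l
  | [], _ => PUnit.unit
  | X :: l, t => (Pt.push (prodFst X l) (prodFst_s X l) t,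
      split l (Pt.push (prodSnd X l) (prodSnd_hom X l) t))

/-- The `R`-valued point of the product with given components. -/
def join : ∀ l : List (PtdTo f e), LTuple (PtT R) l → Pt (prodHom l) R
  | [], _ => ⟨str K R, Category.comp_id _⟩
  | X :: l, T => ⟨pullback.lift T.1.1 (join l T.2).1 (by rw [T.1.2, (join l T.2).2]), by
      show pullback.lift _ _ _ ≫ (pullback.fst X.s (prodHom l) ≫ X.s) = _
      rw [pullback.lift_fst_assoc, T.1.2]⟩

theorem split_join : ∀ (l : List (PtdTo f e)) (T : LTuple (PtT R) l), split R l (join R l T) = T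
  | [], PUnit.unit => rfl
  | X :: l, T => by
    have h1 : Pt.push (prodFst X l) (prodFst_s X l) (join R (X :: l) T) = T.1 := by
      apply Subtype.ext
      exact pullback.lift_fst _ _ _
    have h2 : Pt.push (prodSnd X l) (prodSnd_hom X l) (join R (X :: l) T) = join R l T.2 := by
      apply Subtype.ext
      exact pullback.lift_snd _ _ _
    show (Pt.push (prodFst X l) (prodFst_s X l) (join R (X :: l) T),
      split R l (Pt.push (prodSnd X l) (prodSnd_hom X l) (join R (X :: l) T))) = T
    rw [h1, h2, split_join l T.2]
    rfl

theorem join_split : ∀ (l : List (PtdTo f e)) (t : Pt (prodHom l) R), join R l (split R l t) = t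
  | [], t => by
    apply Subtype.ext
    exact ((Category.comp_id t.1).symm.trans t.2).symm
  | X :: l, t => by
    apply Subtype.ext
    show pullback.lift _ (join R l (split R l (Pt.push (prodSnd X l) (prodSnd_hom X l) t))).1 _ = t.1
    apply pullback.hom_ext
    · refine (pullback.lift_fst _ _ _).trans ?_
      rfl
    · refine (pullback.lift_snd _ _ _).trans ?_
      rw [join_split l]
      rfl

theorem split_injective (l : List (PtdTo f e)) : Function.Injective (split R l) := by
  intro t t' h
  rw [← join_split R l t, ← join_split R l t', h]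

variable {R}

theorem split_map {R' : Type u} [CommRing R'] [Algebra K R'] (θ : R →ₐ[K] R') :
    ∀ (l : List (PtdTo f e)) (t : Pt (prodHom l) R),
      split R' l (Pt.map θ t) = LTuple.map (fun _ => Pt.map θ) l (split R l t)
  | [], _ => rfl
  | X :: l, t => by
    show (Pt.push (prodFst X l) (prodFst_s X l) (Pt.map θ t),
      split R' l (Pt.push (prodSnd X l) (prodSnd_hom X l) (Pt.map θ t))) = (_, _)
    rw [← Pt.map_push, ← Pt.map_push, split_map θ l]
    rfl

end

/-- The components of the base point. -/
theorem split_prodBase : ∀ l : List (PtdTo f e),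
    split K l (toPt (prodBase l)) = LTuple.mk (fun X => toPt X.pt) l
  | [] => rfl
  | X :: l => by
    have h1 : Pt.push (prodFst X l) (prodFst_s X l) (toPt (prodBase (X :: l))) = toPt X.pt := by
      apply Subtype.ext
      rw [Pt.push_coe, toPt_coe, toPt_coe]
      exact prodBase_cons_fst X l
    have h2 : Pt.push (prodSnd X l) (prodSnd_hom X l) (toPt (prodBase (X :: l))) =
        toPt (prodBase l) := by
      apply Subtype.ext
      rw [Pt.push_coe, toPt_coe, toPt_coe]
      exact prodBase_cons_snd X l
    show (Pt.push (prodFst X l) (prodFst_s X l) (toPt (prodBase (X :: l))),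
      split K l (Pt.push (prodSnd X l) (prodSnd_hom X l) (toPt (prodBase (X :: l))))) = (_, _)
    rw [h1, h2, split_prodBase l]

variable (G : RelativeGroupLaw K f) (R : Type u) [CommRing R] [Algebra K R]

/-- The iterated group law on a tuple of points. -/
def gsum : ∀ l : List (PtdTo f e), LTuple (PtT R) l → Pt f R
  | [], _ => G.one (str K R)
  | X :: l, T => G.mul (str K R) (Pt.push X.φ.1 X.φ.2 T.1) (gsum l T.2)

/-- The sum map on `R`-valued points is the iterated group law on the components. -/
theorem push_sumMap : ∀ (l : List (PtdTo f e)) (t : Pt (prodHom l) R),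
    Pt.push (sumMap G l) (sumMap_f G l) t = gsum G R l (split R l t)
  | [], t => by
    have h := G.one_natural (𝟙 (Spec (CommRingCat.of K))) (str K R) t.1 t.2
    exact h
  | X :: l, t => by
    have h := G.mul_natural (prodHom (X :: l)) (str K R) t.1 t.2
      (schemeHomOverComp (prodFst X l) (prodFst_s X l) X.φ)
      (schemeHomOverComp (prodSnd X l) (prodSnd_hom X l) (sumPt G l))
    have h2 := push_sumMap l (Pt.push (prodSnd X l) (prodSnd_hom X l) t)
    show _ = G.mul (str K R) (Pt.push X.φ.1 X.φ.2 (Pt.push (prodFst X l) (prodFst_s X l) t))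
      (gsum G R l (split R l (Pt.push (prodSnd X l) (prodSnd_hom X l) t)))
    rw [← h2]
    refine Eq.trans ?_ (Eq.trans h ?_)
    · rfl
    · congr 1

end Fermat.Agent.AV.Curv33.Gen
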