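/-
Fermat/Agent/AV/Curv33/Assembly33.lean (helper33) -- programme AV (S26), brick CURV: FINAL ASSEMBLY.

`curvStatement_of_sum` : for `f : A ⟶ Spec K` proper, smooth of relative dimension `g`, `A`
irreducible, `K` algebraically closed, `G` a group law on `f`: `CurvStatement G g`, i.e. there are
`g` pointed smooth proper curves through the origin whose sum map `∏ C_i ⟶ A` is dominant —
GIVEN the tangent step `SumInput` (the sum map of the affine curve germs is dominant; brick SUM of
helper88 + translation of `GermsSpan`).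

Ingredients (all landed): `GermScheme.exists_chart` (affine chart around the origin),
`GermAlg87.germAlg : GermAlgStatement` (algebraic curve germs, helper87 + helper42),
`F1Model15.model_of_separable` (model curves, helper15 et al.), `GermScheme.exists_curveTo_of_germ`
(model glue via EXT), `Gen.isDominant_of_forall₂`, `isDominant_sumMap_iff`.
-/
import Fermat.Agent.AV.Curv33.GermScheme33
import Fermat.Agent.AV.Curv33.GermAlg87Main
import Fermat.Agent.AV.F1Model15.Main
import Fermat.Agent.AV.Curv33.ProdPts33

set_option autoImplicit false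

open CategoryTheory CategoryTheory.Limits AlgebraicGeometry NeronModelInfra GoodReductionJacobian
open Fermat.Agent.AV.Basics88.EtaleScheme Fermat.Agent.AV.Basics88.DualPoints
open IntermediateField

universe u

noncomputable section

namespace Fermat.Agent.AV.Curv33.Assembly

open Fermat.Agent.AV.Curv33.GermScheme Fermat.Agent.AV.F1Model15

variable {K : Type u} [Field K]

/-- F1 (helper15 et al.) gives the input of the model glue. -/
theorem f1Input [IsAlgClosed K] : F1Input K := by
  intro F _ _ t ht hfin hsep
  obtain ⟨M, -⟩ := model_of_separable K F t ht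
  exact ⟨M⟩

variable {A : Scheme.{u}} (f : A ⟶ Spec (CommRingCat.of K)) (G : RelativeGroupLaw K f)

/-- **The tangent step** (SUM + translation of `GermsSpan`): for an affine open chart
`j : Spec B ⟶ A` around the origin and curve germs spanning the tangent space, the sum map of the
germs is dominant. -/
def SumInput : Prop :=
  ∀ (B : Type u) [CommRing B] [Algebra K B] (j : Spec (CommRingCat.of B) ⟶ A) [IsOpenImmersion j]
    (hj : j ≫ f = str K B) (χ : B →ₐ[K] K)
    (hχ : specOf χ ≫ j = (G.one (𝟙 (Spec (CommRingCat.of K)))).1) (g : ℕ)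
    (W : Fin g → CurveGermAlg K B χ), GermsSpan W →
    IsDominant (Gen.sumMap G (listOfFn fun i =>
      germPtd j hj (G.one (𝟙 (Spec (CommRingCat.of K)))) hχ (W i)))

/-- **CURV**, modulo the tangent step. -/
theorem curvStatement_of_sum [IsAlgClosed K] [IsProper f] (g : ℕ) [SmoothOfRelativeDimension g f]
    (hSum : SumInput f G) : CurvStatement G g := by
  set e₀ := G.one (𝟙 (Spec (CommRingCat.of K))) with he₀
  obtain ⟨p⟩ : Nonempty (Spec (CommRingCat.of K)) := inferInstanceAs (Nonempty (PrimeSpectrum K))
  -- the chart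
  obtain ⟨V, hV, hpV, hsm⟩ := exists_chart f g (e₀.1 p)
  let _ : Algebra K Γ(A, V) := (chartHom f V).toAlgebra
  have hstd : Algebra.IsStandardSmoothOfRelativeDimension g K Γ(A, V) := hsm
  have hj : hV.fromSpec ≫ f = str K Γ(A, V) := fromSpec_comp f hV
  -- the point
  have hrange : Set.range (Gen.toPt e₀).1 ⊆ V := by
    rw [Gen.toPt_coe]
    exact range_subset_of_mem (R := K) e₀.1 V p hpV
  obtain ⟨ψ, hψ, hpt⟩ := exists_ptOf f hV (Gen.toPt e₀) hrange
  let χ : Γ(A, V) →ₐ[K] K := { ψ with commutes' := fun a => congrArg (fun φ => φ a) hψ }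
  have hχ : specOf χ ≫ hV.fromSpec = e₀.1 :=
    (congrArg Subtype.val hpt).trans (Gen.toPt_coe e₀)
  -- the germs
  obtain ⟨W, hW⟩ := GermAlg87.germAlg K Γ(A, V) g χ
  -- the model curves
  have hX : ∀ i, ∃ X : CurveTo f e₀,
      Nonempty (Gen.Hom (germPtd hV.fromSpec hj e₀ hχ (W i)) X.toPtdTo) :=
    fun i => exists_curveTo_of_germ hV.fromSpec hj e₀ hχ f1Input (W i)
  choose X hXW using hX
  refine ⟨listOfFn X, length_listOfFn X, ?_⟩
  rw [isDominant_sumMap_iff, map_listOfFn]
  refine Gen.isDominant_of_forall₂ G
    (forall₂_listOfFn _ (fun i => germPtd hV.fromSpec hj e₀ hχ (W i)) _ hXW) ?_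
  exact hSum Γ(A, V) hV.fromSpec hj χ hχ g W hW

end Fermat.Agent.AV.Curv33.Assembly
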