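/-
Fermat/Agent/AV/Curv33/ChartGen87.lean (helper87) -- programme AV (S26 + S27), brick CURV:
the generic point of an integral scheme read in an affine chart, and the extension theorem EXT
stated for a "chart presentation" of the function field.

`X` integral, `U` a nonempty affine open, `e : R ≃+* Γ(X, U)`, `F` a fraction field of `R`.  Then
`chartGen hU F e : Spec F ⟶ X` (through the chart) is the generic point of `X` up to the canonical
isomorphism `F ≃ K(X)`.  Consequently EXT (`ExtCurve87.exists_extension`) can be used without ever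
mentioning `X.functionField`.
-/
import Mathlib
import Fermat.Agent.AV.Curv33.ExtCurve87

set_option autoImplicit false
set_option linter.style.haveILetI false
set_option linter.unusedSectionVars false

open CategoryTheory CategoryTheory.Limits AlgebraicGeometry TopologicalSpace

universe u

noncomputable section

namespace Fermat.Agent.AV.Curv33.ChartGen87

open Fermat.Agent.AV.Curv33.ExtCurve87

section Chart

variable {X : Scheme.{u}} [IsIntegral X] {U : X.Opens} (hU : IsAffineOpen U) [Nonempty U]
  {R : Type u} [CommRing R] (F : Type u) [Field F] [Algebra R F] [IsFractionRing R F]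
  (e : R ≃+* Γ(X, U))

/-- The chart `Spec R ⟶ X`. -/
def chart : Spec (CommRingCat.of R) ⟶ X :=
  Spec.map (CommRingCat.ofHom (e.symm : Γ(X, U) →+* R)) ≫ hU.fromSpec

/-- The generic point of `X`, as a morphism from the spectrum of a fraction field of a chart
ring. -/
def chartGen : Spec (CommRingCat.of F) ⟶ X :=
  Spec.map (CommRingCat.ofHom (algebraMap R F)) ≫ chart hU e

include hU in
/-- The function field of `X` is the fraction field of the chart ring. -/
def funFieldEquiv : F ≃+* X.functionField :=
  haveI := functionField_isFractionRing_of_isAffineOpen X U hU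
  IsFractionRing.ringEquivOfRingEquiv e

theorem funFieldEquiv_algebraMap (r : R) :
    funFieldEquiv hU F e (algebraMap R F r) = X.germToFunctionField U (e r) := by
  haveI := functionField_isFractionRing_of_isAffineOpen X U hU
  exact IsFractionRing.ringEquivOfRingEquiv_algebraMap e r

/-- The isomorphism `Spec F ≅ Spec K(X)`. -/
def specFunFieldIso : Spec (CommRingCat.of F) ≅ Spec X.functionField :=
  Scheme.Spec.mapIso ((funFieldEquiv hU F e).symm.toCommRingCatIso.op)

theorem specFunFieldIso_hom :
    (specFunFieldIso hU F e).hom =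
      Spec.map (CommRingCat.ofHom ((funFieldEquiv hU F e).symm : X.functionField →+* F)) := rfl

/-- **The chart presentation of the generic point.** -/
theorem specFunFieldIso_hom_fromSpecStalk :
    (specFunFieldIso hU F e).hom ≫ X.fromSpecStalk (genericPoint X) = chartGen hU F e := by
  have hmem : genericPoint X ∈ U :=
    ((genericPoint_spec X).mem_open_set_iff U.isOpen).mpr (by simpa using ‹Nonempty U›)
  rw [← hU.fromSpecStalk_eq_fromSpecStalk hmem, IsAffineOpen.fromSpecStalk, chartGen, chart,
    specFunFieldIso_hom, ← Spec.map_comp_assoc, ← Spec.map_comp_assoc]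
  refine congrArg (· ≫ hU.fromSpec) ?_
  refine congrArg Spec.map ?_
  ext s
  show (funFieldEquiv hU F e).symm (X.germToFunctionField U s) = algebraMap R F (e.symm s)
  rw [RingEquiv.symm_apply_eq, funFieldEquiv_algebraMap, RingEquiv.apply_symm_apply]

theorem chartGen_eq :
    chartGen hU F e = (specFunFieldIso hU F e).hom ≫ X.fromSpecStalk (genericPoint X) :=
  (specFunFieldIso_hom_fromSpecStalk hU F e).symm

theorem specFunFieldIso_inv_chartGen :
    (specFunFieldIso hU F e).inv ≫ chartGen hU F e = X.fromSpecStalk (genericPoint X) := by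
  rw [chartGen_eq, Iso.inv_hom_id_assoc]

instance isDominant_chartGen : IsDominant (chartGen hU F e) := by
  rw [chartGen_eq]
  infer_instance

end Chart

/-! ### The affine case -/

section Affine

variable (R : Type u) [CommRing R]

/-- `R ≃+* Γ(Spec R, ⊤)`. -/
def eTop : R ≃+* Γ(Spec (CommRingCat.of R), ⊤) :=
  (Scheme.ΓSpecIso (CommRingCat.of R)).symm.commRingCatIsoToRingEquiv

theorem chart_eTop : chart (isAffineOpen_top (Spec (CommRingCat.of R))) (eTop R) = 𝟙 _ := by
  rw [chart, IsAffineOpen.fromSpec_top, Scheme.isoSpec_Spec_inv, ← Spec.map_comp, ← Spec.map_id]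
  refine congrArg Spec.map ?_
  ext a
  exact congrArg (fun g : CommRingCat.of R ⟶ CommRingCat.of R => g.hom a)
    (Scheme.ΓSpecIso (CommRingCat.of R)).inv_hom_id

instance nonempty_top_spec [Nontrivial R] : Nonempty (⊤ : (Spec (CommRingCat.of R)).Opens) :=
  ⟨⟨show ↥(Spec (CommRingCat.of R)) from Classical.arbitrary (PrimeSpectrum R), trivial⟩⟩

variable [IsDomain R] (F : Type u) [Field F] [Algebra R F] [IsFractionRing R F]

/-- For `X = Spec R` the chart presentation of the generic point is `Spec F ⟶ Spec R`. -/
theorem chartGen_eTop :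
    chartGen (isAffineOpen_top (Spec (CommRingCat.of R))) F (eTop R) =
      Spec.map (CommRingCat.ofHom (algebraMap R F)) := by
  rw [chartGen, chart_eTop, Category.comp_id]

end Affine

/-! ### EXT in chart form -/

section Ext

variable {S C A : Scheme.{u}} (sC : C ⟶ S) (sA : A ⟶ S) [IsIntegral C]
  {U : C.Opens} (hU : IsAffineOpen U) [Nonempty U]
  {R : Type u} [CommRing R] (F : Type u) [Field F] [Algebra R F] [IsFractionRing R F]
  (e : R ≃+* Γ(C, U))

/-- **EXT, chart form.**  `C` integral with valuation-ring stalks, `A` proper over a separated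
base: an `S`-morphism from the generic point `Spec F ⟶ A` (`F` the fraction field of a chart ring
of `C`) extends to `C`. -/
theorem exists_extension_chart [IsProper sA] [S.IsSeparated]
    (η : Spec (CommRingCat.of F) ⟶ A) (hη : η ≫ sA = chartGen hU F e ≫ sC)
    (hC : ∀ x : C, ValuationRing (C.presheaf.stalk x)) :
    ∃ φ : C ⟶ A, φ ≫ sA = sC ∧ chartGen hU F e ≫ φ = η := by
  obtain ⟨φ, h1, h2⟩ := exists_extension sC sA ((specFunFieldIso hU F e).inv ≫ η)
    (by rw [Category.assoc, hη, ← Category.assoc, specFunFieldIso_inv_chartGen]) hC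
  refine ⟨φ, h1, ?_⟩
  rw [chartGen_eq, Category.assoc, h2, Iso.hom_inv_id_assoc]

/-- Uniqueness of the extension. -/
theorem extension_unique_chart [IsSeparated sA] (φ φ' : C ⟶ A) (h : φ ≫ sA = φ' ≫ sA)
    (hgen : chartGen hU F e ≫ φ = chartGen hU F e ≫ φ') : φ = φ' :=
  ext_of_isDominant_of_isSeparated sA h (chartGen hU F e) hgen

end Ext

/-! ### Factorisation through a complete model -/

section Model

variable {S W C A : Scheme.{u}} (sW : W ⟶ S) (sC : C ⟶ S) (sA : A ⟶ S)
  [IsIntegral W] [IsIntegral C] [IsProper sC] [IsProper sA] [S.IsSeparated]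
  (F : Type u) [Field F]
  {UW : W.Opens} (hUW : IsAffineOpen UW) [Nonempty UW]
  {RW : Type u} [CommRing RW] [Algebra RW F] [IsFractionRing RW F] (eW : RW ≃+* Γ(W, UW))
  {UC : C.Opens} (hUC : IsAffineOpen UC) [Nonempty UC]
  {RC : Type u} [CommRing RC] [Algebra RC F] [IsFractionRing RC F] (eC : RC ≃+* Γ(C, UC))

/-- **Factorisation through a complete model.**  `W` (a curve germ) and `C` (a complete curve) are
integral `S`-schemes with valuation-ring stalks, having charts with the same fraction field `F`
(compatibly with the structure morphisms); `C` and `A` are proper over `S`.  Every `S`-morphism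
`j : W ⟶ A` factors as `W ⟶ C ⟶ A`, where `W ⟶ C` is the identity on generic points. -/
theorem exists_factor_through_model_chart
    (hgen : chartGen hUW F eW ≫ sW = chartGen hUC F eC ≫ sC)
    (hW : ∀ x : W, ValuationRing (W.presheaf.stalk x))
    (hC : ∀ x : C, ValuationRing (C.presheaf.stalk x))
    (j : W ⟶ A) (hj : j ≫ sA = sW) :
    ∃ (ι : W ⟶ C) (φ : C ⟶ A), ι ≫ sC = sW ∧ φ ≫ sA = sC ∧ ι ≫ φ = j ∧
      chartGen hUW F eW ≫ ι = chartGen hUC F eC := by
  obtain ⟨ι, hι1, hι2⟩ := exists_extension_chart sW sC hUW F eW (chartGen hUC F eC) hgen.symm hW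
  obtain ⟨φ, hφ1, hφ2⟩ := exists_extension_chart sC sA hUC F eC (chartGen hUW F eW ≫ j)
    (by rw [Category.assoc, hj, hgen]) hC
  refine ⟨ι, φ, hι1, hφ1, ?_, hι2⟩
  refine extension_unique_chart sA hUW F eW (ι ≫ φ) j ?_ ?_
  · rw [Category.assoc, hφ1, hι1, hj]
  · rw [← Category.assoc, hι2, hφ2]

end Model

end Fermat.Agent.AV.Curv33.ChartGen87
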