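/-
Fermat/Agent/AV/Curv33/PtAffine87.lean (helper87) -- programme AV (S26 + S27), brick CURV, (d) SUM,
affine-chart lemmas for `R'`-valued points (`Basics88.DualPoints.Pt`).

* `ptSpec τ`                 : the `R'`-point of `Spec R` attached to `τ : R →ₐ[K] R'`;
* `ptSpecEquiv`              : `(R →ₐ[K] R') ≃ Pt (str K R) R'`                      (CH1);
* `map_ptSpec`, `push_ptSpec`: functoriality in `R'` and in `R`                       (CH2);
* `existsUnique_push_eq`     : for an open immersion `h : X ⟶ Y` over `K`, an `R'`-point of `Y`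
  (`Spec R'` a single point) whose point lies in the image of `h` lifts uniquely to `X`  (CH3);
* `existsUnique_tangent_push_eq` : the same for tangent vectors (`R' = K[ε]`) based at a
  `K`-point of `X`.
-/
import Mathlib
import Fermat.Agent.AV.Basics88.DualPoints
import Fermat.Agent.AV.Basics88.NsmulTangent

set_option autoImplicit false
set_option linter.style.haveILetI false
set_option linter.unusedSectionVars false

open CategoryTheory AlgebraicGeometry NeronModelInfra GoodReductionJacobian TrivSqZeroExt

universe u

noncomputable section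

namespace Fermat.Agent.AV.Curv33.PtAffine87

open Fermat.Agent.AV.Basics88.DualPoints

section Affine

variable {K : Type u} [CommRing K] {R R' R'' : Type u} [CommRing R] [CommRing R'] [CommRing R'']
  [Algebra K R] [Algebra K R'] [Algebra K R'']

/-- The `R'`-valued point of `Spec R` attached to a `K`-algebra homomorphism `R → R'`. -/
def ptSpec (τ : R →ₐ[K] R') : Pt (str K R) R' := ⟨specOf τ, specOf_str τ⟩

@[simp] theorem ptSpec_coe (τ : R →ₐ[K] R') : (ptSpec τ).1 = specOf τ := rfl

theorem ptSpec_injective : Function.Injective (ptSpec (K := K) (R := R) (R' := R')) := by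
  intro τ τ' h
  have h1 : specOf τ = specOf τ' := congrArg Subtype.val h
  have h2 := Spec.map_injective h1
  have h3 : τ.toRingHom = τ'.toRingHom := congrArg CommRingCat.Hom.hom h2
  exact AlgHom.ext fun r => congrArg (fun g : R →+* R' => g r) h3

theorem ptSpec_surjective : Function.Surjective (ptSpec (K := K) (R := R) (R' := R')) := by
  intro t
  let ρ : R →+* R' := (Spec.preimage t.1).hom
  have hρ : Spec.map (CommRingCat.ofHom ρ) = t.1 := Spec.map_preimage t.1
  have hK : ρ.comp (algebraMap K R) = algebraMap K R' := by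
    have h1 : Spec.map (CommRingCat.ofHom (ρ.comp (algebraMap K R))) =
        Spec.map (CommRingCat.ofHom (algebraMap K R')) := by
      rw [CommRingCat.ofHom_comp, Spec.map_comp, hρ]
      exact t.2
    exact congrArg CommRingCat.Hom.hom (Spec.map_injective h1)
  refine ⟨{ ρ with commutes' := fun k => congrArg (fun g : K →+* R' => g k) hK }, ?_⟩
  apply Subtype.ext
  exact hρ

/-- **CH1.** `R'`-valued points of `Spec R` over `K` are `K`-algebra homomorphisms `R → R'`. -/
def ptSpecEquiv : (R →ₐ[K] R') ≃ Pt (str K R) R' :=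
  Equiv.ofBijective ptSpec ⟨ptSpec_injective, ptSpec_surjective⟩

@[simp] theorem ptSpecEquiv_apply (τ : R →ₐ[K] R') : ptSpecEquiv τ = ptSpec τ := rfl

theorem ptSpec_symm_apply (t : Pt (str K R) R') : ptSpec (ptSpecEquiv.symm t) = t :=
  ptSpecEquiv.apply_symm_apply t

/-- Functoriality in the algebra of values. -/
theorem map_ptSpec (φ : R' →ₐ[K] R'') (τ : R →ₐ[K] R') :
    Pt.map φ (ptSpec τ) = ptSpec (φ.comp τ) := by
  apply Subtype.ext
  rw [Pt.map_coe, ptSpec_coe, ptSpec_coe, specOf_comp]

/-- **CH2.** Functoriality in the ring: pushing forward along `Spec R ⟶ Spec B` is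
precomposition. -/
theorem push_ptSpec {B : Type u} [CommRing B] [Algebra K B] (π : B →ₐ[K] R) (τ : R →ₐ[K] R') :
    Pt.push (specOf π) (specOf_str π) (ptSpec τ) = ptSpec (τ.comp π) := by
  apply Subtype.ext
  rw [Pt.push_coe, ptSpec_coe, ptSpec_coe, specOf_comp]

end Affine

/-! ### Open immersions -/

section OpenImm

variable {K : Type u} [Field K] {X Y : Scheme.{u}} {fX : X ⟶ Spec (CommRingCat.of K)}
  {fY : Y ⟶ Spec (CommRingCat.of K)} (h : X ⟶ Y) (hh : h ≫ fY = fX) [IsOpenImmersion h]

open Fermat.Agent.AV.Basics88.NsmulTangent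

/-- Pushing forward along a monomorphism is injective on points. -/
theorem push_injective {R' : Type u} [CommRing R'] [Algebra K R'] :
    Function.Injective (Pt.push h hh (R := R')) := by
  intro t t' e
  apply Subtype.ext
  have := congrArg Subtype.val e
  rwa [Pt.push_coe, Pt.push_coe, cancel_mono] at this

/-- **CH3 (points).** An `R'`-point of `Y` (`Spec R'` a single point) one of whose points lies
in the image of the open immersion `h` lifts uniquely to `X`. -/
theorem existsUnique_push_eq {R' : Type u} [CommRing R'] [Algebra K R']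
    [Subsingleton (PrimeSpectrum R')] (t' : Pt fY R') (p : Spec (CommRingCat.of R'))
    (hp : t'.1 p ∈ Set.range h) : ∃! t : Pt fX R', Pt.push h hh t = t' := by
  have hr : Set.range t'.1 ⊆ Set.range h := by
    rintro _ ⟨y, rfl⟩
    have : y = p := Subsingleton.elim (α := PrimeSpectrum R') y p
    rw [this]
    exact hp
  let s := IsOpenImmersion.lift h t'.1 hr
  have hs : s ≫ h = t'.1 := IsOpenImmersion.lift_fac _ _ _
  refine ⟨⟨s, ?_⟩, ?_, ?_⟩
  · rw [← hh, ← Category.assoc, hs]
    exact t'.2
  · apply Subtype.ext
    exact hs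
  · intro t ht
    apply push_injective h hh
    rw [ht]
    apply Subtype.ext
    exact hs.symm

/-- **CH3 (tangent vectors).** For an open immersion `h : X ⟶ Y` over `K` and a `K`-point `x` of
`X`, every tangent vector of `Y` based at `h x` comes from a unique tangent vector of `X`, which
is based at `x`. -/
theorem existsUnique_tangent_push_eq (x : Pt fX K) (t' : Pt fY (D1 K))
    (ht' : base t' = Pt.push h hh x) :
    ∃! t : Pt fX (D1 K), base t = x ∧ Pt.push h hh t = t' := by
  -- the unique point of `Spec K[ε]` is the image of the unique point of `Spec K`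
  obtain ⟨p₀⟩ : Nonempty (Spec (CommRingCat.of K)) :=
    inferInstanceAs (Nonempty (PrimeSpectrum K))
  let p : Spec (CommRingCat.of (D1 K)) := specOf (fstHom K K K) p₀
  have hp : t'.1 p ∈ Set.range h := by
    have h1 : (base t').1 p₀ = t'.1 p := by
      show (specOf (fstHom K K K) ≫ t'.1) p₀ = _
      rfl
    rw [← h1, ht']
    exact ⟨x.1 p₀, rfl⟩
  obtain ⟨t, ht, huniq⟩ := existsUnique_push_eq h hh t' p hp
  refine ⟨t, ⟨?_, ht⟩, fun t₂ ht₂ => huniq t₂ ht₂.2⟩
  apply push_injective h hh
  rw [← ht', ← ht, base, base, Pt.map_push]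

end OpenImm

end Fermat.Agent.AV.Curv33.PtAffine87
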