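/-
Fermat/Agent/AV/Curv33/TangentAffine87.lean (helper87) -- programme AV (S26 + S27), brick CURV,
(d) SUM: the tangent space of an affine `K`-scheme at a `K`-point in terms of algebra maps to the
dual numbers, additively (CH1, CH2), and the tangent map of an open immersion (CH3).

For `R` a `K`-algebra, `p : R →ₐ[K] K` and `x : Pt (str K R) K` with `ptSpec p = x`:
* `toAlgHom v : R →ₐ[K] K[ε]` for `v : TSpace (str K R) x`, `fst ∘ toAlgHom v = p`;
* `ofAlgHom τ hτ : TSpace (str K R) x`;
* `dOf v : R → K`, the `ε`-part; `dOf_add`, `dOf_zero`, `dOf_sum`, `dOf_injective`;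
* `dOf_tmap_specOf` : the tangent map of `Spec R ⟶ Spec B` is precomposition;
* `tmap_bijective_of_isOpenImmersion`.
-/
import Mathlib
import Fermat.Agent.AV.Basics88.TangentSpace
import Fermat.Agent.AV.Curv33.PtAffine87

set_option autoImplicit false
set_option linter.style.haveILetI false
set_option linter.unusedSectionVars false

open CategoryTheory AlgebraicGeometry NeronModelInfra GoodReductionJacobian TrivSqZeroExt

universe u

noncomputable section

namespace Fermat.Agent.AV.Curv33.TangentAffine87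

open Fermat.Agent.AV.Basics88.DualPoints Fermat.Agent.AV.Basics88.TangentSpace
  Fermat.Agent.AV.Basics88.NsmulTangent Fermat.Agent.AV.Curv33.PtAffine87

variable {K : Type u} [Field K]

section Affine

variable {R : Type u} [CommRing R] [Algebra K R] {p : R →ₐ[K] K} {x : Pt (str K R) K}

/-- The algebra map to the dual numbers attached to a tangent vector of `Spec R`. -/
def toAlgHom (v : TSpace (str K R) x) : R →ₐ[K] D1 K := ptSpecEquiv.symm v.pt

theorem ptSpec_toAlgHom (v : TSpace (str K R) x) : ptSpec (toAlgHom v) = v.pt :=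
  ptSpecEquiv.apply_symm_apply v.pt

theorem fst_comp_toAlgHom (hx : ptSpec p = x) (v : TSpace (str K R) x) :
    (fstHom K K K).comp (toAlgHom v) = p := by
  apply ptSpec_injective
  rw [← map_ptSpec, ptSpec_toAlgHom, hx]
  exact v.base_pt

/-- The tangent vector attached to an algebra map to the dual numbers over `p`. -/
def ofAlgHom (hx : ptSpec p = x) (τ : R →ₐ[K] D1 K) (hτ : (fstHom K K K).comp τ = p) :
    TSpace (str K R) x :=
  TSpace.mk ⟨ptSpec τ, by rw [map_ptSpec, hτ, hx]⟩

theorem ofAlgHom_pt (hx : ptSpec p = x) (τ : R →ₐ[K] D1 K) (hτ : (fstHom K K K).comp τ = p) :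
    (ofAlgHom hx τ hτ).pt = ptSpec τ := rfl

@[simp] theorem toAlgHom_ofAlgHom (hx : ptSpec p = x) (τ : R →ₐ[K] D1 K)
    (hτ : (fstHom K K K).comp τ = p) : toAlgHom (ofAlgHom hx τ hτ) = τ := by
  apply ptSpec_injective
  rw [ptSpec_toAlgHom, ofAlgHom_pt]

theorem ofAlgHom_toAlgHom (hx : ptSpec p = x) (v : TSpace (str K R) x) :
    ofAlgHom hx (toAlgHom v) (fst_comp_toAlgHom hx v) = v := by
  apply TSpace.ext
  rw [ofAlgHom_pt, ptSpec_toAlgHom]

theorem toAlgHom_injective : Function.Injective (toAlgHom (K := K) (R := R) (x := x)) := by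
  intro v w h
  apply TSpace.ext
  rw [← ptSpec_toAlgHom v, ← ptSpec_toAlgHom w, h]

/-- The `ε`-part of a tangent vector of `Spec R`, a point derivation `R → K`. -/
def dOf (v : TSpace (str K R) x) : R → K := fun r => (toAlgHom v r).snd

theorem dOf_apply (v : TSpace (str K R) x) (r : R) : dOf v r = (toAlgHom v r).snd := rfl

theorem fst_toAlgHom (hx : ptSpec p = x) (v : TSpace (str K R) x) (r : R) :
    (toAlgHom v r).fst = p r :=
  congrArg (fun φ : R →ₐ[K] K => φ r) (fst_comp_toAlgHom hx v)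

theorem dOf_injective (hx : ptSpec p = x) :
    Function.Injective (dOf (K := K) (R := R) (x := x)) := by
  intro v w h
  apply toAlgHom_injective
  apply AlgHom.ext
  intro r
  apply TrivSqZeroExt.ext
  · rw [fst_toAlgHom hx, fst_toAlgHom hx]
  · exact congrFun h r

/-- The algebra map attached to a `K × K`-valued tangent vector. -/
def toAlgHom₂ (s : TS (str K R) x (K × K)) : R →ₐ[K] TrivSqZeroExt K (K × K) :=
  ptSpecEquiv.symm s.1

theorem ptSpec_toAlgHom₂ (s : TS (str K R) x (K × K)) : ptSpec (toAlgHom₂ s) = s.1 :=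
  ptSpecEquiv.apply_symm_apply s.1

theorem toAlgHom_mk_map (u : (K × K) →ₗ[K] K) (s : TS (str K R) x (K × K)) :
    toAlgHom (TSpace.mk (TS.map u s)) = (TrivSqZeroExt.map u).comp (toAlgHom₂ s) := by
  apply ptSpec_injective
  rw [ptSpec_toAlgHom, ← map_ptSpec, ptSpec_toAlgHom₂]
  rfl

/-- **CH1 (additivity).** The `ε`-part is additive. -/
theorem dOf_add (v w : TSpace (str K R) x) : dOf (v + w) = dOf v + dOf w := by
  obtain ⟨s, rfl, rfl⟩ := TSpace.exists_pair v w
  rw [← TSpace.add_def]
  funext r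
  rw [Pi.add_apply, dOf_apply, dOf_apply, dOf_apply, toAlgHom_mk_map, toAlgHom_mk_map,
    toAlgHom_mk_map, AlgHom.comp_apply, AlgHom.comp_apply, AlgHom.comp_apply,
    TrivSqZeroExt.snd_map, TrivSqZeroExt.snd_map, TrivSqZeroExt.snd_map]
  simp

theorem dOf_zero : dOf (0 : TSpace (str K R) x) = 0 := by
  have h : dOf ((0 : TSpace (str K R) x) + 0) = dOf (0 : TSpace (str K R) x) + dOf 0 :=
    dOf_add 0 0
  rw [add_zero] at h
  exact (add_eq_left.mp h.symm)

theorem dOf_sum {ι : Type*} (s : Finset ι) (v : ι → TSpace (str K R) x) :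
    dOf (∑ i ∈ s, v i) = ∑ i ∈ s, dOf (v i) := by
  classical
  induction s using Finset.induction_on with
  | empty => simp [dOf_zero]
  | insert a s ha ih => rw [Finset.sum_insert ha, Finset.sum_insert ha, dOf_add, ih]

theorem dOf_ofAlgHom (hx : ptSpec p = x) (τ : R →ₐ[K] D1 K) (hτ : (fstHom K K K).comp τ = p)
    (r : R) : dOf (ofAlgHom hx τ hτ) r = (τ r).snd := by
  rw [dOf_apply, toAlgHom_ofAlgHom]

end Affine

/-! ### CH2: the tangent map of `Spec R ⟶ Spec B` -/

section Functorial

variable {B R : Type u} [CommRing B] [CommRing R] [Algebra K B] [Algebra K R]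
  (π : B →ₐ[K] R) {x : Pt (str K R) K} {y : Pt (str K B) K}
  (hxy : Pt.push (specOf π) (specOf_str π) x = y)

/-- **CH2.** The tangent map of `Spec π` is precomposition with `π`. -/
theorem toAlgHom_tmap_specOf (v : TSpace (str K R) x) :
    toAlgHom (tmap (specOf π) (specOf_str π) hxy v) = (toAlgHom v).comp π := by
  apply ptSpec_injective
  rw [ptSpec_toAlgHom, tmap_apply_pt, ← push_ptSpec, ptSpec_toAlgHom]

theorem dOf_tmap_specOf (v : TSpace (str K R) x) (b : B) :
    dOf (tmap (specOf π) (specOf_str π) hxy v) b = dOf v (π b) := by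
  rw [dOf_apply, toAlgHom_tmap_specOf]
  rfl

end Functorial

/-! ### CH3: the tangent map of an open immersion -/

section OpenImm

variable {X Y : Scheme.{u}} {fX : X ⟶ Spec (CommRingCat.of K)}
  {fY : Y ⟶ Spec (CommRingCat.of K)} (h : X ⟶ Y) (hh : h ≫ fY = fX) [IsOpenImmersion h]
  {x : Pt fX K} {y : Pt fY K} (hxy : Pt.push h hh x = y)

/-- **CH3.** The tangent map of an open immersion is bijective. -/
theorem tmap_bijective_of_isOpenImmersion : Function.Bijective (tmap h hh hxy) := by
  constructor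
  · intro v w hvw
    apply TSpace.ext
    have h1 : (tmap h hh hxy v).pt = (tmap h hh hxy w).pt := congrArg TSpace.pt hvw
    rw [tmap_apply_pt, tmap_apply_pt] at h1
    exact push_injective h hh h1
  · intro v'
    obtain ⟨t, ⟨ht1, ht2⟩, -⟩ := existsUnique_tangent_push_eq h hh x v'.pt
      (by rw [hxy]; exact v'.base_pt)
    refine ⟨TSpace.mk ⟨t, ht1⟩, ?_⟩
    apply TSpace.ext
    rw [tmap_apply_pt]
    exact ht2

end OpenImm

/-! ### The translation: spanning germs give a bijective sum of tangent maps -/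

section Span

variable {B : Type u} [CommRing B] [Algebra K B] {χ : B →ₐ[K] K} {y : Pt (str K B) K}
  {g : ℕ} {R : Fin g → Type u} [∀ i, CommRing (R i)] [∀ i, Algebra K (R i)]
  (π : ∀ i, B →ₐ[K] R i) {p : ∀ i, R i →ₐ[K] K} {x : ∀ i, Pt (str K (R i)) K}
  (hxy : ∀ i, Pt.push (specOf (π i)) (specOf_str (π i)) (x i) = y)

/-- The `ε`-part of the sum of the tangent maps. -/
theorem dOf_sum_tmap_specOf (t : ∀ i, TSpace (str K (R i)) (x i)) (b : B) :
    dOf (∑ i, tmap (specOf (π i)) (specOf_str (π i)) (hxy i) (t i)) b =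
      ∑ i, dOf (t i) (π i b) := by
  rw [dOf_sum, Finset.sum_apply]
  exact Finset.sum_congr rfl fun i _ => dOf_tmap_specOf (π i) (hxy i) (t i) b

/-- **Translation (affine form).**  If every `K[ε]`-point of `B` over `χ` is uniquely a sum of
`K[ε]`-points of the `R i` over `p i`, then `(t_i) ↦ ∑ d(Spec π_i)(t_i)` is bijective. -/
theorem bijective_sum_tmap_specOf (hy : ptSpec χ = y) (hx : ∀ i, ptSpec (p i) = x i)
    (hspan : ∀ τ' : B →ₐ[K] D1 K, (fstHom K K K).comp τ' = χ →
      ∃! τ : ∀ i, R i →ₐ[K] D1 K, (∀ i, (fstHom K K K).comp (τ i) = p i) ∧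
        ∀ b : B, (τ' b).snd = ∑ i, (τ i (π i b)).snd) :
    Function.Bijective (fun t : ∀ i, TSpace (str K (R i)) (x i) =>
      ∑ i, tmap (specOf (π i)) (specOf_str (π i)) (hxy i) (t i)) := by
  constructor
  · intro t t' htt'
    simp only at htt'
    set v' := ∑ i, tmap (specOf (π i)) (specOf_str (π i)) (hxy i) (t i) with hv'
    obtain ⟨τ, -, huniq⟩ := hspan (toAlgHom v') (fst_comp_toAlgHom hy v')
    have h1 : (fun i => toAlgHom (t i)) = τ := by
      apply huniq
      refine ⟨fun i => fst_comp_toAlgHom (hx i) (t i), fun b => ?_⟩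
      exact dOf_sum_tmap_specOf π hxy t b
    have h2 : (fun i => toAlgHom (t' i)) = τ := by
      apply huniq
      refine ⟨fun i => fst_comp_toAlgHom (hx i) (t' i), fun b => ?_⟩
      show dOf v' b = _
      rw [htt']
      exact dOf_sum_tmap_specOf π hxy t' b
    funext i
    exact toAlgHom_injective (congrFun (h1.trans h2.symm) i)
  · intro v'
    obtain ⟨τ, ⟨hτ1, hτ2⟩, -⟩ := hspan (toAlgHom v') (fst_comp_toAlgHom hy v')
    refine ⟨fun i => ofAlgHom (hx i) (τ i) (hτ1 i), ?_⟩
    apply dOf_injective hy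
    funext b
    simp only
    rw [dOf_sum_tmap_specOf]
    rw [show dOf v' b = ((toAlgHom v') b).snd from rfl, hτ2 b]
    exact Finset.sum_congr rfl fun i _ => dOf_ofAlgHom (hx i) (τ i) (hτ1 i) (π i b)

variable {A : Scheme.{u}} {f : A ⟶ Spec (CommRingCat.of K)} {x₀ : Pt f K}
  (j : Spec (CommRingCat.of B) ⟶ A) [IsOpenImmersion j]

/-- **Translation.**  `j : Spec B ⟶ A` an open immersion (an affine chart of `A` at `x₀`),
`π i : B → R i` curve germs through the point.  If every `K[ε]`-point of `B` over `χ` is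
uniquely a sum of `K[ε]`-points of the `R i` over `p i` (`GermsSpan`), then the sum of the
tangent maps `⊕ T(Spec R i) → T_{x₀} A` is bijective. -/
theorem bijective_sum_tmap (hj : j ≫ f = str K B) (hyx : Pt.push j hj y = x₀)
    (hxy : ∀ i, Pt.push (specOf (π i)) (specOf_str (π i)) (x i) = y)
    (hy : ptSpec χ = y) (hx : ∀ i, ptSpec (p i) = x i)
    (hφ : ∀ i, (specOf (π i) ≫ j) ≫ f = str K (R i))
    (hpush : ∀ i, Pt.push (specOf (π i) ≫ j) (hφ i) (x i) = x₀)
    (hspan : ∀ τ' : B →ₐ[K] D1 K, (fstHom K K K).comp τ' = χ →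
      ∃! τ : ∀ i, R i →ₐ[K] D1 K, (∀ i, (fstHom K K K).comp (τ i) = p i) ∧
        ∀ b : B, (τ' b).snd = ∑ i, (τ i (π i b)).snd) :
    Function.Bijective (fun t : ∀ i, TSpace (str K (R i)) (x i) =>
      ∑ i, tmap (specOf (π i) ≫ j) (hφ i) (hpush i) (t i)) := by
  have h1 := bijective_sum_tmap_specOf π hxy hy hx hspan
  have h2 := tmap_bijective_of_isOpenImmersion j hj hyx
  have h3 : (fun t : ∀ i, TSpace (str K (R i)) (x i) =>
      ∑ i, tmap (specOf (π i) ≫ j) (hφ i) (hpush i) (t i)) =
      (tmap j hj hyx) ∘ (fun t : ∀ i, TSpace (str K (R i)) (x i) =>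
        ∑ i, tmap (specOf (π i)) (specOf_str (π i)) (hxy i) (t i)) := by
    funext t
    simp only [Function.comp_apply]
    rw [map_sum]
    exact Finset.sum_congr rfl fun i _ =>
      (tmap_comp (specOf (π i)) (specOf_str (π i)) j hj (hxy i) hyx (hφ i) (hpush i) (t i)).symm
  rw [h3]
  exact h2.comp h1

end Span

end Fermat.Agent.AV.Curv33.TangentAffine87
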