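/-
Fermat/Agent/AV/Curv33/GermSpan87.lean (helper87) -- programme AV (S26 + S27), brick CURV:
the TRANSLATION `GermsSpan W ⇒ hbij` in the exact shape consumed by
`Basics88.SumTangentFin.isDominant_sumMap_ofFn`.

`j : Spec B ⟶ A` an open immersion over `K` (an affine chart of `A` around the origin `e`),
`χ : B →ₐ[K] K` the point (`specOf χ ≫ j = e`), `W : Fin g → CurveGermAlg K B χ` curve germs with
`GermsSpan W`, `F i := germPtd j hj e hχ (W i)`.  Then `t ↦ ∑ i, d(φ i) (t i)` is bijective from the
product of the tangent spaces of the germs onto the tangent space of `A` at `e`; hence the sum map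
of the germs is dominant.
-/
import Mathlib
import Fermat.Agent.AV.Curv33.TangentAffine87
import Fermat.Agent.AV.Curv33.GermScheme33
import Fermat.Agent.AV.Basics88.SumTangentFin

set_option autoImplicit false
set_option linter.style.haveILetI false
set_option linter.unusedSectionVars false

open CategoryTheory CategoryTheory.Limits AlgebraicGeometry NeronModelInfra GoodReductionJacobian
  TrivSqZeroExt

universe u

noncomputable section

namespace Fermat.Agent.AV.Curv33.GermSpan87

open Fermat.Agent.AV.Basics88.DualPoints Fermat.Agent.AV.Basics88.TangentSpace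
  Fermat.Agent.AV.Curv33.PtAffine87 Fermat.Agent.AV.Curv33.TangentAffine87
  Fermat.Agent.AV.Curv33.GermScheme Fermat.Agent.AV.Curv33.Gen
  Fermat.Agent.AV.Basics88.SumTangentGen

open Fermat.Agent.AV.Basics88.SumTangent (kpt kpt_coe kpt_one)

variable {K : Type u} [Field K] {A : Scheme.{u}} {f : A ⟶ Spec (CommRingCat.of K)}
  {B : Type u} [CommRing B] [Algebra K B] (j : Spec (CommRingCat.of B) ⟶ A)
  (hj : j ≫ f = str K B) (e : SchemeHomOver (𝟙 (Spec (CommRingCat.of K))) f)
  {χ : B →ₐ[K] K} (hχ : specOf χ ≫ j = e.1)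

/-- The base point of the germ, in the two formats. -/
theorem ptSpec_eq_kpt (w : CurveGermAlg K B χ) :
    ptSpec w.pt = kpt (germPtd j hj e hχ w).pt := by
  apply Subtype.ext
  exact ((kpt_coe (germPtd j hj e hχ w).pt).trans rfl).symm

/-- **Translation.**  Spanning germs have a bijective sum of tangent maps (the hypothesis `hbij`
of `SumTangentFin.isDominant_sumMap_ofFn`). -/
theorem bijective_sum_tmap_germPtd [IsOpenImmersion j] {g : ℕ} (W : Fin g → CurveGermAlg K B χ)
    (hW : GermsSpan W) :
    Function.Bijective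
      (fun t : (i : Fin g) → TSpace (germPtd j hj e hχ (W i)).s (kpt (germPtd j hj e hχ (W i)).pt) =>
        ∑ i, tmap (germPtd j hj e hχ (W i)).φ.1 (germPtd j hj e hχ (W i)).φ.2
          (push_φ (germPtd j hj e hχ (W i))) (t i)) := by
  have hyx : Pt.push j hj (ptSpec χ) = kpt e := by
    apply Subtype.ext
    rw [Pt.push_coe, kpt_coe, ptSpec_coe, hχ]
  have hxy : ∀ i, Pt.push (specOf (W i).π) (specOf_str (W i).π)
      (kpt (germPtd j hj e hχ (W i)).pt) = ptSpec χ := by
    intro i
    apply Subtype.ext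
    have h1 : (kpt (germPtd j hj e hχ (W i)).pt).1 = specOf (W i).pt :=
      (kpt_coe (germPtd j hj e hχ (W i)).pt).trans rfl
    have h2 : specOf (W i).pt ≫ specOf (W i).π = specOf χ := by
      rw [← specOf_comp, (W i).pt_π]
    exact (congrArg (· ≫ specOf (W i).π) h1).trans h2
  exact bijective_sum_tmap (fun i => (W i).π) j hj hyx hxy rfl
    (fun i => ptSpec_eq_kpt j hj e hχ (W i))
    (fun i => (germPtd j hj e hχ (W i)).φ.2) (fun i => push_φ (germPtd j hj e hχ (W i))) hW

/-- **Dominance of the sum map of spanning germs.** -/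
theorem isDominant_sumMap_germs (G : RelativeGroupLaw K f) [LocallyOfFiniteType f]
    [IrreducibleSpace A] (j : Spec (CommRingCat.of B) ⟶ A) (hj : j ≫ f = str K B)
    [IsOpenImmersion j] {χ : B →ₐ[K] K}
    (hχ : specOf χ ≫ j = (G.one (𝟙 (Spec (CommRingCat.of K)))).1)
    {g : ℕ} (W : Fin g → CurveGermAlg K B χ) (hW : GermsSpan W) :
    IsDominant (Gen.sumMap G (List.ofFn fun i =>
      germPtd j hj (G.one (𝟙 (Spec (CommRingCat.of K)))) hχ (W i))) :=
  Fermat.Agent.AV.Basics88.SumTangentFin.isDominant_sumMap_ofFn G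
    (fun i => germPtd j hj (G.one (𝟙 (Spec (CommRingCat.of K)))) hχ (W i))
    (bijective_sum_tmap_germPtd j hj _ hχ W hW)

end Fermat.Agent.AV.Curv33.GermSpan87
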