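/-
Fermat/Agent/AV/Curv33/CurvMain87.lean (helper87) -- programme AV (S26 + S27), brick CURV:
FINAL ASSEMBLY of `CurvStatement`.

`K` algebraically closed, `f : A ⟶ Spec K` smooth of relative dimension `g`, proper, `A`
irreducible, `G` a group law on `f`.  Then there are `g` pointed smooth proper curves through the
origin of `A` whose sum map `∏ C_i ⟶ A` is dominant.

Chain: affine chart at the origin (`GermScheme.exists_chart`) → algebraic curve germs with
spanning tangent lines (`GermAlg87.germAlg`) → dominance of the sum map of the germs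
(`GermSpan87.isDominant_sumMap_germs`, via SUM of helper88) → complete models of the germs
(`GermScheme.exists_curveTo_of_germ`, F1 + EXT) → dominance for the complete curves
(`Gen.isDominant_of_forall₂`).
-/
import Mathlib
import Fermat.Agent.AV.Curv33.GermSpan87
import Fermat.Agent.AV.Curv33.GermAlg87Main

set_option autoImplicit false
set_option linter.style.haveILetI false
set_option linter.unusedSectionVars false

open CategoryTheory CategoryTheory.Limits AlgebraicGeometry NeronModelInfra GoodReductionJacobian
  TrivSqZeroExt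

universe u

noncomputable section

namespace Fermat.Agent.AV.Curv33.CurvMain87

open Fermat.Agent.AV.Basics88.DualPoints Fermat.Agent.AV.Basics88.EtaleScheme
  Fermat.Agent.AV.Curv33.GermScheme Fermat.Agent.AV.Curv33.Gen
  Fermat.Agent.AV.Curv33.GermSpan87

open Fermat.Agent.AV.Basics88.SumTangent (kpt kpt_coe)

variable {K : Type u} [Field K] {A : Scheme.{u}} {f : A ⟶ Spec (CommRingCat.of K)}

/-- `List.Forall₂` for two families indexed by `Fin n`. -/
theorem forall₂_ofFn {α β : Type*} (r : α → β → Prop) :
    ∀ {n : ℕ} (a : Fin n → α) (b : Fin n → β), (∀ i, r (a i) (b i)) →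
      List.Forall₂ r (List.ofFn a) (List.ofFn b)
  | 0, a, b, _ => by
    rw [List.ofFn_zero, List.ofFn_zero]
    exact List.Forall₂.nil
  | n + 1, a, b, h => by
    rw [List.ofFn_succ, List.ofFn_succ]
    exact List.Forall₂.cons (h 0) (forall₂_ofFn r _ _ fun i => h i.succ)

/-- **CURV.** -/
theorem curvStatement [IsAlgClosed K] (hF1 : F1Input K) (G : RelativeGroupLaw K f) (g : ℕ)
    [SmoothOfRelativeDimension g f] [IsProper f] [IrreducibleSpace A] :
    CurvStatement G g := by
  classical
  set e := G.one (𝟙 (Spec (CommRingCat.of K))) with he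
  -- the origin as a point of `A`
  obtain ⟨p₀⟩ : Nonempty (Spec (CommRingCat.of K)) :=
    inferInstanceAs (Nonempty (PrimeSpectrum K))
  -- an affine chart at the origin
  obtain ⟨V, hV, hxV, hstd⟩ := exists_chart f g (e.1 p₀)
  letI : Algebra K Γ(A, V) := (chartHom f V).toAlgebra
  haveI : Algebra.IsStandardSmoothOfRelativeDimension g K Γ(A, V) := hstd
  -- the chart as an open immersion over `K`
  let j : Spec (CommRingCat.of Γ(A, V)) ⟶ A := hV.fromSpec
  have hj : j ≫ f = str K Γ(A, V) := fromSpec_comp f hV
  haveI : IsOpenImmersion j := inferInstanceAs (IsOpenImmersion hV.fromSpec)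
  -- the origin in the chart
  have hr : Set.range (kpt e).1 ⊆ V := by
    apply range_subset_of_mem (kpt e).1 V p₀
    rw [kpt_coe]
    exact hxV
  obtain ⟨ψ, hψ, hψe⟩ := exists_ptOf f hV (kpt e) hr
  let χ : Γ(A, V) →ₐ[K] K :=
    { ψ with commutes' := fun k => congrArg (fun φ : K →+* K => φ k) hψ }
  have hχ : specOf χ ≫ j = e.1 := by
    have h1 := congrArg Subtype.val hψe
    rw [ptOf_coe, kpt_coe] at h1
    exact h1
  -- the germs
  obtain ⟨W, hW⟩ := GermAlg87.germAlg K Γ(A, V) g χ
  -- dominance for the germs
  haveI : LocallyOfFiniteType f := inferInstance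
  have hdom := isDominant_sumMap_germs G j hj hχ W hW
  -- the complete models
  have hmodel : ∀ i, ∃ X : CurveTo f e, Nonempty (Gen.Hom (germPtd j hj e hχ (W i)) X.toPtdTo) :=
    fun i => exists_curveTo_of_germ j hj e hχ hF1 (W i)
  choose X hX using hmodel
  refine ⟨List.ofFn X, List.length_ofFn, ?_⟩
  rw [isDominant_sumMap_iff, List.map_ofFn]
  refine Gen.isDominant_of_forall₂ G ?_ hdom
  exact forall₂_ofFn _ _ _ hX

end Fermat.Agent.AV.Curv33.CurvMain87
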