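/-
Fermat/Agent/AV/Curv33/Curv87.lean (helper87) -- programme AV (S26 + S27), brick CURV:
`CurvStatement` with the F1 input discharged (`F1Model15.model_of_separable`).
-/
import Mathlib
import Fermat.Agent.AV.Curv33.CurvMain87
import Fermat.Agent.AV.F1Model15.Main

set_option autoImplicit false

open CategoryTheory CategoryTheory.Limits AlgebraicGeometry NeronModelInfra GoodReductionJacobian

universe u

noncomputable section

namespace Fermat.Agent.AV.Curv33.CurvMain87

open Fermat.Agent.AV.Curv33.GermScheme

/-- F1 in the form consumed by CURV. -/
theorem f1Input (K : Type u) [Field K] [IsAlgClosed K] : F1Input K := by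
  intro F _ _ t ht hfin hsep
  obtain ⟨M, -⟩ := Fermat.Agent.AV.F1Model15.model_of_separable K F t ht
  exact ⟨M⟩

/-- **CURV.**  `K` algebraically closed, `f : A ⟶ Spec K` smooth of relative dimension `g` and
proper, `A` irreducible, `G` a group law on `f`: there are `g` pointed smooth proper curves through
the origin whose sum map is dominant. -/
theorem curv {K : Type u} [Field K] [IsAlgClosed K] {A : Scheme.{u}}
    {f : A ⟶ Spec (CommRingCat.of K)} (G : RelativeGroupLaw K f) (g : ℕ)
    [SmoothOfRelativeDimension g f] [IsProper f] [IrreducibleSpace A] :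
    CurvStatement G g :=
  curvStatement (f1Input K) G g

end Fermat.Agent.AV.Curv33.CurvMain87
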