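/-
Fermat/Agent/AV/Curv33/CurvBundle87.lean (helper87) -- programme AV (S26 + S27), brick CURV:
`CurvStatement` under the literal hypotheses of S26 (`AbelianSchemePropertyBundle`).
-/
import Mathlib
import Fermat.Agent.AV.Curv33.Curv87
import Fermat.Agent.AV.Var81.Wrap

set_option autoImplicit false

open CategoryTheory CategoryTheory.Limits AlgebraicGeometry NeronModelInfra GoodReductionJacobian

universe u

noncomputable section

namespace Fermat.Agent.AV.Curv33.CurvMain87

/-- **CURV under the hypotheses of S26.** -/
theorem curv_of_bundle {K : Type u} [Field K] [IsAlgClosed K] {A : Scheme.{u}}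
    {f : A ⟶ Spec (CommRingCat.of K)} (G : RelativeGroupLaw K f)
    (hA : AbelianSchemePropertyBundle K f) (g : ℕ) [SmoothOfRelativeDimension g f] :
    CurvStatement G g := by
  have : IsProper f := hA.proper
  have : IsIntegral A := Fermat.Agent.AV.Var81.isIntegral_of_bundle f hA
  exact curv G g

end Fermat.Agent.AV.Curv33.CurvMain87
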