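/-
Fermat/Agent/AV/Curv33/GermAlg42.lean  (helper42) -- programme AV (S26), brick CURV, part (a) GERM,
ALGEBRAIC CORE (Mathlib only).

Setting: `K` a field, `T` an étale `K[X]`-algebra (in the application
`T = K[X] ⊗[K[x₁..x_g]] Γ(U)`, the coordinate ring of `U ×_{𝔸^g} (i-th axis)` for étale
coordinates `ψ : U ⟶ 𝔸^g`), `χ : T →ₐ[K] K` a `K`-point.

* `isDomain_of_maximalIdeal_eq_span_singleton` : noetherian local + maximal ideal generated by a
  nonzerodivisor ⇒ domain (no regular local rings needed);
* `exists_away_isDomain` : `R_p` a domain, `R` noetherian ⇒ `R[1/h]` a domain for some `h ∉ p`;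
* `isDomain_localization_atPrime_of_etale` : étale over a noetherian domain `Q`, at a prime lying
  over a nonzero principal prime `(ϖ)`: the local ring is a domain with maximal ideal `(ϖ)`;
* `Point.*` : the case `Q = K[X]`, `q = ker χ`: local ring = DVR with uniformiser `X - χ X`,
  and `∃ h, χ h ≠ 0 ∧ IsDomain (Localization.Away h)` (the integral affine curve germ `W_i`);
* `transcendental_algebraMap_X`, `formallyEtale_adjoin_simple`, `finite_isSeparable_adjoin_simple`:
  for an étale `K[X]`-DOMAIN `D` with fraction field `F`: `x` is transcendental over `K` and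
  `F / K(x)` is finite separable (the hypotheses under which F1 builds the complete model).
-/
import Mathlib

set_option autoImplicit false

open IsLocalRing Polynomial IntermediateField

namespace Fermat.Agent.AV.Curv33.GermAlg42

/-- A noetherian local ring whose maximal ideal is generated by a nonzerodivisor is a domain. -/
theorem isDomain_of_maximalIdeal_eq_span_singleton {S : Type*} [CommRing S] [IsLocalRing S]
    [IsNoetherianRing S] (π : S) (hπ : π ∈ nonZeroDivisors S)
    (hm : maximalIdeal S = Ideal.span {π}) : IsDomain S := by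
  have hkrull : ⨅ n : ℕ, maximalIdeal S ^ n = ⊥ :=
    Ideal.iInf_pow_eq_bot_of_isLocalRing _ (maximalIdeal.isMaximal S).ne_top
  -- every nonzero element is a unit times a power of `π`
  have key : ∀ x : S, x ≠ 0 → ∃ (n : ℕ) (u : S), IsUnit u ∧ x = u * π ^ n := by
    intro x hx
    have : ∃ n : ℕ, x ∉ maximalIdeal S ^ n := by
      by_contra hcon
      push Not at hcon
      have : x ∈ ⨅ n : ℕ, maximalIdeal S ^ n := by
        rw [Ideal.mem_iInf]; exact hcon
      rw [hkrull] at this
      exact hx (by simpa using this)
    classical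
    let n := Nat.find this
    have hn : x ∉ maximalIdeal S ^ n := Nat.find_spec this
    have hn0 : n ≠ 0 := by
      intro h0
      rw [h0, pow_zero, Ideal.one_eq_top] at hn
      exact hn trivial
    obtain ⟨k, hk⟩ := Nat.exists_eq_succ_of_ne_zero hn0
    have hk' : x ∈ maximalIdeal S ^ k := by
      by_contra hcon
      have := Nat.find_min' this hcon
      omega
    rw [hm, Ideal.span_singleton_pow, Ideal.mem_span_singleton'] at hk'
    obtain ⟨u, hu⟩ := hk'
    refine ⟨k, u, ?_, hu.symm⟩
    by_contra hnu
    have hum : u ∈ maximalIdeal S := (IsLocalRing.mem_maximalIdeal u).2 hnu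
    rw [hm, Ideal.mem_span_singleton'] at hum
    obtain ⟨v, hv⟩ := hum
    apply hn
    rw [hk, hm, Ideal.span_singleton_pow, Ideal.mem_span_singleton']
    refine ⟨v, ?_⟩
    rw [← hu, ← hv, pow_succ]; ring
  have hpow : ∀ n : ℕ, π ^ n ∈ nonZeroDivisors S := fun n => pow_mem hπ n
  have hnzd : NoZeroDivisors S := by
    refine ⟨fun {x y} hxy => ?_⟩
    by_contra hcon
    rw [not_or] at hcon
    obtain ⟨n, u, hu, rfl⟩ := key x hcon.1
    obtain ⟨n', u', hu', rfl⟩ := key y hcon.2
    have h1 : (u * u') * π ^ (n + n') = 0 := by rw [← hxy, pow_add]; ring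
    have h2 : u * u' = 0 := (mem_nonZeroDivisors_iff_right.1 (hpow (n + n'))) _ h1
    exact (hu.mul hu').ne_zero h2
  exact NoZeroDivisors.to_isDomain S

/-- If the localisation of a noetherian ring at a prime `p` is a domain, then so is the
localisation away from some `h ∉ p`. -/
theorem exists_away_isDomain {R : Type*} [CommRing R] [IsNoetherianRing R] (p : Ideal R)
    [p.IsPrime] [IsDomain (Localization.AtPrime p)] :
    ∃ h : R, h ∉ p ∧ IsDomain (Localization.Away h) := by
  classical
  let N : Ideal R := RingHom.ker (algebraMap R (Localization.AtPrime p))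
  have hNfg : N.FG := IsNoetherian.noetherian N
  -- one element killing the kernel
  have hkill : ∃ h : R, h ∉ p ∧ ∀ x ∈ N, h * x = 0 := by
    obtain ⟨s, hs⟩ := hNfg
    have h1 : ∀ x ∈ s, ∃ t : R, t ∉ p ∧ t * x = 0 := by
      intro x hx
      have hxN : x ∈ N := hs ▸ Ideal.subset_span hx
      have hx0 : algebraMap R (Localization.AtPrime p) x = 0 := hxN
      obtain ⟨t, ht⟩ := (IsLocalization.map_eq_zero_iff p.primeCompl _ x).1 hx0
      exact ⟨t.1, t.2, ht⟩
    choose! t ht using h1
    refine ⟨∏ x ∈ s, t x, ?_, ?_⟩
    · intro hmem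
      obtain ⟨x, hx, hxp⟩ := (Ideal.IsPrime.prod_mem_iff).1 hmem
      exact (ht x hx).1 hxp
    · intro x hx
      rw [← hs] at hx
      refine Submodule.span_induction (p := fun x _ => (∏ x ∈ s, t x) * x = 0) ?_ ?_ ?_ ?_ hx
      · intro y hy
        rw [← Finset.mul_prod_erase s t hy, mul_comm (t y), mul_assoc, (ht y hy).2, mul_zero]
      · simp
      · intro x y _ _ hx hy; rw [mul_add, hx, hy, add_zero]
      · intro a x _ hx
        rw [smul_eq_mul, mul_left_comm, hx, mul_zero]
  obtain ⟨h, hhp, hh⟩ := hkill
  refine ⟨h, hhp, ?_⟩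
  have hunit : IsUnit (algebraMap R (Localization.AtPrime p) h) :=
    IsLocalization.map_units (M := p.primeCompl) _ ⟨h, hhp⟩
  let φ : Localization.Away h →+* Localization.AtPrime p := IsLocalization.Away.lift h hunit
  have hφ : Function.Injective φ := by
    rw [injective_iff_map_eq_zero]
    intro z hz
    obtain ⟨n, a, hza⟩ := IsLocalization.Away.surj (S := Localization.Away h) h z
    have hφa : algebraMap R (Localization.AtPrime p) a = 0 := by
      have := congrArg φ hza
      rw [map_mul, hz, zero_mul, IsLocalization.Away.lift_eq] at this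
      exact this.symm
    have hha : h * a = 0 := hh a hφa
    have hu : IsUnit (algebraMap R (Localization.Away h) h) :=
      IsLocalization.Away.algebraMap_isUnit h
    have ha0 : algebraMap R (Localization.Away h) a = 0 := by
      have : algebraMap R (Localization.Away h) h * algebraMap R (Localization.Away h) a = 0 := by
        rw [← map_mul, hha, map_zero]
      exact (hu.mul_right_eq_zero).1 this
    rw [ha0] at hza
    exact ((hu.pow n).mul_left_eq_zero).1 hza
  exact hφ.isDomain φ

/-- Étale over a noetherian domain, at a prime lying over a nonzero principal prime: the local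
ring is a domain whose maximal ideal is generated by the uniformiser of the base. -/
theorem isDomain_localization_atPrime_of_etale
    {Q T : Type*} [CommRing Q] [IsDomain Q] [IsNoetherianRing Q] [CommRing T] [Algebra Q T]
    [Algebra.Etale Q T] (q : Ideal T) [q.IsPrime] (ϖ : Q) (hϖ0 : ϖ ≠ 0)
    (hp : q.under Q = Ideal.span {ϖ}) :
    IsDomain (Localization.AtPrime q) ∧
      maximalIdeal (Localization.AtPrime q) =
        Ideal.span {algebraMap Q (Localization.AtPrime q) ϖ} := by
  let p : Ideal Q := q.under Q
  have : q.LiesOver p := ⟨rfl⟩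
  let _ := Localization.AtPrime.algebraOfLiesOver p q
  have hfp : Algebra.FinitePresentation Q T := inferInstance
  have hft : Algebra.FiniteType Q T := inferInstance
  have : Algebra.EssFiniteType Q T := inferInstance
  have hunr : Algebra.IsUnramifiedAt Q q := inferInstance
  have hmax : p.map (algebraMap Q (Localization.AtPrime q)) = maximalIdeal _ :=
    ((Algebra.isUnramifiedAt_iff_map_eq Q p q).1 hunr).2
  have hmax' : maximalIdeal (Localization.AtPrime q) =
      Ideal.span {algebraMap Q (Localization.AtPrime q) ϖ} := by
    rw [← hmax, show p = Ideal.span {ϖ} from hp, Ideal.map_span, Set.image_singleton]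
  refine ⟨?_, hmax'⟩
  have : IsNoetherianRing T := Algebra.FiniteType.isNoetherianRing Q T
  have : IsNoetherianRing (Localization.AtPrime q) :=
    IsLocalization.isNoetherianRing q.primeCompl _ inferInstance
  have hflatT : Module.Flat Q T := inferInstance
  have : Module.Flat T (Localization.AtPrime q) := IsLocalization.flat _ q.primeCompl
  have : Module.Flat Q (Localization.AtPrime q) := Module.Flat.trans Q T _
  have hreg : IsSMulRegular (Localization.AtPrime q) ϖ :=
    Module.Flat.isSMulRegular_of_nonZeroDivisors (mem_nonZeroDivisors_of_ne_zero hϖ0)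
  refine isDomain_of_maximalIdeal_eq_span_singleton _ ?_ hmax'
  rw [mem_nonZeroDivisors_iff_right]
  intro s hs
  apply hreg
  show ϖ • s = ϖ • (0 : Localization.AtPrime q)
  rw [smul_zero, Algebra.smul_def, mul_comm]
  exact hs

/-- In the situation of `isDomain_localization_atPrime_of_etale`, the local ring is a discrete
valuation ring. -/
theorem isDiscreteValuationRing_localization_atPrime_of_etale
    {Q T : Type*} [CommRing Q] [IsDomain Q] [IsNoetherianRing Q] [CommRing T] [Algebra Q T]
    [Algebra.Etale Q T] (q : Ideal T) [q.IsPrime] (ϖ : Q) (hϖ0 : ϖ ≠ 0)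
    (hp : q.under Q = Ideal.span {ϖ}) :
    haveI := (isDomain_localization_atPrime_of_etale q ϖ hϖ0 hp).1
    IsDiscreteValuationRing (Localization.AtPrime q) := by
  have hD := (isDomain_localization_atPrime_of_etale q ϖ hϖ0 hp).1
  have hmax := (isDomain_localization_atPrime_of_etale q ϖ hϖ0 hp).2
  have : IsNoetherianRing T := Algebra.FiniteType.isNoetherianRing Q T
  have : IsNoetherianRing (Localization.AtPrime q) :=
    IsLocalization.isNoetherianRing q.primeCompl _ inferInstance
  have : Module.Flat T (Localization.AtPrime q) := IsLocalization.flat _ q.primeCompl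
  have : Module.Flat Q (Localization.AtPrime q) := Module.Flat.trans Q T _
  have hreg : IsSMulRegular (Localization.AtPrime q) ϖ :=
    Module.Flat.isSMulRegular_of_nonZeroDivisors (mem_nonZeroDivisors_of_ne_zero hϖ0)
  have hne : algebraMap Q (Localization.AtPrime q) ϖ ≠ 0 := by
    intro h0
    have : ϖ • (1 : Localization.AtPrime q) = ϖ • (0 : Localization.AtPrime q) := by
      rw [smul_zero, Algebra.smul_def, mul_one, h0]
    exact one_ne_zero (hreg this)
  have hnf : ¬ IsField (Localization.AtPrime q) := by
    intro hf
    have hbot := (IsLocalRing.isField_iff_maximalIdeal_eq.1 hf)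
    rw [hmax, Ideal.span_singleton_eq_bot] at hbot
    exact hne hbot
  refine ((IsDiscreteValuationRing.TFAE (Localization.AtPrime q) hnf).out 4 0).1 ?_
  rw [hmax]
  exact ⟨⟨_, rfl⟩⟩

section Point

variable {K T : Type*} [Field K] [CommRing T] [Algebra K[X] T] [Algebra.Etale K[X] T]
  [Algebra K T] [IsScalarTower K K[X] T] (χ : T →ₐ[K] K)

omit [Algebra.Etale K[X] T] in
/-- The prime of `K[X]` under a `K`-point `χ` of `T` is `(X - χ X)`. -/
theorem under_ker_eq_span :
    (RingHom.ker (χ : T →+* K)).under K[X] =
      Ideal.span {(X - C (χ (algebraMap K[X] T X)) : K[X])} := by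
  have hcomp : χ.comp (IsScalarTower.toAlgHom K K[X] T) = aeval (χ (algebraMap K[X] T X)) := by
    apply Polynomial.algHom_ext
    simp
  ext f
  rw [Ideal.under_def, Ideal.mem_comap, RingHom.mem_ker, Ideal.mem_span_singleton,
    Polynomial.dvd_iff_isRoot, IsRoot.def]
  have : (χ : T →+* K) (algebraMap K[X] T f) = (χ.comp (IsScalarTower.toAlgHom K K[X] T)) f := rfl
  rw [this, hcomp, coe_aeval_eq_eval]

instance isPrime_ker_point : (RingHom.ker (χ : T →+* K)).IsPrime := RingHom.ker_isPrime _

/-- The local ring of an étale `K[X]`-algebra at a `K`-point is a domain. -/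
theorem isDomain_localization_point :
    IsDomain (Localization.AtPrime (RingHom.ker (χ : T →+* K))) :=
  (isDomain_localization_atPrime_of_etale (Q := K[X]) (RingHom.ker (χ : T →+* K))
    (X - C (χ (algebraMap K[X] T X))) (X_sub_C_ne_zero _) (under_ker_eq_span χ)).1

/-- The maximal ideal of the local ring at a `K`-point is generated by `X - χ X`. -/
theorem maximalIdeal_localization_point :
    maximalIdeal (Localization.AtPrime (RingHom.ker (χ : T →+* K))) =
      Ideal.span {algebraMap K[X] (Localization.AtPrime (RingHom.ker (χ : T →+* K)))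
        (X - C (χ (algebraMap K[X] T X)))} :=
  (isDomain_localization_atPrime_of_etale (Q := K[X]) (RingHom.ker (χ : T →+* K))
    (X - C (χ (algebraMap K[X] T X))) (X_sub_C_ne_zero _) (under_ker_eq_span χ)).2

/-- The local ring of an étale `K[X]`-algebra at a `K`-point is a discrete valuation ring. -/
theorem isDiscreteValuationRing_localization_point :
    haveI := isDomain_localization_point χ
    IsDiscreteValuationRing (Localization.AtPrime (RingHom.ker (χ : T →+* K))) :=
  isDiscreteValuationRing_localization_atPrime_of_etale (Q := K[X]) (RingHom.ker (χ : T →+* K))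
    (X - C (χ (algebraMap K[X] T X))) (X_sub_C_ne_zero _) (under_ker_eq_span χ)

/-- **The curve germ.**  Around a `K`-point, an étale `K[X]`-algebra is a domain: there is `h`
with `χ h ≠ 0` such that `T[1/h]` is a domain. -/
theorem exists_away_isDomain_point :
    ∃ h : T, χ h ≠ 0 ∧ IsDomain (Localization.Away h) := by
  have : IsNoetherianRing T := Algebra.FiniteType.isNoetherianRing K[X] T
  have := isDomain_localization_point χ
  obtain ⟨h, hh, hD⟩ := exists_away_isDomain (RingHom.ker (χ : T →+* K))
  exact ⟨h, fun h0 => hh (RingHom.mem_ker.2 h0), hD⟩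

end Point

section FunctionField

/-- An étale `K[X]`-algebra which is a domain is torsion free: `K[X] → D` is injective. -/
theorem algebraMap_injective_of_etale {K D : Type*} [Field K] [CommRing D] [IsDomain D]
    [Algebra K[X] D] [Algebra.Etale K[X] D] : Function.Injective (algebraMap K[X] D) := by
  rw [injective_iff_map_eq_zero]
  intro f hf
  by_contra hf0
  have hreg : IsSMulRegular D f :=
    Module.Flat.isSMulRegular_of_nonZeroDivisors (mem_nonZeroDivisors_of_ne_zero hf0)
  have : f • (1 : D) = f • (0 : D) := by
    rw [smul_zero, Algebra.smul_def, mul_one, hf]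
  exact one_ne_zero (hreg this)

variable {K : Type*} (D : Type*) {F : Type*} [Field K] [CommRing D] [IsDomain D] [Field F]
  [Algebra K[X] D] [Algebra.Etale K[X] D] [Algebra D F] [IsFractionRing D F]
  [Algebra K[X] F] [IsScalarTower K[X] D F] [Algebra K F] [IsScalarTower K K[X] F]

include D in
omit [Algebra K F] [IsScalarTower K K[X] F] in
theorem algebraMap_injective_fractionField : Function.Injective (algebraMap K[X] F) := by
  rw [IsScalarTower.algebraMap_eq K[X] D F]
  exact (IsFractionRing.injective D F).comp algebraMap_injective_of_etale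

omit [IsDomain D] [Algebra.Etale K[X] D] [Algebra D F] [IsFractionRing D F]
  [IsScalarTower K[X] D F] in
theorem aeval_algebraMap_X_eq :
    (aeval (algebraMap K[X] F X) : K[X] →ₐ[K] F) = IsScalarTower.toAlgHom K K[X] F := by
  apply Polynomial.algHom_ext
  simp

include D in
/-- The coordinate `x = X` is transcendental in the function field. -/
theorem transcendental_algebraMap_X : Transcendental K (algebraMap K[X] F X) := by
  rw [transcendental_iff_injective, aeval_algebraMap_X_eq]
  exact algebraMap_injective_fractionField D

include D in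
/-- The function field of an étale `K[X]`-domain is formally étale over `K(x)`. -/
theorem formallyEtale_adjoin_simple :
    Algebra.FormallyEtale K⟮algebraMap K[X] F X⟯ F := by
  classical
  have htr : Transcendental K (algebraMap K[X] F X) := transcendental_algebraMap_X D
  set x : F := algebraMap K[X] F X with hx
  -- `K[X] → K(x)`
  let φ : K[X] →ₐ[K] K⟮x⟯ := aeval (AdjoinSimple.gen K x)
  let _ : Algebra K[X] K⟮x⟯ := φ.toRingHom.toAlgebra
  have htower : IsScalarTower K[X] K⟮x⟯ F := by
    refine IsScalarTower.of_algebraMap_eq fun f => ?_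
    show algebraMap K[X] F f = ((aeval (AdjoinSimple.gen K x) f : K⟮x⟯) : F)
    rw [AdjoinSimple.coe_aeval_gen_apply, hx, aeval_algebraMap_X_eq]
    rfl
  -- `K(x)` is the fraction field of `K[X]`
  let e : RatFunc K ≃ₐ[K[X]] K⟮x⟯ :=
    AlgEquiv.ofRingEquiv (f := (RatFunc.algEquivOfTranscendental x htr).toRingEquiv) (by
      intro g
      exact RatFunc.algEquivOfTranscendental_algebraMap x htr g)
  have hloc : IsLocalization (nonZeroDivisors K[X]) K⟮x⟯ :=
    IsLocalization.isLocalization_of_algEquiv _ e
  have h1 : Algebra.FormallyEtale D F := Algebra.FormallyEtale.of_isLocalization (nonZeroDivisors D)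
  have h2 : Algebra.FormallyEtale K[X] F := Algebra.FormallyEtale.comp K[X] D F
  exact Algebra.FormallyEtale.localization_base (nonZeroDivisors K[X])

include D in
omit [IsDomain D] in
theorem essFiniteType_fractionField : Algebra.EssFiniteType K F := by
  have : Algebra.EssFiniteType K[X] D := inferInstance
  have : Algebra.EssFiniteType D F := Algebra.EssFiniteType.of_isLocalization F (nonZeroDivisors D)
  have : Algebra.EssFiniteType K[X] F := Algebra.EssFiniteType.comp K[X] D F
  exact Algebra.EssFiniteType.comp K K[X] F

include D in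
/-- The function field of an étale `K[X]`-domain is finite separable over `K(x)`. -/
theorem finite_isSeparable_adjoin_simple :
    FiniteDimensional K⟮algebraMap K[X] F X⟯ F ∧ Algebra.IsSeparable K⟮algebraMap K[X] F X⟯ F := by
  have h1 : Algebra.FormallyEtale K⟮algebraMap K[X] F X⟯ F := formallyEtale_adjoin_simple D
  have h2 : Algebra.EssFiniteType K F := essFiniteType_fractionField D
  have h3 : Algebra.EssFiniteType K⟮algebraMap K[X] F X⟯ F :=
    Algebra.EssFiniteType.of_comp K _ F
  exact ⟨Algebra.FormallyUnramified.finite_of_free _ _,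
    (Algebra.FormallyEtale.iff_isSeparable _ _).1 h1⟩

end FunctionField

end Fermat.Agent.AV.Curv33.GermAlg42
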