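/-
Fermat/Agent/AV/Curv33/GermAxis42Away.lean (helper42) -- programme AV (S26), brick CURV, step (a) GERM:
the AXIS + TANGENT statement in the shape requested by helper87 (localisations `E_i[1/s_i]` with the
point as a variable), derived from `existsUnique_tangent_sum`.
-/
import Fermat.Agent.AV.Curv33.GermAxis42

set_option autoImplicit false

open Polynomial TensorProduct TrivSqZeroExt

universe u

noncomputable section

namespace Fermat.Agent.AV.Curv33.GermAxis42

/-- **(A) AXIS + (B) TANGENT**, localisation form: there are `g` axes through `χ` such that for any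
localisations `E_i[1/s_i]` with `K`-points `p i` over `pt_i`, every tangent vector of `B` at `χ`
is uniquely a sum of tangent vectors of the `E_i[1/s_i]` at the `p i`. -/
theorem exists_axes (K : Type u) [Field K] (B : Type u) [CommRing B] [Algebra K B] (g : ℕ)
    [Algebra.IsStandardSmoothOfRelativeDimension g K B] (χ : B →ₐ[K] K) :
    ∃ A : Fin g → AxisAlg K B χ,
      ∀ (s : ∀ i, (A i).E) (p : ∀ i, Localization.Away (s i) →ₐ[K] K)
        (_ : ∀ i, (p i).comp (IsScalarTower.toAlgHom K (A i).E (Localization.Away (s i))) =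
          (A i).pt),
        ∀ τ' : B →ₐ[K] TrivSqZeroExt K K, (fstHom K K K).comp τ' = χ →
          ∃! τ : ∀ i, Localization.Away (s i) →ₐ[K] TrivSqZeroExt K K,
            (∀ i, (fstHom K K K).comp (τ i) = p i) ∧
              ∀ b : B, (τ' b).snd =
                ∑ i, (τ i (algebraMap (A i).E (Localization.Away (s i)) ((A i).π b))).snd := by
  obtain ⟨θ, hθ⟩ := Algebra.IsStandardSmoothOfRelativeDimension.exists_etale_mvPolynomial g K B
  have hθ' : (θ : MvPolynomial (Fin g) K →+* B).FormallyEtale := by
    have : Algebra.Etale (MvPolynomial (Fin g) K) (Chart K θ) := hθ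
    exact (inferInstance : Algebra.FormallyEtale (MvPolynomial (Fin g) K) (Chart K θ))
  refine ⟨fun i => axisAlg K θ hθ χ i, fun s p hp τ' hτ' => ?_⟩
  refine existsUnique_tangent_sum θ hθ' χ (R := fun i => Localization.Away (s i))
    (fun i => (IsScalarTower.toAlgHom K (axisAlg K θ hθ χ i).E (Localization.Away (s i))).comp
      (IsScalarTower.toAlgHom K K[X] (axisAlg K θ hθ χ i).E))
    (fun i => ?_)
    (fun i => (IsScalarTower.toAlgHom K (axisAlg K θ hθ χ i).E (Localization.Away (s i))).comp
      (axisAlg K θ hθ χ i).π)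
    p (fun i => ?_) (fun i => ?_) (fun i j hji => ?_) τ' hτ'
  · have h1 : (algebraMap K[X] (axisAlg K θ hθ χ i).E).FormallyEtale :=
      RingHom.formallyEtale_algebraMap.2 inferInstance
    have h2 : (algebraMap (axisAlg K θ hθ χ i).E (Localization.Away (s i))).FormallyEtale :=
      RingHom.formallyEtale_algebraMap.2
        (Algebra.FormallyEtale.of_isLocalization (Submonoid.powers (s i)))
    exact h1.comp h2
  · rw [← AlgHom.comp_assoc, hp i]
    exact (axisAlg K θ hθ χ i).pt_π
  · simp only [AlgHom.comp_apply]
    rw [axisAlg_π_θ, axisHom_X_self]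
    rfl
  · simp only [AlgHom.comp_apply]
    rw [axisAlg_π_θ, axisHom_X_of_ne K _ hji, ← Polynomial.algebraMap_eq,
      ← IsScalarTower.algebraMap_apply K K[X], AlgHom.commutes]

end Fermat.Agent.AV.Curv33.GermAxis42
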