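/-
Fermat/Agent/AV/Curv33/GermIface.lean (helper33) -- programme AV (S26), brick CURV, step (a) GERM:
INTERFACE of the ALGEBRAIC part.

`B` is a standard smooth `K`-algebra of relative dimension `g` (an affine chart of the abelian
variety around the origin), `χ : B →ₐ[K] K` the `K`-point.  A *curve germ* through `χ` is a
`K`-algebra `R` (the coordinate ring of an affine smooth integral curve `W`) with a `K`-algebra
map `π : B → R` (the morphism `W → Spec B`), a `K`-point `pt` of `R` over `χ`, and a coordinate
`x ∈ R` such that `Frac R` is finite separable over `K(x)`, `x` transcendental.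

`GermAlgStatement` : there are `g` curve germs whose tangent lines at the point span the tangent
space of `B` at `χ`: every `K[ε]`-point of `B` over `χ` is uniquely a sum of `K[ε]`-points of the
germs.  (Proof: étale coordinates `K[X₁..X_g] → B` vanishing at `χ`
(`Algebra.IsStandardSmoothOfRelativeDimension.exists_etale_mvPolynomial`), `R i` := a domain
localisation around the point of `K[X] ⊗[K[X₁..X_g]] B` (`X_j ↦ 0` for `j ≠ i`, `X_i ↦ X`), which
is étale over `K[X]`.)
-/
import Mathlib

set_option autoImplicit false

open TrivSqZeroExt IntermediateField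

universe u

noncomputable section

namespace Fermat.Agent.AV.Curv33

/-- An affine smooth integral curve through the `K`-point `χ` of `B`, with a separating
coordinate. -/
structure CurveGermAlg (K : Type u) [Field K] (B : Type u) [CommRing B] [Algebra K B]
    (χ : B →ₐ[K] K) where
  /-- the coordinate ring of the curve germ -/
  R : Type u
  [commRing : CommRing R]
  [algebra : Algebra K R]
  [isDomain : IsDomain R]
  [finiteType : Algebra.FiniteType K R]
  smooth : Algebra.Smooth K R
  dedekind : IsDedekindDomain R
  /-- the morphism of the curve to the chart -/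
  π : B →ₐ[K] R
  /-- the point of the curve -/
  pt : R →ₐ[K] K
  pt_π : pt.comp π = χ
  /-- the separating coordinate -/
  x : R
  x_transc : Transcendental K (algebraMap R (FractionRing R) x)
  finite : FiniteDimensional K⟮algebraMap R (FractionRing R) x⟯ (FractionRing R)
  separable : Algebra.IsSeparable K⟮algebraMap R (FractionRing R) x⟯ (FractionRing R)

attribute [instance] CurveGermAlg.commRing CurveGermAlg.algebra CurveGermAlg.isDomain
  CurveGermAlg.finiteType

/-- The tangent condition: every `K[ε]`-point `τ'` of `B` over `χ` is, in a unique way, the sum of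
`K[ε]`-points `τ i` of the germs over their base points (the sum is taken on the `ε`-parts). -/
def GermsSpan {K : Type u} [Field K] {B : Type u} [CommRing B] [Algebra K B]
    {χ : B →ₐ[K] K} {g : ℕ} (W : Fin g → CurveGermAlg K B χ) : Prop :=
  ∀ τ' : B →ₐ[K] TrivSqZeroExt K K, (fstHom K K K).comp τ' = χ →
    ∃! τ : ∀ i, (W i).R →ₐ[K] TrivSqZeroExt K K,
      (∀ i, (fstHom K K K).comp (τ i) = (W i).pt) ∧
        ∀ b : B, (τ' b).snd = ∑ i, (τ i ((W i).π b)).snd

/-- **CURV (a) GERM, algebraic part.** -/
def GermAlgStatement : Prop :=
  ∀ (K : Type u) [Field K] [IsAlgClosed K] (B : Type u) [CommRing B] [Algebra K B] (g : ℕ)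
    [Algebra.IsStandardSmoothOfRelativeDimension g K B] (χ : B →ₐ[K] K),
    ∃ W : Fin g → CurveGermAlg K B χ, GermsSpan W

end Fermat.Agent.AV.Curv33
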