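/-
Fermat/Agent/AV/Curv33/Transl42.lean (helper42) -- programme AV (S26), brick CURV:
the TRANSLATION `GermsSpan W ⇒ hbij`.

The algebraic tangent condition `GermsSpan W` on curve germs `W i` through the `K`-point `χ` of an
affine chart `j : Spec B ⟶ A` (an open immersion over `K` with `j(χ) = e`) gives the bijectivity of
the sum of the tangent maps of the pointed schemes `germPtd j hj e hχ (W i)` in the tangent-space
language of `Basics88/TangentSpace.lean`, in the shape consumed by
`SumTangentGen.isDominant_sumMap_ofFn`.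

* `nat_add`, `nat_smul`   : a natural (in the module of values) parametrisation of tangent vectors
                            by point derivations is additive and homogeneous;
* `affTS`, `affL`         : (CH1) for `X = Spec R`, `DerAt (algebraMap K R) χ K ≃ₗ[K] TSpace (str K R) x`
                            (`x.1 = specOf χ`), `(affL hx δ).pt.1 = Spec.map (toHom δ)`;
* `derComap`, `tmap_specOf` : (CH2) the tangent map of `specOf π` is composition with `π`;
* `tmap_bijective_of_isOpenImmersion` : (CH3) the tangent map of an (arbitrary) immersion which is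
                            an isomorphism onto an open subscheme is bijective;
* `derSum`, `derSum_bijective` : `GermsSpan W` says that `(δ i) ↦ ∑ i, δ i ∘ π i` is bijective;
* `bijective_sum_tmap_germPtd` : the translation.
-/
import Fermat.Agent.AV.Curv33.GermScheme33
import Fermat.Agent.AV.Basics88.SumTangentGen

set_option autoImplicit false

open CategoryTheory CategoryTheory.Limits AlgebraicGeometry NeronModelInfra GoodReductionJacobian
  TrivSqZeroExt

noncomputable section

namespace Fermat.Agent.AV.Curv33.Transl42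

open Fermat.Agent.AV.Basics88.DualPoints Fermat.Agent.AV.Basics88.TangentSpace
  Fermat.Agent.AV.Basics88.PointDer Fermat.Agent.AV.Basics88.EtaleScheme

universe u

/-! ### Linearity of a natural parametrisation of tangent vectors by point derivations -/

section Nat

variable {K : Type u} [Field K] {X : Scheme.{u}} {fX : X ⟶ Spec (CommRingCat.of K)} {x : Pt fX K}
  {C : Type u} [CommRing C] {ι : K →+* C} {χ : C →+* K}
  (E : ∀ (M : Type u) [AddCommGroup M] [Module K M] [Module Kᵐᵒᵖ M] [IsCentralScalar K M],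
    DerAt ι χ M → TS fX x M)
  (hE : ∀ (M N : Type u) [AddCommGroup M] [Module K M] [Module Kᵐᵒᵖ M] [IsCentralScalar K M]
    [AddCommGroup N] [Module K N] [Module Kᵐᵒᵖ N] [IsCentralScalar K N] (u : M →ₗ[K] N)
    (δ : DerAt ι χ M), TS.map u (E M δ) = E N (DerAt.mapL u δ))

include hE in
theorem nat_add (δ δ' : DerAt ι χ K) :
    TSpace.mk (E K (δ + δ')) = TSpace.mk (E K δ) + TSpace.mk (E K δ') := by
  have h := TSpace.add_def (E (K × K) (DerAt.pair δ δ'))
  rw [hE, hE, hE, DerAt.mapL_coprod, DerAt.mapL_fst_pair, DerAt.mapL_snd_pair] at h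
  exact h

include hE in
theorem nat_smul (c : K) (δ : DerAt ι χ K) :
    TSpace.mk (E K (c • δ)) = c • TSpace.mk (E K δ) := by
  rw [TSpace.smul_def]
  change _ = TSpace.mk (TS.map _ (E K δ))
  rw [hE, DerAt.mapL_smul_id]

end Nat

/-! ### Tangent vectors of an affine scheme -/

section Affine

variable {K : Type u} [Field K] {R : Type u} [CommRing R] [Algebra K R] {χ : R →ₐ[K] K}
  {x : Pt (str K R) K} (hx : x.1 = specOf χ)

section TS

variable (M : Type u) [AddCommGroup M] [Module K M] [Module Kᵐᵒᵖ M] [IsCentralScalar K M]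

/-- The tangent vector of `Spec R` attached to a point derivation of `R`. -/
def affTS (δ : DerAt (algebraMap K R) χ.toRingHom M) : TS (str K R) x M :=
  ⟨⟨Spec.map (CommRingCat.ofHom (DerAt.toHom δ)), by
      rw [str, str, ← Spec.map_comp, ← CommRingCat.ofHom_comp]
      exact congrArg (fun φ => Spec.map (CommRingCat.ofHom φ))
        (DerAt.toHom_comp_ι χ.comp_algebraMap δ)⟩, by
    apply Subtype.ext
    rw [Pt.map_coe, hx, specOf, specOf, ← Spec.map_comp, ← CommRingCat.ofHom_comp]
    exact congrArg (fun φ => Spec.map (CommRingCat.ofHom φ)) (DerAt.fstHom_comp_toHom δ)⟩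

theorem affTS_coe (δ : DerAt (algebraMap K R) χ.toRingHom M) :
    (affTS hx M δ).1.1 = Spec.map (CommRingCat.ofHom (DerAt.toHom δ)) := rfl

theorem affTS_injective : Function.Injective (affTS hx M) := by
  intro δ δ' h
  have h1 : (affTS hx M δ).1.1 = (affTS hx M δ').1.1 := congrArg (fun t => t.1.1) h
  rw [affTS_coe, affTS_coe] at h1
  have h2 := Spec.map_injective h1
  exact DerAt.toHom_injective (congrArg CommRingCat.Hom.hom h2)

theorem affTS_surjective : Function.Surjective (affTS hx M) := by
  intro t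
  let ψ : R →+* TrivSqZeroExt K M := (Spec.preimage t.1.1).hom
  have hψt : Spec.map (CommRingCat.ofHom ψ) = t.1.1 := Spec.map_preimage t.1.1
  have h1 : ψ.comp (algebraMap K R) = algebraMap K (TrivSqZeroExt K M) := by
    have h := t.1.2
    rw [← hψt, str, str, ← Spec.map_comp, ← CommRingCat.ofHom_comp] at h
    exact congrArg CommRingCat.Hom.hom (Spec.map_injective h)
  have h2 : (fstHom K K M).toRingHom.comp ψ = χ.toRingHom := by
    have h := congrArg Subtype.val t.2
    rw [Pt.map_coe, hx, ← hψt, specOf, specOf, ← Spec.map_comp, ← CommRingCat.ofHom_comp] at h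
    exact congrArg CommRingCat.Hom.hom (Spec.map_injective h)
  refine ⟨DerAt.ofHom ψ h1 h2, ?_⟩
  apply TS.ext
  apply Subtype.ext
  rw [affTS_coe, DerAt.toHom_ofHom, hψt]

variable {M}

theorem affTS_map {N : Type u} [AddCommGroup N] [Module K N] [Module Kᵐᵒᵖ N]
    [IsCentralScalar K N] (u : M →ₗ[K] N) (δ : DerAt (algebraMap K R) χ.toRingHom M) :
    TS.map u (affTS hx M δ) = affTS hx N (DerAt.mapL u δ) := by
  apply TS.ext
  apply Subtype.ext
  rw [TS.map_coe, Pt.map_coe, affTS_coe, affTS_coe, specOf, ← Spec.map_comp,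
    ← CommRingCat.ofHom_comp, DerAt.map_toHom]

end TS

/-- Point derivations of `R` at `χ` are the tangent vectors of `Spec R` at `χ`, linearly. -/
def affL : DerAt (algebraMap K R) χ.toRingHom K ≃ₗ[K] TSpace (str K R) x :=
  LinearEquiv.ofBijective
    { toFun := fun δ => TSpace.mk (affTS hx K δ)
      map_add' := nat_add (fun M _ _ _ _ => affTS hx M) (fun _ _ _ _ _ _ _ _ _ _ u δ =>
        affTS_map hx u δ)
      map_smul' := nat_smul (fun M _ _ _ _ => affTS hx M) (fun _ _ _ _ _ _ _ _ _ _ u δ =>
        affTS_map hx u δ) }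
    ⟨affTS_injective hx K, affTS_surjective hx K⟩

theorem affL_apply (δ : DerAt (algebraMap K R) χ.toRingHom K) :
    affL hx δ = TSpace.mk (affTS hx K δ) := rfl

theorem affL_pt_coe (δ : DerAt (algebraMap K R) χ.toRingHom K) :
    (affL hx δ).pt.1 = Spec.map (CommRingCat.ofHom (DerAt.toHom δ)) := rfl

end Affine


/-! ### Pulling back point derivations along an algebra homomorphism -/

section Comap

variable {K : Type u} [Field K] {B R : Type u} [CommRing B] [CommRing R] [Algebra K B]
  [Algebra K R] (π : B →ₐ[K] R) {χR : R →ₐ[K] K} {χB : B →ₐ[K] K} (hπ : χR.comp π = χB)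

/-- Composition of a point derivation with an algebra homomorphism. -/
def derComap (M : Type u) [AddCommGroup M] [Module K M] :
    DerAt (algebraMap K R) χR.toRingHom M →ₗ[K] DerAt (algebraMap K B) χB.toRingHom M where
  toFun δ := ⟨fun b => δ.1 (π b), by
    subst hπ
    refine ⟨fun a b => ?_, fun a b => ?_, fun k => ?_⟩
    · beta_reduce
      rw [map_add, DerAt.map_add]
    · beta_reduce
      rw [map_mul, DerAt.leibniz]
      rfl
    · beta_reduce
      rw [AlgHom.commutes, DerAt.map_ι]⟩
  map_add' δ δ' := by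
    ext a
    rfl
  map_smul' c δ := by
    ext a
    rfl

@[simp] theorem derComap_apply {M : Type u} [AddCommGroup M] [Module K M]
    (δ : DerAt (algebraMap K R) χR.toRingHom M) (b : B) :
    (derComap π hπ M δ).1 b = δ.1 (π b) := rfl

theorem toHom_derComap {M : Type u} [AddCommGroup M] [Module K M] [Module Kᵐᵒᵖ M]
    [IsCentralScalar K M] (δ : DerAt (algebraMap K R) χR.toRingHom M) :
    DerAt.toHom (derComap π hπ M δ) = (DerAt.toHom δ).comp π.toRingHom := by
  subst hπ
  refine RingHom.ext fun b => ?_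
  apply TrivSqZeroExt.ext
  · rw [DerAt.fst_toHom, RingHom.comp_apply, DerAt.fst_toHom]
    rfl
  · rw [DerAt.snd_toHom, RingHom.comp_apply, DerAt.snd_toHom]
    rfl

variable {x : Pt (str K R) K} (hx : x.1 = specOf χR) {y : Pt (str K B) K} (hy : y.1 = specOf χB)
  (hxy : Pt.push (specOf π) (specOf_str π) x = y)

/-- **CH2**: the tangent map of `Spec π` is composition with `π`. -/
theorem tmap_specOf (δ : DerAt (algebraMap K R) χR.toRingHom K) :
    tmap (specOf π) (specOf_str π) hxy (affL hx δ) = affL hy (derComap π hπ K δ) := by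
  apply TSpace.ext
  apply Subtype.ext
  rw [tmap_apply_pt, Pt.push_coe, affL_pt_coe, affL_pt_coe, specOf, ← Spec.map_comp,
    ← CommRingCat.ofHom_comp, toHom_derComap]

end Comap

/-! ### The tangent map of an open immersion -/

section OpenImm

variable {K : Type u} [Field K] {X Y : Scheme.{u}} {fX : X ⟶ Spec (CommRingCat.of K)}
  {fY : Y ⟶ Spec (CommRingCat.of K)} (j : X ⟶ Y) [IsOpenImmersion j] (hj : j ≫ fY = fX)
  {x : Pt fX K} {y : Pt fY K} (hxy : Pt.push j hj x = y)

/-- **CH3**: the tangent map of an open immersion is bijective. -/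
theorem tmap_bijective_of_isOpenImmersion : Function.Bijective (tmap j hj hxy) := by
  constructor
  · intro v w h
    have h1 : (tmap j hj hxy v).pt.1 = (tmap j hj hxy w).pt.1 := by rw [h]
    rw [tmap_apply_pt, tmap_apply_pt, Pt.push_coe, Pt.push_coe, cancel_mono] at h1
    exact TSpace.ext (Subtype.ext h1)
  · intro w
    obtain ⟨p⟩ : Nonempty (Spec (CommRingCat.of K)) :=
      inferInstanceAs (Nonempty (PrimeSpectrum K))
    have hr : Set.range w.pt.1 ⊆ Set.range j := by
      rintro _ ⟨q, rfl⟩
      have hq : q = specOf (fstHom K K K) p :=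
        Subsingleton.elim (α := PrimeSpectrum (TrivSqZeroExt K K)) _ _
      have h3 : w.pt.1 (specOf (fstHom K K K) p) = y.1 p := by
        have h := congrArg (fun q : Pt fY K => q.1 p) w.base_pt
        simpa only [Pt.map_coe, Scheme.Hom.comp_apply] using h
      rw [hq, h3, ← hxy, Pt.push_coe, Scheme.Hom.comp_apply]
      exact ⟨_, rfl⟩
    let s := IsOpenImmersion.lift j w.pt.1 hr
    have hs : s ≫ j = w.pt.1 := IsOpenImmersion.lift_fac _ _ _
    have hs2 : s ≫ fX = str K (TrivSqZeroExt K K) := by
      rw [← hj, ← Category.assoc, hs]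
      exact w.pt.2
    have hbase : Pt.map (fstHom K K K) (⟨s, hs2⟩ : Pt fX (TrivSqZeroExt K K)) = x := by
      apply Subtype.ext
      rw [Pt.map_coe, ← cancel_mono j, Category.assoc, hs]
      have h4 := congrArg Subtype.val w.base_pt
      rw [Pt.map_coe] at h4
      rw [h4, ← hxy, Pt.push_coe]
    refine ⟨TSpace.mk ⟨⟨s, hs2⟩, hbase⟩, ?_⟩
    apply TSpace.ext
    apply Subtype.ext
    rw [tmap_apply_pt, Pt.push_coe]
    exact hs

end OpenImm


/-! ### The algebraic tangent condition in terms of point derivations -/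

section Span

variable {K : Type u} [Field K] {C : Type u} [CommRing C] [Algebra K C] {χ : C →ₐ[K] K}

/-- The `K[ε]`-point of `C` attached to a point derivation, as an algebra homomorphism. -/
def derAlgHom (δ : DerAt (algebraMap K C) χ.toRingHom K) : C →ₐ[K] TrivSqZeroExt K K :=
  { DerAt.toHom δ with
    commutes' := fun k => RingHom.congr_fun (DerAt.toHom_comp_ι χ.comp_algebraMap δ) k }

theorem derAlgHom_snd (δ : DerAt (algebraMap K C) χ.toRingHom K) (a : C) :
    (derAlgHom δ a).snd = δ.1 a := DerAt.snd_toHom δ a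

theorem fstHom_comp_derAlgHom (δ : DerAt (algebraMap K C) χ.toRingHom K) :
    (fstHom K K K).comp (derAlgHom δ) = χ :=
  AlgHom.ext fun a => DerAt.fst_toHom δ a

theorem derAlgHom_injective :
    Function.Injective (derAlgHom : DerAt (algebraMap K C) χ.toRingHom K → _) := by
  intro δ δ' h
  ext a
  rw [← derAlgHom_snd, ← derAlgHom_snd, h]

/-- The point derivation of a `K[ε]`-point over `χ`. -/
def algHomDer (τ : C →ₐ[K] TrivSqZeroExt K K) (h : (fstHom K K K).comp τ = χ) :
    DerAt (algebraMap K C) χ.toRingHom K :=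
  DerAt.ofHom τ.toRingHom τ.comp_algebraMap (by rw [← h]; rfl)

theorem algHomDer_apply (τ : C →ₐ[K] TrivSqZeroExt K K) (h : (fstHom K K K).comp τ = χ) (a : C) :
    (algHomDer τ h).1 a = (τ a).snd := rfl

variable {B : Type u} [CommRing B] [Algebra K B] {χ : B →ₐ[K] K} {g : ℕ}
  (W : Fin g → CurveGermAlg K B χ)

/-- The sum of the pullbacks of point derivations of the germs. -/
def derSum : (∀ i, DerAt (algebraMap K (W i).R) (W i).pt.toRingHom K) →ₗ[K]
    DerAt (algebraMap K B) χ.toRingHom K :=
  ∑ i, (derComap (W i).π (W i).pt_π K).comp (LinearMap.proj i)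

theorem derSum_apply (δ : ∀ i, DerAt (algebraMap K (W i).R) (W i).pt.toRingHom K) (b : B) :
    (derSum W δ).1 b = ∑ i, (δ i).1 ((W i).π b) := by
  unfold derSum
  rw [LinearMap.sum_apply, Submodule.coe_sum, Finset.sum_apply]
  rfl

theorem derSum_bijective (hW : GermsSpan W) : Function.Bijective (derSum W) := by
  constructor
  · intro δ δ' h
    obtain ⟨τ, -, huniq⟩ := hW (derAlgHom (derSum W δ)) (fstHom_comp_derAlgHom _)
    have h1 : (fun i => derAlgHom (δ i)) = τ := by
      apply huniq
      refine ⟨fun i => fstHom_comp_derAlgHom _, fun b => ?_⟩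
      rw [derAlgHom_snd, derSum_apply]
      exact Finset.sum_congr rfl fun i _ => (derAlgHom_snd _ _).symm
    have h2 : (fun i => derAlgHom (δ' i)) = τ := by
      apply huniq
      refine ⟨fun i => fstHom_comp_derAlgHom _, fun b => ?_⟩
      rw [derAlgHom_snd, h, derSum_apply]
      exact Finset.sum_congr rfl fun i _ => (derAlgHom_snd _ _).symm
    funext i
    exact derAlgHom_injective (congrFun (h1.trans h2.symm) i)
  · intro δB
    obtain ⟨τ, ⟨h1, h2⟩, -⟩ := hW (derAlgHom δB) (fstHom_comp_derAlgHom _)
    refine ⟨fun i => algHomDer (τ i) (h1 i), ?_⟩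
    ext b
    rw [derSum_apply, ← derAlgHom_snd, h2 b]
    rfl

end Span


/-! ### The translation -/

section Main

open Fermat.Agent.AV.Curv33.GermScheme Fermat.Agent.AV.Basics88.SumTangent
  Fermat.Agent.AV.Basics88.SumTangentGen

variable {K : Type u} [Field K] {A : Scheme.{u}} {f : A ⟶ Spec (CommRingCat.of K)}
  {B : Type u} [CommRing B] [Algebra K B] (j : Spec (CommRingCat.of B) ⟶ A)
  (hj : j ≫ f = str K B) (e : SchemeHomOver (𝟙 (Spec (CommRingCat.of K))) f)
  {χ : B →ₐ[K] K} (hχ : specOf χ ≫ j = e.1) {g : ℕ} (W : Fin g → CurveGermAlg K B χ)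

/-- The base point of the chart. -/
def chartPt (χ : B →ₐ[K] K) : Pt (str K B) K := ⟨specOf χ, specOf_str χ⟩

include hχ in
theorem push_chartPt : Pt.push j hj (chartPt χ) = kpt e := by
  apply Subtype.ext
  rw [Pt.push_coe, kpt_coe]
  exact hχ

theorem kpt_germPtd_coe (i : Fin g) :
    (kpt (germPtd j hj e hχ (W i)).pt).1 = specOf (W i).pt := by
  rw [kpt_coe]
  rfl

theorem push_specOf_eq {R : Type u} [CommRing R] [Algebra K R] (π : B →ₐ[K] R) {pt : R →ₐ[K] K}
    (hπ : pt.comp π = χ) {x : Pt (str K R) K} (hx : x.1 = specOf pt) :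
    Pt.push (specOf π) (specOf_str π) x = chartPt χ := by
  apply Subtype.ext
  rw [Pt.push_coe, hx, ← specOf_comp, hπ]
  rfl

theorem push_germ (i : Fin g) :
    Pt.push (specOf (W i).π) (specOf_str (W i).π) (kpt (germPtd j hj e hχ (W i)).pt) =
      chartPt χ :=
  push_specOf_eq (W i).π (W i).pt_π (kpt_germPtd_coe j hj e hχ W i)

/-- The tangent map of a germ factors through the chart. -/
theorem tmap_germPtd (i : Fin g)
    (t : TSpace (germPtd j hj e hχ (W i)).s (kpt (germPtd j hj e hχ (W i)).pt)) :
    tmap (germPtd j hj e hχ (W i)).φ.1 (germPtd j hj e hχ (W i)).φ.2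
        (push_φ (germPtd j hj e hχ (W i))) t =
      tmap j hj (push_chartPt j hj e hχ)
        (tmap (specOf (W i).π) (specOf_str (W i).π) (push_germ j hj e hχ W i) t) := by
  rw [tmap_comp]
  rfl

/-- **TRANSLATION**: if the germs span the tangent space of the chart algebraically, the sum of the
tangent maps of the germs is bijective. -/
theorem bijective_sum_tmap_germPtd [IsOpenImmersion j] (hW : GermsSpan W) :
    Function.Bijective
      (fun t : (∀ i, TSpace (germPtd j hj e hχ (W i)).s (kpt (germPtd j hj e hχ (W i)).pt)) =>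
        ∑ i, tmap (germPtd j hj e hχ (W i)).φ.1 (germPtd j hj e hχ (W i)).φ.2
          (push_φ (germPtd j hj e hχ (W i))) (t i)) := by
  -- the parametrisations by point derivations
  let LB : DerAt (algebraMap K B) χ.toRingHom K ≃ₗ[K] TSpace (str K B) (chartPt χ) :=
    affL (x := chartPt χ) rfl
  let L : ∀ i, DerAt (algebraMap K (W i).R) (W i).pt.toRingHom K ≃ₗ[K]
      TSpace (germPtd j hj e hχ (W i)).s (kpt (germPtd j hj e hχ (W i)).pt) :=
    fun i => affL (kpt_germPtd_coe j hj e hχ W i)
  let P : (∀ i, DerAt (algebraMap K (W i).R) (W i).pt.toRingHom K) ≃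
      (∀ i, TSpace (germPtd j hj e hχ (W i)).s (kpt (germPtd j hj e hχ (W i)).pt)) :=
    Equiv.piCongrRight fun i => (L i).toEquiv
  have key : ∀ δ, (fun t : (∀ i, TSpace (germPtd j hj e hχ (W i)).s
        (kpt (germPtd j hj e hχ (W i)).pt)) =>
        ∑ i, tmap (germPtd j hj e hχ (W i)).φ.1 (germPtd j hj e hχ (W i)).φ.2
          (push_φ (germPtd j hj e hχ (W i))) (t i)) (P δ) =
      tmap j hj (push_chartPt j hj e hχ) (LB (derSum W δ)) := by
    intro δ
    beta_reduce
    unfold derSum
    rw [LinearMap.sum_apply, map_sum, map_sum]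
    refine Finset.sum_congr rfl fun i _ => ?_
    rw [tmap_germPtd]
    congr 1
    exact tmap_specOf (W i).π (W i).pt_π (kpt_germPtd_coe j hj e hχ W i) rfl
      (push_germ j hj e hχ W i) (δ i)
  have hcomp : (fun t : (∀ i, TSpace (germPtd j hj e hχ (W i)).s
        (kpt (germPtd j hj e hχ (W i)).pt)) =>
        ∑ i, tmap (germPtd j hj e hχ (W i)).φ.1 (germPtd j hj e hχ (W i)).φ.2
          (push_φ (germPtd j hj e hχ (W i))) (t i)) =
      (fun δ => tmap j hj (push_chartPt j hj e hχ) (LB (derSum W δ))) ∘ P.symm := by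
    funext t
    rw [Function.comp_apply, ← key, Equiv.apply_symm_apply]
  rw [hcomp]
  refine Function.Bijective.comp ?_ P.symm.bijective
  exact (tmap_bijective_of_isOpenImmersion j hj (push_chartPt j hj e hχ)).comp
    (LB.bijective.comp (derSum_bijective W hW))

end Main

end Fermat.Agent.AV.Curv33.Transl42
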